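import Fermat.Agent.CFT.PT.Orders

/-!
# Hilbert 90 for ideles supported at one prime
-/

set_option autoImplicit false
set_option synthInstance.maxHeartbeats 200000
set_option linter.unusedSectionVars false
set_option linter.style.haveILetI false

noncomputable section

namespace Fermat.Agent.CFT.PT

open ExtCitation Fermat.Agent.Arith IntermediateField Fermat.Agent.CFT.Local Fermat.Agent.CFT.Idele
open Fermat.Agent.CFT.Duality groupCohomology

local instance factPrimeSupp (q : Nat.Primes) : Fact (q : ℕ).Prime := ⟨q.2⟩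

variable {L : IntermediateField ℚ QBar} [FiniteDimensional ℚ L] [Normal ℚ L]

open Classical in
/-- An idele supported at `q` from its values there. -/
def singleJ (q : Nat.Primes) (y : (L ≃ₐ[ℚ] L) → (E L q)ˣ)
    (hy : ∀ t σ, y (toGlobal (q : ℕ) L t * σ) = t • y σ) : J L :=
  Additive.ofMul (Family.toIdl (L := L)
    { toFun := Function.update (fun _ _ => 1) q y
      equi := fun q' t σ => by
        rcases eq_or_ne q' q with rfl | hne
        · simp only [Function.update_self, hy]
        · simp only [Function.update_of_ne hne, smul_one]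
      cofinite := ⟨{q}, fun q' hq' σ => by
        rw [Function.update_of_ne (by simpa using hq')]; exact one_mem _⟩ })

theorem val_singleJ_self (q : Nat.Primes) (y : (L ≃ₐ[ℚ] L) → (E L q)ˣ)
    (hy : ∀ t σ, y (toGlobal (q : ℕ) L t * σ) = t • y σ) (σ : L ≃ₐ[ℚ] L) :
    val (singleJ q y hy).toMul q σ = y σ := by
  rw [singleJ, toMul_ofMul, Family.val_toIdl]
  simp only [Function.update_self]

theorem val_singleJ_ne (q : Nat.Primes) (y : (L ≃ₐ[ℚ] L) → (E L q)ˣ)
    (hy : ∀ t σ, y (toGlobal (q : ℕ) L t * σ) = t • y σ) {q' : Nat.Primes} (h : q' ≠ q)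
    (σ : L ≃ₐ[ℚ] L) : val (singleJ q y hy).toMul q' σ = 1 := by
  rw [singleJ, toMul_ofMul, Family.val_toIdl]
  simp only [Function.update_of_ne h]

theorem exists_cocycle_units (q : Nat.Primes) (T : Subgroup (E L q ≃ₐ[ℚ_[(q : ℕ)]] E L q))
    (e : T → (E L q)ˣ)
    (hee : ∀ s s' : T, e (s * s') = (s : E L q ≃ₐ[ℚ_[(q : ℕ)]] E L q) • e s' * e s) :
    ∃ z, ∀ s : T, (s : E L q ≃ₐ[ℚ_[(q : ℕ)]] E L q) • z / z = e s := by
  have h1 := h1Zero_units T
  obtain ⟨β, hβ⟩ := h1 (fun s => Additive.ofMul (e s))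
    fun s s' => congrArg Additive.ofMul (hee s s')
  exact ⟨β.toMul, fun s => congrArg Additive.toMul (hβ s)⟩

/-- A cocycle with values in the ideles supported at `q` is the coboundary of one of them. -/
theorem exists_of_cocycle_supported (q : Nat.Primes) (H : Subgroup (L ≃ₐ[ℚ] L)) (c : H → J L)
    (hc : IsCocycle₁ c) (hs : ∀ h, c h ∈ supportedIn L {q}) :
    ∃ y ∈ supportedIn L {q}, ∀ h : H, h • y - y = c h := by
  have hcoc : ∀ (h h' : H) (σ : L ≃ₐ[ℚ] L), val (c (h * h')).toMul q σ =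
      val (c h').toMul q (σ * h) * val (c h).toMul q σ := fun h h' σ => by
    rw [hc h h', val_toMul_add, show h • c h' = (h : L ≃ₐ[ℚ] L) • c h' from rfl, val_smul_J]
  have hsemi : ∀ h : H, SemiIn (toGlobal (q : ℕ) L) (⊤ : Subgroup (E L q)ˣ)
      fun σ => val (c h).toMul q σ :=
    fun h => ⟨fun t σ => val_toGlobal_mul (c h).toMul q t σ, fun _ => Subgroup.mem_top _⟩
  obtain ⟨y, hy, hy'⟩ := semi_h1 (j := toGlobal (q : ℕ) L) (D := (⊤ : Subgroup (E L q)ˣ)) H
    (fun _ _ _ => Subgroup.mem_top _)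
    (fun T e _ hee => by
      obtain ⟨z, hz⟩ := exists_cocycle_units q T e hee
      exact ⟨z, Subgroup.mem_top _, hz⟩)
    (fun h σ => val (c h).toMul q σ) hsemi hcoc
  refine ⟨singleJ q y hy.equi, fun q' hq' σ => val_singleJ_ne q y hy.equi (by simpa using hq') σ,
    fun h => J_ext fun q' σ => ?_⟩
  rw [val_toMul_sub, show h • singleJ q y hy.equi = (h : L ≃ₐ[ℚ] L) • singleJ q y hy.equi from rfl,
    val_smul_J]
  rcases eq_or_ne q' q with rfl | hne
  · rw [val_singleJ_self, val_singleJ_self, hy' h σ]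
  · rw [val_singleJ_ne q y hy.equi hne, val_singleJ_ne q y hy.equi hne, div_one,
      hs h q' (by simpa using hne) σ]

end Fermat.Agent.CFT.PT
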