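import Fermat.Agent.CFT.PT.Link
import Fermat.Agent.CFT.PT.SupportedH1
import Fermat.Agent.CFT.Duality.Units

/-!
# Units at one prime, and descent of semilocal trivialisations of `2`-cocycles
-/

set_option autoImplicit false
set_option synthInstance.maxHeartbeats 200000
set_option maxHeartbeats 800000
set_option linter.unusedSectionVars false
set_option linter.style.haveILetI false

noncomputable section

namespace Fermat.Agent.CFT.PT

open ExtCitation Fermat.Agent.Arith IntermediateField Fermat.Agent.CFT.Local Fermat.Agent.CFT.Idele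
open Fermat.Agent.CFT.Duality groupCohomology

local instance factPrimeDescent (q : Nat.Primes) : Fact (q : ℕ).Prime := ⟨q.2⟩

variable {L L' : IntermediateField ℚ QBar} [FiniteDimensional ℚ L] [Normal ℚ L]
  [FiniteDimensional ℚ L'] [Normal ℚ L']

variable (L) in
/-- Ideles supported at `q` which are units outside `S`. -/
def suppV (q : Nat.Primes) (S : Set Nat.Primes) : AddSubgroup (J L) :=
  supportedIn L {q} ⊓ unitsOutside L S

theorem smul_mem_suppV {q : Nat.Primes} {S : Set Nat.Primes} (σ : L ≃ₐ[ℚ] L) {x : J L}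
    (hx : x ∈ suppV L q S) : σ • x ∈ suppV L q S :=
  ⟨smul_mem_supportedIn σ hx.1, smul_mem_unitsOutside σ hx.2⟩

theorem normAt_of_supported {T : Set Nat.Primes} {x : J L} (hx : x ∈ supportedIn L T)
    {q : Nat.Primes} (hq : q ∉ T) (g : GQ) : normAt L q g x = 1 := by
  rw [← norm_val_eq, hx q hq, Units.val_one, norm_one]

theorem supported_le_suppV {q : Nat.Primes} {S : Set Nat.Primes} (hq : q ∈ S) :
    supportedIn L {q} ≤ suppV L q S := fun _ hx => ⟨hx, fun q' hq' g =>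
  normAt_of_supported hx (fun h : q' ∈ ({q} : Set Nat.Primes) => hq' (h ▸ hq)) g⟩

theorem suppV_eq_unitsOff {q : Nat.Primes} {S : Set Nat.Primes} (hq : q ∉ S) :
    suppV L q S = unitsOff L {q}ᶜ := by
  refine le_antisymm (fun x hx => ?_) fun x hx => ⟨fun q' hq' σ => (hx q' σ).2 hq', fun q' hq' g => ?_⟩
  · refine mem_unitsOff_of_mem (by rw [compl_compl]; exact hx.1) fun q' hq' g => ?_
    rw [Set.mem_compl_iff, not_not] at hq'
    exact hx.2 q' (hq' ▸ hq) g
  · rw [← norm_val_eq]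
    exact (mem_unitGroup _).1 (hx q' _).1

/-- Hilbert 90 for ideles supported at `q` which are units outside `S`. -/
theorem exists_of_cocycle_suppV {q : Nat.Primes} {S : Set Nat.Primes}
    (hq : q ∈ S ∨ inertia (E L q) = ⊥) (H : Subgroup (L ≃ₐ[ℚ] L)) (c : H → J L)
    (hc : IsCocycle₁ c) (hs : ∀ h, c h ∈ suppV L q S) :
    ∃ y ∈ suppV L q S, ∀ h : H, h • y - y = c h := by
  by_cases hqS : q ∈ S
  · obtain ⟨y, hy, hy'⟩ := exists_of_cocycle_supported q H c hc fun h => (hs h).1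
    exact ⟨y, supported_le_suppV hqS hy, hy'⟩
  · have hT : ∀ q' ∉ ({q}ᶜ : Set Nat.Primes), inertia (E L q') = ⊥ := fun q' hq' => by
      rw [Set.mem_compl_iff, not_not] at hq'
      rw [hq']; exact hq.resolve_left hqS
    rw [suppV_eq_unitsOff hqS] at hs ⊢
    obtain ⟨y, hy⟩ := h1Zero_unitsOff hT H (fun h => ⟨c h, hs h⟩) fun g h => Subtype.ext (hc g h)
    exact ⟨(y : J L), y.2, fun h => congrArg Subtype.val (hy h)⟩

theorem inclJ_mem_supportedIn_iff (h : L ≤ L') {T : Set Nat.Primes} {x : J L} :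
    inclJ h x ∈ supportedIn L' T ↔ x ∈ supportedIn L T := by
  refine ⟨fun hx q hq σ => ?_, fun hx => inclJ_mem_supportedIn h hx⟩
  obtain ⟨σ, rfl⟩ := levelRes_surjective h σ
  have e := coe_val_inclIdl h x.toMul q σ
  rw [← toMul_inclJ, hx q hq σ] at e
  refine Units.ext (Subtype.ext ?_)
  rw [← e]
  simp only [Units.val_one, OneMemClass.coe_one]

theorem inclJ_mem_suppV_iff (h : L ≤ L') {q : Nat.Primes} {S : Set Nat.Primes} {x : J L} :
    inclJ h x ∈ suppV L' q S ↔ x ∈ suppV L q S :=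
  and_congr (inclJ_mem_supportedIn_iff h) Iff.rfl

variable {K : IntermediateField ℚ QBar} [FiniteDimensional ℚ K] [Normal ℚ K]
  {ι : Type*} [Fintype ι]

/-- A semilocal trivialisation at a higher level of an inflated cocycle descends. -/
theorem exists_descend_cochain (le : K ≤ L) (h' : L ≤ L') {q : Nat.Primes} {S : Set Nat.Primes}
    (hq : q ∈ S ∨ inertia (E L' q) = ⊥)
    (c : (L ≃ₐ[ℚ] L) × (L ≃ₐ[ℚ] L) → TwHom (levelRes le) (Lat (K ≃ₐ[ℚ] K) ι) (J L))
    (hc : IsCocycle₂ c) (hcV : ∀ x z, c x z ∈ suppV L q S)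
    (t : (L' ≃ₐ[ℚ] L') → TwHom (levelRes (le.trans h')) (Lat (K ≃ₐ[ℚ] K) ι) (J L'))
    (htV : ∀ g z, t g z ∈ suppV L' q S)
    (ht : ∀ g h z, dd t g h z = inclJ h' (c (levelRes h' g, levelRes h' h) z)) :
    ∃ t₀ : (L ≃ₐ[ℚ] L) → TwHom (levelRes le) (Lat (K ≃ₐ[ℚ] K) ι) (J L),
      (∀ g z, t₀ g z ∈ suppV L q S) ∧ ∀ g h z, dd t₀ g h z = c (g, h) z := by
  classical
  set N := (levelRes h').ker
  have hπN : ∀ n ∈ N, levelRes (le.trans h') n = 1 := fun n hn => by
    rw [← levelRes_levelRes le h', MonoidHom.mem_ker.1 hn, map_one]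
  have hNsmul : ∀ n ∈ N, ∀ x : J L, n • inclJ h' x = inclJ h' x := fun n hn x => by
    rw [smul_inclJ, MonoidHom.mem_ker.1 hn, one_smul]
  let k : Lat (K ≃ₐ[ℚ] K) ι → J L' := fun z => inclJ h' (c (1, 1) z)
  have hy : ∀ (i : ι) (x : K ≃ₐ[ℚ] K), ∃ y ∈ suppV L' q S, ∀ n : N,
      n • y - y = t (n : L' ≃ₐ[ℚ] L') (Lat.e i x) - k (Lat.e i x) := fun i x => by
    refine exists_of_cocycle_suppV hq N (fun n => t (n : L' ≃ₐ[ℚ] L') (Lat.e i x) - k (Lat.e i x))
      (fun m n => ?_) fun n => sub_mem (htV _ _) ((inclJ_mem_suppV_iff h').2 (hcV _ _))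
    have e := ht m n (Lat.e i x)
    rw [MonoidHom.mem_ker.1 m.2, MonoidHom.mem_ker.1 n.2] at e
    simp only [dd, TwHom.add_apply, TwHom.sub_apply, TwHom.smul_apply, map_inv,
      hπN m m.2, inv_one, one_smul] at e
    have hk : (m : L' ≃ₐ[ℚ] L') • k (Lat.e i x) = k (Lat.e i x) := hNsmul m m.2 _
    show t ((m : L' ≃ₐ[ℚ] L') * n) (Lat.e i x) - k (Lat.e i x) =
      (m : L' ≃ₐ[ℚ] L') • (t (n : L' ≃ₐ[ℚ] L') (Lat.e i x) - k (Lat.e i x)) +
        (t (m : L' ≃ₐ[ℚ] L') (Lat.e i x) - k (Lat.e i x))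
    simp only [k] at hk ⊢
    rw [smul_sub, hk, ← e]
    abel
  choose y hyV hy using hy
  let Y : Lat (K ≃ₐ[ℚ] K) ι →+ J L' := Lat.ofBasis y
  have hYV : ∀ z, Y z ∈ suppV L' q S := fun z => by
    rw [Lat.eq_sum z, map_sum]
    refine sum_mem fun r _ => ?_
    rw [map_zsmul, Lat.ofBasis_e]
    exact zsmul_mem (hyV _ _) _
  let t' : (L' ≃ₐ[ℚ] L') → TwHom (levelRes (le.trans h')) (Lat (K ≃ₐ[ℚ] K) ι) (J L') := fun g => t g - (g • TwHom.of Y - TwHom.of Y)
  have ht' : ∀ g h z, dd t' g h z = inclJ h' (c (levelRes h' g, levelRes h' h) z) := fun g h z => by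
    rw [← ht]
    simp only [dd, t', smul_sub, mul_smul, TwHom.add_apply, TwHom.sub_apply]
    abel
  have htV' : ∀ g z, t' g z ∈ suppV L' q S := fun g z =>
    sub_mem (htV g z) (sub_mem (smul_mem_suppV g (hYV _)) (hYV z))
  have hN : ∀ (n : N) (z : Lat (K ≃ₐ[ℚ] K) ι), t' (n : L' ≃ₐ[ℚ] L') z = k z := by
    intro n
    have e : (t' (n : L' ≃ₐ[ℚ] L')).toHom = (inclJ h').comp (c (1, 1)).toHom := Lat.hom_ext fun i x => by
      show t' (n : L' ≃ₐ[ℚ] L') (Lat.e i x) = k (Lat.e i x)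
      simp only [t', TwHom.sub_apply, TwHom.smul_apply, map_inv, hπN n n.2, inv_one, one_smul,
        TwHom.of_apply, Y, Lat.ofBasis_e]
      rw [show (n : L' ≃ₐ[ℚ] L') • y i x - y i x = n • y i x - y i x from rfl, hy i x n]
      abel
    exact fun z => DFunLike.congr_fun e z
  have hc11 : ∀ g z, c (g, 1) z = g • c (1, 1) (levelRes le g⁻¹ • z) := fun g z => by
    have e := congr_arg (fun φ : TwHom (levelRes le) (Lat (K ≃ₐ[ℚ] K) ι) (J L) => φ z) (hc g 1 1)
    simp only [mul_one, TwHom.add_apply, TwHom.smul_apply] at e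
    exact add_right_cancel e
  have hc1h : ∀ h z, c (1, h) z = c (1, 1) z := fun h z => by
    have e := congr_arg (fun φ : TwHom (levelRes le) (Lat (K ≃ₐ[ℚ] K) ι) (J L) => φ z) (hc 1 1 h)
    simp only [mul_one, one_mul, TwHom.add_apply, one_smul] at e
    exact (add_left_cancel e).symm
  have hright : ∀ (g : L' ≃ₐ[ℚ] L') (n : N) z, t' (g * n) z = t' g z := fun g n z => by
    have e := ht' g n z
    rw [MonoidHom.mem_ker.1 n.2, hc11] at e
    simp only [dd, TwHom.add_apply, TwHom.sub_apply, TwHom.smul_apply, hN] at e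
    rw [← smul_inclJ, ← map_inv (levelRes h'), levelRes_levelRes] at e
    simp only [k] at e
    rw [sub_add_eq_add_sub, sub_eq_iff_eq_add] at e
    exact (add_left_cancel e).symm
  have hfix : ∀ (g : L' ≃ₐ[ℚ] L'), ∀ n ∈ N, ∀ z, n • t' g z = t' g z := fun g n hn z => by
    have e := ht' n g z
    rw [MonoidHom.mem_ker.1 hn, hc1h] at e
    simp only [dd, TwHom.add_apply, TwHom.sub_apply, TwHom.smul_apply, map_inv, hπN n hn, inv_one,
      one_smul] at e
    have e2 : t' n z = k z := hN ⟨n, hn⟩ z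
    have e3 : n * g = g * ((⟨g⁻¹ * n * g,
        (inferInstance : N.Normal).conj_mem' n hn g⟩ : N) : L' ≃ₐ[ℚ] L') := by simp [mul_assoc]
    rw [e2, e3, hright] at e
    simp only [k, add_eq_right, sub_eq_zero] at e
    exact e
  choose s hs using fun (g : L' ≃ₐ[ℚ] L') (z : Lat (K ≃ₐ[ℚ] K) ι) =>
    exists_inclJ_eq h' (x := t' g z) fun n hn => hfix g n hn z
  have hs_add : ∀ g z z', s g (z + z') = s g z + s g z' := fun g z z' =>
    inclJ_injective h' (by rw [map_add (inclJ h'), hs, hs, hs, map_add (t' g)])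
  let sec : (L ≃ₐ[ℚ] L) → (L' ≃ₐ[ℚ] L') := Function.surjInv (levelRes_surjective h')
  let t₀ : (L ≃ₐ[ℚ] L) → TwHom (levelRes le) (Lat (K ≃ₐ[ℚ] K) ι) (J L) :=
    fun g => TwHom.of (AddMonoidHom.mk' (s (sec g)) (hs_add _))
  have ht₀ : ∀ g z, inclJ h' (t₀ (levelRes h' g) z) = t' g z := fun g z => by
    show inclJ h' (s (sec (levelRes h' g)) z) = _
    rw [hs]
    have hm : g⁻¹ * sec (levelRes h' g) ∈ N := by
      rw [MonoidHom.mem_ker, map_mul, map_inv, Function.surjInv_eq (levelRes_surjective h'),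
        inv_mul_cancel]
    rw [show sec (levelRes h' g) = g * ((⟨_, hm⟩ : N) : L' ≃ₐ[ℚ] L') from
      (mul_inv_cancel_left g _).symm, hright]
  refine ⟨t₀, fun g z => (inclJ_mem_suppV_iff h').1 ?_, fun g h z => inclJ_injective h' ?_⟩
  · obtain ⟨g, rfl⟩ := levelRes_surjective h' g
    rw [ht₀]; exact htV' _ _
  · obtain ⟨g, rfl⟩ := levelRes_surjective h' g
    obtain ⟨h, rfl⟩ := levelRes_surjective h' h
    rw [← ht']
    simp only [dd, TwHom.add_apply, TwHom.sub_apply, TwHom.smul_apply, map_add, map_sub,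
      ← smul_inclJ, ← map_mul, ht₀, ← map_inv (levelRes h'), levelRes_levelRes]

end Fermat.Agent.CFT.PT
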