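import Fermat.Agent.CFT.PT.Link
import Fermat.Agent.CFT.PT.Arith.Roots
import Mathlib.Algebra.Category.Grp.Injective

/-!
# Extensions into the divisible group of units of `ℚ̄` and the fields of their values
-/

set_option autoImplicit false
set_option synthInstance.maxHeartbeats 200000
set_option linter.unusedSectionVars false
set_option linter.style.haveILetI false

noncomputable section

namespace Fermat.Agent.CFT.PT

open ExtCitation Fermat.Agent.Arith IntermediateField Fermat.Agent.CFT.Local Fermat.Agent.CFT.Idele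
open Fermat.Agent.CFT.Duality

local instance factPrimeExtend (q : Nat.Primes) : Fact (q : ℕ).Prime := ⟨q.2⟩

/-- Homomorphisms into the units of an algebraically closed field extend. -/
theorem exists_extend_units {P F : Type*} [AddCommGroup P] [Field F] [IsAlgClosed F]
    (R : AddSubgroup P) (φ : R →+ Additive Fˣ) :
    ∃ ψ : P →+ Additive Fˣ, ∀ s : R, ψ s = φ s := by
  letI : DivisibleBy (Additive Fˣ) ℤ := divisibleByOfSMulRightSurj _ _ fun {n} hn a => by
    obtain ⟨r, hr⟩ := IsAlgClosed.exists_pow_nat_eq ((a.toMul : Fˣ) : F) (Int.natAbs_pos.2 hn)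
    have hr0 : r ≠ 0 := fun h => by
      rw [h, zero_pow (Int.natAbs_ne_zero.2 hn)] at hr
      exact (a.toMul : Fˣ).ne_zero hr.symm
    have e : (Units.mk0 r hr0) ^ n.natAbs = a.toMul := Units.ext (by rw [Units.val_pow_eq_pow_val]; exact hr)
    rcases Int.natAbs_eq n with h | h
    · exact ⟨Additive.ofMul (Units.mk0 r hr0), Additive.toMul.injective (by
        rw [toMul_zsmul, toMul_ofMul, h, zpow_natCast, e])⟩
    · exact ⟨Additive.ofMul (Units.mk0 r hr0)⁻¹, Additive.toMul.injective (by
        rw [toMul_zsmul, toMul_ofMul, h, zpow_neg, inv_zpow, inv_inv, zpow_natCast, e])⟩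
  obtain ⟨ψ, hψ⟩ := (Module.Baer.of_divisible (Additive Fˣ)).extension_property_addMonoidHom
    R.subtype Subtype.coe_injective φ
  exact ⟨ψ, fun s => DFunLike.congr_fun hψ s⟩

/-- Roots of elements with orders divisible by `p` outside `S` lie in a level unramified outside
`S`. -/
theorem exists_level_roots {p : ℕ} [Fact p.Prime] {S : Finset Nat.Primes} (hpS : pPrime p ∈ S)
    {L : IntermediateField ℚ QBar} [FiniteDimensional ℚ L] [Normal ℚ L]
    (hL : L.IsUnramifiedOutside S) {κ : Type*} [Finite κ] (x : κ → Additive Lˣ)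
    (hx : ∀ i, diag L (x i) ∈ divOrd L p (S : Set Nat.Primes)) (y : κ → Additive QBarˣ)
    (hy : ∀ i, p • y i = unitsToQ L (x i)) :
    ∃ (L2 : IntermediateField ℚ QBar) (_ : FiniteDimensional ℚ L2) (_ : Normal ℚ L2),
      L ≤ L2 ∧ L2.IsUnramifiedOutside S ∧ ∀ i, (((y i).toMul : QBarˣ) : QBar) ∈ L2 := by
  classical
  have h1 : ∀ i, ∃ L2 : IntermediateField ℚ QBar, FiniteDimensional ℚ L2 ∧ Normal ℚ L2 ∧
      L2.IsUnramifiedOutside S ∧ L ≤ L2 ∧ (((y i).toMul : QBarˣ) : QBar) ∈ L2 := fun i => by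
    refine exists_ur_root hpS hL (x i).toMul 1 (fun q hq σ => ?_) _ ?_
    · obtain ⟨n, hn⟩ := hx i q (by simpa using hq) (lift L σ)
      refine ⟨n, ?_⟩
      rw [← norm_val_eq, res_lift] at hn
      rw [pow_one, ← hn]
      exact congrArg (fun z : E L q => ‖z‖) (val_prinL (x i).toMul q σ).symm
    · rw [pow_one, ← unitsToQ_val, ← hy, toMul_nsmul, Units.val_pow_eq_pow_val]
  choose F hFd hFn hFur hLF hmem using h1
  suffices key : ∀ s : Finset κ, ∃ (L2 : IntermediateField ℚ QBar) (_ : FiniteDimensional ℚ L2)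
      (_ : Normal ℚ L2), L ≤ L2 ∧ L2.IsUnramifiedOutside S ∧ ∀ i ∈ s, F i ≤ L2 by
    haveI := Fintype.ofFinite κ
    obtain ⟨L2, hd, hn, hle, hur, hF⟩ := key Finset.univ
    exact ⟨L2, hd, hn, hle, hur, fun i => hF i (Finset.mem_univ i) (hmem i)⟩
  intro s
  induction s using Finset.induction with
  | empty => exact ⟨L, inferInstance, inferInstance, le_rfl, hL, by simp⟩
  | insert i s _ ih =>
    obtain ⟨L2, hd, hn, hle, hur, hF⟩ := ih
    refine ⟨L2 ⊔ F i, (hur.sup (hFur i)).1,
      @IntermediateField.normal_sup ℚ QBar _ _ _ L2 (F i) hn (hFn i), hle.trans le_sup_left,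
      hur.sup (hFur i), fun j hj => ?_⟩
    rcases Finset.mem_insert.1 hj with rfl | hj
    · exact le_sup_right
    · exact (hF j hj).trans le_sup_left

end Fermat.Agent.CFT.PT
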