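import Fermat.Agent.CFT.PT.Descent

/-!
# Gluing semilocal components, and the local input for `2`-cocycles
-/

set_option autoImplicit false
set_option synthInstance.maxHeartbeats 200000
set_option maxHeartbeats 800000
set_option linter.unusedSectionVars false
set_option linter.style.haveILetI false

noncomputable section

namespace Fermat.Agent.CFT.PT

open ExtCitation Fermat.Agent.Arith IntermediateField Fermat.Agent.CFT.Local Fermat.Agent.CFT.Idele
open Fermat.Agent.CFT.Duality groupCohomology

local instance factPrimeGlue (q : Nat.Primes) : Fact (q : ℕ).Prime := ⟨q.2⟩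

variable {L : IntermediateField ℚ QBar} [FiniteDimensional ℚ L] [Normal ℚ L]

/-- The idele with prescribed parts at every prime, units outside a finite set. -/
def glueJ (T : Finset Nat.Primes) (x : Nat.Primes → J L)
    (hx : ∀ q, x q ∈ suppV L q (T : Set Nat.Primes)) : J L :=
  Additive.ofMul (Family.toIdl (L := L)
    { toFun := fun q σ => val (x q).toMul q σ
      equi := fun q t σ => val_toGlobal_mul (x q).toMul q t σ
      cofinite := ⟨T, fun q hq σ => by
        rw [mem_unitGroup, ← res_lift L σ, norm_val_eq]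
        exact (hx q).2 q (by simpa using hq) _⟩ })

theorem val_glueJ (T : Finset Nat.Primes) (x : Nat.Primes → J L)
    (hx : ∀ q, x q ∈ suppV L q (T : Set Nat.Primes)) (q : Nat.Primes) (σ : L ≃ₐ[ℚ] L) :
    val (glueJ T x hx).toMul q σ = val (x q).toMul q σ := Family.val_toIdl _ q σ

theorem partAt_glueJ (T : Finset Nat.Primes) (x : Nat.Primes → J L)
    (hx : ∀ q, x q ∈ suppV L q (T : Set Nat.Primes)) (q : Nat.Primes) :
    partAt {q} (glueJ T x hx) = x q := by
  classical
  refine J_ext fun q' σ => ?_
  rw [val_partAt, Set.mem_singleton_iff]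
  split_ifs with h
  · subst h; rw [val_glueJ]
  · exact ((hx q).1 q' (by simpa using h) σ).symm

theorem J_ext_part {x y : J L} (h : ∀ q, partAt {q} x = partAt {q} y) : x = y := by
  classical
  refine J_ext fun q σ => ?_
  have e := congrArg (fun z : J L => val z.toMul q σ) (h q)
  simpa only [val_partAt, Set.mem_singleton_iff, if_true] using e

theorem partAt_mem_suppV {q : Nat.Primes} {S : Set Nat.Primes} {x : J L}
    (hx : x ∈ unitsOutside L S) : partAt {q} x ∈ suppV L q S := by
  classical
  refine ⟨partAt_mem_supportedIn {q} x, fun q' hq' g => ?_⟩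
  by_cases h : q' = q
  · rw [← norm_val_eq, val_partAt, Set.mem_singleton_iff, if_pos h, norm_val_eq]
    exact hx q' hq' g
  · exact normAt_of_supported (partAt_mem_supportedIn {q} x)
      (fun hm : q' ∈ ({q} : Set Nat.Primes) => h hm) g

theorem partAt_inclJ {L' : IntermediateField ℚ QBar} [FiniteDimensional ℚ L'] [Normal ℚ L']
    (h' : L ≤ L') (T : Set Nat.Primes) (x : J L) :
    partAt T (inclJ h' x) = inclJ h' (partAt T x) := by
  classical
  refine J_ext fun q σ => ?_
  refine Units.ext (Subtype.ext ?_)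
  by_cases hq : q ∈ T
  · rw [val_partAt, if_pos hq, toMul_inclJ, coe_val_inclIdl, toMul_inclJ, coe_val_inclIdl,
      val_partAt, if_pos hq]
  · rw [val_partAt, if_neg hq, toMul_inclJ, coe_val_inclIdl, val_partAt, if_neg hq]
    simp only [Units.val_one, OneMemClass.coe_one]

variable {K : IntermediateField ℚ QBar} [FiniteDimensional ℚ K] [Normal ℚ K]
  {A : Type*} [AddCommGroup A] [DistribMulAction (K ≃ₐ[ℚ] K) A]

/-- A cocycle at level `L` with values in `Hom(A, Lˣ)` is trivial at `q`, at some higher level. -/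
def LocTriv (S : Finset Nat.Primes) {le : K ≤ L}
    (c : (L ≃ₐ[ℚ] L) × (L ≃ₐ[ℚ] L) → TwHom (levelRes le) A (Additive Lˣ)) (q : Nat.Primes) :
    Prop :=
  ∃ (L' : IntermediateField ℚ QBar) (_ : FiniteDimensional ℚ L') (_ : Normal ℚ L') (h' : L ≤ L'),
    (q ∉ S → inertia (E L' q) = ⊥ ∧
      ∀ (g : GQ) (x : J L'), ∃ n : ℤ, normAt L' q g x = (q : ℝ) ^ n) ∧
    ∃ t : (L' ≃ₐ[ℚ] L') → TwHom (levelRes (le.trans h')) A (J L'),
      (∀ g a, t g a ∈ supportedIn L' {q}) ∧
      ∀ g h a, dd t g h a =
        partAt {q} (inclJ h' (diag L (c (levelRes h' g, levelRes h' h) a)))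

end Fermat.Agent.CFT.PT
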