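import Fermat.Agent.CFT.PT.TwHom
import Fermat.Agent.CFT.PT.Orders
import Fermat.Prelude.Def_GroupCohomology_ContinuousUnramified

/-!
# Links between equivariant maps into classes and `2`-cocycles with values in the twisted dual

For `0 → R → P₀ → A → 0` at a level `K`: a link is a map `b` from `R` to the ideles of a level `L`
unramified outside `S` lifting `f : R → C K` together with homomorphisms `e g : P₀ → Lˣ` extending
`g b - b`; its coboundary has values in `Hom(A, μ)`.
-/

set_option autoImplicit false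
set_option synthInstance.maxHeartbeats 200000
set_option linter.unusedSectionVars false
set_option linter.style.haveILetI false

noncomputable section

namespace Fermat.Agent.CFT.PT

open ExtCitation Fermat.Agent.Arith IntermediateField Fermat.Agent.CFT.Local Fermat.Agent.CFT.Idele
open Fermat.Agent.CFT.Duality groupCohomology

/-- The inclusion of the units of a subfield. -/
def unitsToQ (L : IntermediateField ℚ QBar) : Additive Lˣ →+ Additive QBarˣ :=
  MonoidHom.toAdditive (Units.map L.val.toRingHom.toMonoidHom)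

theorem unitsToQ_val (L : IntermediateField ℚ QBar) (x : Additive Lˣ) :
    (((unitsToQ L x).toMul : QBarˣ) : QBar) = (((x.toMul : Lˣ) : L) : QBar) := rfl

theorem unitsToQ_injective (L : IntermediateField ℚ QBar) : Function.Injective (unitsToQ L) :=
  fun x y h => Additive.toMul.injective (Units.ext (Subtype.ext (by
    rw [← unitsToQ_val, h, unitsToQ_val])))

theorem smul_unitsToQ (L : IntermediateField ℚ QBar) [Normal ℚ L] (g : GQ) (x : Additive Lˣ) :
    g • unitsToQ L x = unitsToQ L (res L g • x) := by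
  refine Additive.toMul.injective (Units.ext ?_)
  show g (((x.toMul : Lˣ) : L) : QBar) = ((res L g ((x.toMul : Lˣ) : L) : L) : QBar)
  rw [res_apply]

/-- The inclusion of the units of a smaller subfield. -/
def unitsIncl {L L' : IntermediateField ℚ QBar} (h : L ≤ L') : Additive Lˣ →+ Additive L'ˣ :=
  MonoidHom.toAdditive (Units.map (IntermediateField.inclusion h).toRingHom.toMonoidHom)

theorem unitsToQ_unitsIncl {L L' : IntermediateField ℚ QBar} (h : L ≤ L') (x : Additive Lˣ) :
    unitsToQ L' (unitsIncl h x) = unitsToQ L x := rfl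

theorem smul_unitsIncl {L L' : IntermediateField ℚ QBar} [FiniteDimensional ℚ L] [Normal ℚ L]
    [FiniteDimensional ℚ L'] [Normal ℚ L'] (h : L ≤ L') (σ : L' ≃ₐ[ℚ] L') (x : Additive Lˣ) :
    σ • unitsIncl h x = unitsIncl h (levelRes h σ • x) := by
  refine unitsToQ_injective L' ?_
  obtain ⟨g, rfl⟩ := AlgEquiv.restrictNormalHom_surjective (K₁ := L') QBar σ
  rw [← smul_unitsToQ, levelRes_res, unitsToQ_unitsIncl, unitsToQ_unitsIncl, smul_unitsToQ]

theorem diag_unitsIncl {L L' : IntermediateField ℚ QBar} [FiniteDimensional ℚ L] [Normal ℚ L]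
    [FiniteDimensional ℚ L'] [Normal ℚ L'] (h : L ≤ L') (x : Additive Lˣ) :
    diag L' (unitsIncl h x) = inclJ h (diag L x) :=
  congrArg Additive.ofMul (inclIdl_prinL h x.toMul).symm

theorem diag_injective (L : IntermediateField ℚ QBar) [FiniteDimensional ℚ L] [Normal ℚ L] :
    Function.Injective (diag L) := fun _ _ h => prinL_injective h

theorem levelRes_levelRes {K L L' : IntermediateField ℚ QBar} [FiniteDimensional ℚ K] [Normal ℚ K]
    [FiniteDimensional ℚ L] [Normal ℚ L] [FiniteDimensional ℚ L'] [Normal ℚ L'] (h : K ≤ L)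
    (h' : L ≤ L') (σ : L' ≃ₐ[ℚ] L') :
    levelRes h (levelRes h' σ) = levelRes (h.trans h') σ := by
  obtain ⟨g, rfl⟩ := AlgEquiv.restrictNormalHom_surjective (K₁ := L') QBar σ
  simp only [levelRes_res]

theorem inclC_trans {K L L' : IntermediateField ℚ QBar} [FiniteDimensional ℚ K] [Normal ℚ K]
    [FiniteDimensional ℚ L] [Normal ℚ L] [FiniteDimensional ℚ L'] [Normal ℚ L'] (h : K ≤ L)
    (h' : L ≤ L') (x : C K) : inclC h' (inclC h x) = inclC (h.trans h') x := by
  obtain ⟨x, rfl⟩ := proj_surjective K x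
  rfl

variable {K : IntermediateField ℚ QBar} [FiniteDimensional ℚ K] [Normal ℚ K]

section Hom

variable {L : IntermediateField ℚ QBar} [FiniteDimensional ℚ L] [Normal ℚ L] {h : K ≤ L}
  {P : Type*} [AddCommGroup P] [DistribMulAction (K ≃ₐ[ℚ] K) P]

/-- Values in `Lˣ` read in `ℚ̄ˣ`. -/
def toQHom : TwHom (levelRes h) P (Additive Lˣ) →+ TwHom (res K) P (Additive QBarˣ) :=
  AddMonoidHom.mk' (fun φ => TwHom.of ((unitsToQ L).comp φ.toHom))
    fun φ ψ => TwHom.ext fun x => map_add (unitsToQ L) (φ x) (ψ x)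

@[simp] theorem toQHom_apply (φ : TwHom (levelRes h) P (Additive Lˣ)) (x : P) :
    toQHom φ x = unitsToQ L (φ x) := rfl

theorem smul_toQHom (g : GQ) (φ : TwHom (levelRes h) P (Additive Lˣ)) :
    g • toQHom φ = toQHom (res L g • φ) := TwHom.ext fun x => by
  simp only [TwHom.smul_apply, toQHom_apply, smul_unitsToQ]
  rw [← levelRes_res h, map_inv]

theorem toQHom_injective :
    Function.Injective (toQHom (K := K) (L := L) (h := h) (P := P)) := fun _ _ e =>
  TwHom.ext fun x => unitsToQ_injective L (congr_arg (fun η : TwHom (res K) P _ => η x) e)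

end Hom

/-- The differential of a `1`-cochain. -/
def dd {G X : Type*} [Group G] [AddCommGroup X] [DistribMulAction G X] (e : G → X) (g h : G) : X :=
  g • e h - e (g * h) + e g

theorem dd_add {G X : Type*} [Group G] [AddCommGroup X] [DistribMulAction G X] (e e' : G → X)
    (g h : G) : dd (e + e') g h = dd e g h + dd e' g h := by
  simp only [dd, Pi.add_apply, smul_add]; abel

theorem dd_neg {G X : Type*} [Group G] [AddCommGroup X] [DistribMulAction G X] (e : G → X)
    (g h : G) : dd (-e) g h = -dd e g h := by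
  simp only [dd, Pi.neg_apply, smul_neg]; abel

variable {A ι : Type*} [AddCommGroup A] [DistribMulAction (K ≃ₐ[ℚ] K) A] [Fintype ι] {p : ℕ}
  {ε : Lat (K ≃ₐ[ℚ] K) ι →+ A} (hε : Presentation p ε) (S : Finset Nat.Primes)

variable (K A) in
/-- The Cartier dual of `A`, as a module for the absolute Galois group. -/
abbrev DualMod : Type _ := TwHom (res K) A (Additive QBarˣ)

/-- Data at a level linking a cocycle and an equivariant map into classes. -/
structure LinkAt {L : IntermediateField ℚ QBar} [FiniteDimensional ℚ L] [Normal ℚ L] (le : K ≤ L)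
    (c : GQ × GQ → DualMod K A) (f : ε.ker →+ C K) (b : ε.ker →+ J L)
    (e : (L ≃ₐ[ℚ] L) → TwHom (levelRes le) (Lat (K ≃ₐ[ℚ] K) ι) (Additive Lˣ)) : Prop where
  proj_b : ∀ s, proj L (b s) = inclC le (f s)
  coboundary : ∀ g (s : ε.ker),
    g • b (smulS hε.isStable_ker (levelRes le g⁻¹) s) - b s = diag L (e g s)
  good : ∀ x, b (mulP hε.smul_mem x) ∈ divOrd L p (S : Set Nat.Primes)
  spec : ∀ g h, TwHom.pre ε (c (g, h)) = toQHom (dd e (res L g) (res L h))

/-- The relation between cocycles and equivariant maps into classes. -/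
def Linked (c : GQ × GQ → DualMod K A) (f : ε.ker →+ C K) : Prop :=
  ∃ (L : IntermediateField ℚ QBar) (_ : FiniteDimensional ℚ L) (_ : Normal ℚ L) (le : K ≤ L),
    L.IsUnramifiedOutside S ∧ ∃ b e, LinkAt hε S le c f b e

variable {hε S}

theorem LinkAt.push {L L' : IntermediateField ℚ QBar} [FiniteDimensional ℚ L] [Normal ℚ L]
    [FiniteDimensional ℚ L'] [Normal ℚ L'] {le : K ≤ L} (h' : L ≤ L')
    {c : GQ × GQ → DualMod K A} {f : ε.ker →+ C K} {b : ε.ker →+ J L}
    {e : (L ≃ₐ[ℚ] L) → TwHom (levelRes le) (Lat (K ≃ₐ[ℚ] K) ι) (Additive Lˣ)}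
    (hl : LinkAt hε S le c f b e) :
    LinkAt hε S (le.trans h') c f ((inclJ h').comp b)
      (fun σ => TwHom.of ((unitsIncl h').comp (e (levelRes h' σ)).toHom)) := by
  refine ⟨fun s => ?_, fun g s => ?_, fun x => ?_, fun g h => ?_⟩
  · rw [AddMonoidHom.comp_apply, ← inclC_proj, hl.proj_b, inclC_trans]
  · simp only [AddMonoidHom.comp_apply, TwHom.of_apply, TwHom.toHom_apply]
    rw [smul_inclJ, ← map_sub, diag_unitsIncl, ← hl.coboundary]
    simp only [map_inv, levelRes_levelRes]
  · exact (inclJ_mem_divOrd_iff h').2 (hl.good x)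
  · rw [hl.spec]
    refine TwHom.ext fun x => ?_
    simp only [toQHom_apply, dd, TwHom.add_apply, TwHom.sub_apply, TwHom.smul_apply,
      TwHom.of_apply, AddMonoidHom.comp_apply, TwHom.toHom_apply, map_add, map_sub,
      smul_unitsIncl, unitsToQ_unitsIncl]
    simp only [← map_inv (res L'), levelRes_res, ← map_inv (res L), ← map_mul]

theorem LinkAt.add {L : IntermediateField ℚ QBar} [FiniteDimensional ℚ L] [Normal ℚ L]
    {le : K ≤ L} {c c' : GQ × GQ → DualMod K A} {f f' : ε.ker →+ C K} {b b' : ε.ker →+ J L}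
    {e e' : (L ≃ₐ[ℚ] L) → TwHom (levelRes le) (Lat (K ≃ₐ[ℚ] K) ι) (Additive Lˣ)}
    (hl : LinkAt hε S le c f b e) (hl' : LinkAt hε S le c' f' b' e') :
    LinkAt hε S le (c + c') (f + f') (b + b') (e + e') := by
  refine ⟨fun s => ?_, fun g s => ?_, fun x => ?_, fun g h => ?_⟩
  · simp only [AddMonoidHom.add_apply, map_add, hl.proj_b, hl'.proj_b]
  · simp only [AddMonoidHom.add_apply, Pi.add_apply, TwHom.add_apply, map_add, smul_add,
      ← hl.coboundary, ← hl'.coboundary]
    abel
  · exact add_mem (hl.good x) (hl'.good x)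
  · rw [Pi.add_apply, map_add, hl.spec, hl'.spec, dd_add, map_add]

theorem LinkAt.neg {L : IntermediateField ℚ QBar} [FiniteDimensional ℚ L] [Normal ℚ L]
    {le : K ≤ L} {c : GQ × GQ → DualMod K A} {f : ε.ker →+ C K} {b : ε.ker →+ J L}
    {e : (L ≃ₐ[ℚ] L) → TwHom (levelRes le) (Lat (K ≃ₐ[ℚ] K) ι) (Additive Lˣ)}
    (hl : LinkAt hε S le c f b e) : LinkAt hε S le (-c) (-f) (-b) (-e) := by
  refine ⟨fun s => ?_, fun g s => ?_, fun x => ?_, fun g h => ?_⟩
  · simp only [AddMonoidHom.neg_apply, map_neg, hl.proj_b]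
  · simp only [AddMonoidHom.neg_apply, Pi.neg_apply, TwHom.neg_apply, map_neg, smul_neg,
      ← hl.coboundary]
    abel
  · exact neg_mem (hl.good x)
  · rw [Pi.neg_apply, map_neg, hl.spec, dd_neg, map_neg]

theorem Linked.neg {c : GQ × GQ → DualMod K A} {f : ε.ker →+ C K} (hl : Linked hε S c f) :
    Linked hε S (-c) (-f) := by
  obtain ⟨L, hfd, hn, le, hur, b, e, hl⟩ := hl
  exact ⟨L, hfd, hn, le, hur, _, _, hl.neg⟩

theorem Linked.add {c c' : GQ × GQ → DualMod K A} {f f' : ε.ker →+ C K} (hl : Linked hε S c f)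
    (hl' : Linked hε S c' f') : Linked hε S (c + c') (f + f') := by
  obtain ⟨L, hfd, hn, le, hur, b, e, hl⟩ := hl
  obtain ⟨L', hfd', hn', le', hur', b', e', hl'⟩ := hl'
  letI := hfd; letI := hn; letI := hfd'; letI := hn'
  haveI : Normal ℚ (L ⊔ L' : IntermediateField ℚ QBar) := @IntermediateField.normal_sup ℚ QBar _ _ _ L L' hn hn'
  haveI := (hur.sup hur').1
  exact ⟨L ⊔ L', inferInstance, inferInstance, le.trans le_sup_left, hur.sup hur', _, _,
    (hl.push le_sup_left).add (hl'.push le_sup_right)⟩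

end Fermat.Agent.CFT.PT
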