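import Fermat.Agent.CFT.PT.LinkNull

/-!
# Every equivariant map into classes is linked to a cocycle
-/

set_option autoImplicit false
set_option synthInstance.maxHeartbeats 200000
set_option maxHeartbeats 1600000
set_option linter.unusedSectionVars false
set_option linter.style.haveILetI false

noncomputable section

namespace Fermat.Agent.CFT.PT

open ExtCitation Fermat.Agent.Arith IntermediateField Fermat.Agent.CFT.Local
open Fermat.Agent.CFT.Idele hiding inclC inclC_injective exists_inclC_eq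
open Fermat.Agent.CFT.Duality groupCohomology

local instance factPrimeLinkF (q : Nat.Primes) : Fact (q : ℕ).Prime := ⟨q.2⟩

/-- Finitely many levels unramified outside `S` lie in a common one. -/
theorem exists_common_level {S : Finset Nat.Primes} {K : IntermediateField ℚ QBar}
    [FiniteDimensional ℚ K] [Normal ℚ K] (hK : K.IsUnramifiedOutside S) {κ : Type*} [Finite κ]
    (F : κ → IntermediateField ℚ QBar) (hF : ∀ i, (F i).IsUnramifiedOutside S) :
    ∃ (L : IntermediateField ℚ QBar) (_ : FiniteDimensional ℚ L) (_ : Normal ℚ L),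
      K ≤ L ∧ L.IsUnramifiedOutside S ∧ ∀ i, F i ≤ L := by
  classical
  haveI := Fintype.ofFinite κ
  suffices key : ∀ s : Finset κ, ∃ F' : IntermediateField ℚ QBar,
      K ≤ F' ∧ F'.IsUnramifiedOutside S ∧ ∀ i ∈ s, F i ≤ F' by
    obtain ⟨F', hle, hur, hall⟩ := key Finset.univ
    obtain ⟨L, hfd, hn, hurL, hleL⟩ := exists_normal_ur_ge hur
    exact ⟨L, hfd, hn, hle.trans hleL, hurL, fun i => (hall i (Finset.mem_univ i)).trans hleL⟩
  intro s
  induction s using Finset.induction with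
  | empty => exact ⟨K, le_rfl, hK, by simp⟩
  | insert i s _ ih =>
    obtain ⟨F', hle, hur, hall⟩ := ih
    refine ⟨F' ⊔ F i, hle.trans le_sup_left, hur.sup (hF i), fun j hj => ?_⟩
    rcases Finset.mem_insert.1 hj with rfl | hj
    · exact le_sup_right
    · exact (hall j hj).trans le_sup_left

theorem dd_isCocycle₂ {G X : Type*} [Group G] [AddCommGroup X] [DistribMulAction G X] (e : G → X) :
    IsCocycle₂ fun x : G × G => dd e x.1 x.2 := fun g h j => by
  simp only [dd, smul_add, smul_sub, mul_smul, mul_assoc]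
  abel

variable {K : IntermediateField ℚ QBar} [FiniteDimensional ℚ K] [Normal ℚ K]
  {A ι : Type*} [AddCommGroup A] [DistribMulAction (K ≃ₐ[ℚ] K) A] [Fintype ι] {p : ℕ}
  [hp : Fact p.Prime] {ε : Lat (K ≃ₐ[ℚ] K) ι →+ A} (hε : Presentation p ε) {S : Finset Nat.Primes}

include hε

/-- Every equivariant map has a lifting to ideles of a level `S` with orders divisible by `p`. -/
theorem exists_good_lift (hpS : pPrime p ∈ S) (hK : K.IsUnramifiedOutside S)
    (f : equivHom (C := C K) hε.isStable_ker) :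
    ∃ (L : IntermediateField ℚ QBar) (_ : FiniteDimensional ℚ L) (_ : Normal ℚ L) (le : K ≤ L)
      (b : ε.ker →+ J L), L.IsUnramifiedOutside S ∧ (∀ s, proj L (b s) = inclC le (f.1 s)) ∧
        ∀ s, b s ∈ divOrd L p (S : Set Nat.Primes) := by
  classical
  haveI := free_subgroup ε.ker
  haveI : Module.Finite ℤ ε.ker :=
    Module.Finite.of_injective ε.ker.subtype.toIntLinearMap Subtype.val_injective
  let B := Module.Free.chooseBasis ℤ ε.ker
  choose x hx using fun j => proj_surjective K (f.1 (B j))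
  choose F hFd hFn hle α hFur hα using fun j => exists_capitulation hpS hK (x j).toMul
  obtain ⟨L, hfd, hn, le, hur, hFL⟩ := exists_common_level hK F hFur
  letI := hfd; letI := hn
  refine ⟨L, hfd, hn, le, ?_⟩
  let v : _ → J L := fun j => by
    letI := hFd j; letI := hFn j
    exact inclJ (hFL j) (inclJ (hle j) (x j) - diag (F j) (Additive.ofMul (α j)))
  let b : ε.ker →+ J L := (B.constr ℕ v).toAddMonoidHom
  have hbB : ∀ j, b (B j) = v j := fun j => B.constr_basis ℕ v j
  have hv : ∀ j, v j ∈ divOrd L p (S : Set Nat.Primes) := fun j => by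
    letI := hFd j; letI := hFn j
    refine (inclJ_mem_divOrd_iff (hFL j)).2 fun q hq g => ?_
    obtain ⟨n, hn⟩ := hα j q (by simpa using hq) (res (F j) g)
    refine ⟨n, ?_⟩
    rw [sub_eq_add_neg, normAt_add, normAt_neg, ← hn, ← norm_val_eq, ← norm_val_eq, div_eq_mul_inv]
    rw [show (diag (F j) (Additive.ofMul (α j))).toMul = prinL (F j) (α j) from rfl, norm_val_prinL]
    rfl
  refine ⟨b, hur, fun s => ?_, fun s => ?_⟩
  · have e : ((proj L).comp b).toIntLinearMap = ((inclC le).comp f.1).toIntLinearMap :=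
      B.ext fun j => by
        letI := hFd j; letI := hFn j
        show proj L (b (B j)) = inclC le (f.1 (B j))
        simp only [hbB, v]
        rw [← inclC_proj, map_sub, proj_diag, sub_zero, ← hx j, ← inclC_proj]
        exact inclC_trans (hle j) (hFL j) _
    exact DFunLike.congr_fun e s
  · rw [← B.sum_repr s, map_sum]
    refine sum_mem fun j _ => ?_
    rw [map_zsmul, hbB]
    exact zsmul_mem (hv j) _

/-- Every equivariant map is linked to a cocycle of a level unramified outside `S`. -/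
theorem exists_linked_cocycle (hpS : pPrime p ∈ S) (hK : K.IsUnramifiedOutside S)
    (f : equivHom (C := C K) hε.isStable_ker) :
    ∃ (L : IntermediateField ℚ QBar) (_ : FiniteDimensional ℚ L) (_ : Normal ℚ L) (le : K ≤ L)
      (c : (L ≃ₐ[ℚ] L) × (L ≃ₐ[ℚ] L) → TwHom (levelRes le) A (Additive Lˣ)) (b : ε.ker →+ J L)
      (e : (L ≃ₐ[ℚ] L) → TwHom (levelRes le) (Lat (K ≃ₐ[ℚ] K) ι) (Additive Lˣ)),
      L.IsUnramifiedOutside S ∧ IsCocycle₂ c ∧
        LinkAt hε S le (fun x => toQHom (c (res L x.1, res L x.2))) f.1 b e := by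
  classical
  obtain ⟨L, hfd, hn, le, b, hur, hb, hbS⟩ := exists_good_lift hε hpS hK f
  letI := hfd; letI := hn
  let u : (L ≃ₐ[ℚ] L) → (ε.ker →+ J L) := fun g =>
    (DistribSMul.toAddMonoidHom (J L) g).comp
      (AddMonoidHom.mk' (fun s => b (smulS hε.isStable_ker (levelRes le g⁻¹) s))
        fun s t => by rw [smulS_add, map_add b]) - b
  have hu : ∀ g s, u g s = g • b (smulS hε.isStable_ker (levelRes le g⁻¹) s) - b s :=
    fun g s => rfl
  have hu0 : ∀ g s, proj L (u g s) = 0 := fun g s => by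
    rw [hu, map_sub, proj_smul, hb, hb, f.2 (levelRes le g⁻¹) s, ← smul_inclC,
      smul_inv_smul, sub_self]
  choose l hl using fun g s => (proj_eq_zero_iff L).1 (hu0 g s)
  let lh : (L ≃ₐ[ℚ] L) → ε.ker →+ Additive Lˣ := fun g =>
    AddMonoidHom.mk' (fun s => Additive.ofMul (l g s)) fun s t => diag_injective L (by
      rw [map_add (diag L)]
      exact (congrArg Additive.ofMul (hl g (s + t))).trans ((map_add (u g) s t).trans
        (congrArg₂ (· + ·) (congrArg Additive.ofMul (hl g s)).symm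
          (congrArg Additive.ofMul (hl g t)).symm)))
  have hlh : ∀ g s, diag L (lh g s) = u g s := fun g s => congrArg Additive.ofMul (hl g s)
  choose ψ hψ using fun g => exists_extend_units ε.ker ((unitsToQ L).comp (lh g))
  obtain ⟨L2, hfd2, hn2, h2, hur2, hmem⟩ := exists_level_roots hpS hur
    (fun k : (L ≃ₐ[ℚ] L) × ι × (K ≃ₐ[ℚ] K) => lh k.1 (mulP hε.smul_mem (Lat.e k.2.1 k.2.2)))
    (fun k => by rw [hlh, hu]; exact sub_mem (smul_mem_divOrd _ (hbS _)) (hbS _))
    (fun k => ψ k.1 (Lat.e k.2.1 k.2.2)) fun k => by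
      rw [← map_nsmul, ← coe_mulP hε.smul_mem]
      exact hψ _ _
  letI := hfd2; letI := hn2
  have hval : ∀ (g : L ≃ₐ[ℚ] L) (i : ι) (x : K ≃ₐ[ℚ] K),
      ∃ v : Additive L2ˣ, unitsToQ L2 v = ψ g (Lat.e i x) := fun g i x =>
    ⟨Additive.ofMul (Units.mk0 ⟨_, hmem (g, i, x)⟩
      fun h => ((ψ g (Lat.e i x)).toMul : QBarˣ).ne_zero (congrArg Subtype.val h)),
      Additive.toMul.injective (Units.ext rfl)⟩
  choose v hv using hval
  have hle2 : K ≤ L2 := le.trans h2
  let e : (L2 ≃ₐ[ℚ] L2) → TwHom (levelRes hle2) (Lat (K ≃ₐ[ℚ] K) ι) (Additive L2ˣ) := fun σ =>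
    TwHom.of (Lat.ofBasis (v (levelRes h2 σ)))
  have he : ∀ σ x, unitsToQ L2 (e σ x) = ψ (levelRes h2 σ) x := fun σ x => by
    have h : (unitsToQ L2).comp (e σ).toHom = ψ (levelRes h2 σ) := Lat.hom_ext fun i r => by
      simp only [AddMonoidHom.comp_apply, TwHom.toHom_apply, e, TwHom.of_apply, Lat.ofBasis_e, hv]
    exact DFunLike.congr_fun h x
  let b2 : ε.ker →+ J L2 := (inclJ h2).comp b
  have hcob : ∀ σ (s : ε.ker), σ • b2 (smulS hε.isStable_ker (levelRes hle2 σ⁻¹) s) - b2 s =
      diag L2 (e σ s) := fun σ s => by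
    have he' : e σ (s : Lat (K ≃ₐ[ℚ] K) ι) = unitsIncl h2 (lh (levelRes h2 σ) s) :=
      unitsToQ_injective L2 (by rw [he, hψ, unitsToQ_unitsIncl]; rfl)
    simp only [b2, AddMonoidHom.comp_apply]
    rw [he', diag_unitsIncl, hlh, hu, map_sub, ← smul_inclJ h2, ← map_inv (levelRes h2),
      levelRes_levelRes]
  have hdd : ∀ σ τ (s : ε.ker), dd e σ τ (s : Lat (K ≃ₐ[ℚ] K) ι) = 0 := fun σ τ s =>
    diag_injective L2 (by
      simp only [dd, TwHom.add_apply, TwHom.sub_apply, TwHom.smul_apply, map_add, map_sub,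
        diag_smul]
      rw [show (levelRes hle2 σ⁻¹ • (s : Lat (K ≃ₐ[ℚ] K) ι)) =
          ((smulS hε.isStable_ker (levelRes hle2 σ⁻¹) s : ε.ker) : Lat (K ≃ₐ[ℚ] K) ι) from rfl,
        ← hcob, ← hcob, ← hcob, smulS_smulS, map_zero, mul_inv_rev, map_mul, mul_smul, smul_sub]
      abel)
  choose z hz using hε.surjective
  have hzε : ∀ σ τ x, dd e σ τ (z (ε x)) = dd e σ τ x := fun σ τ x => by
    rw [← sub_eq_zero, ← map_sub]
    exact hdd σ τ ⟨z (ε x) - x, by rw [AddMonoidHom.mem_ker, map_sub, hz, sub_self]⟩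
  let c : (L2 ≃ₐ[ℚ] L2) × (L2 ≃ₐ[ℚ] L2) → TwHom (levelRes hle2) A (Additive L2ˣ) := fun y =>
    TwHom.of (AddMonoidHom.mk' (fun a => dd e y.1 y.2 (z a)) fun a a' => by
      rw [← map_add (dd e y.1 y.2), ← sub_eq_zero, ← map_sub]
      exact hdd y.1 y.2 ⟨z (a + a') - (z a + z a'), by
        rw [AddMonoidHom.mem_ker, map_sub, map_add, hz, hz, hz, sub_self]⟩)
  have hc : ∀ y, TwHom.pre ε (c y) = dd e y.1 y.2 := fun y =>
    TwHom.ext fun x => hzε y.1 y.2 x
  refine ⟨L2, hfd2, hn2, hle2, c, b2, e, hur2, fun g h j => ?_,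
    fun s => ?_, hcob, fun x => (inclJ_mem_divOrd_iff h2).2 (hbS _), fun g h => ?_⟩
  · refine TwHom.ext fun a => ?_
    obtain ⟨x, rfl⟩ := hε.surjective a
    have h1 : TwHom.pre ε (c (g * h, j) + c (g, h)) = TwHom.pre ε (g • c (h, j) + c (g, h * j)) := by
      rw [map_add, map_add, TwHom.pre_smul ε hε.map_smul, hc, hc, hc, hc]
      exact dd_isCocycle₂ e g h j
    exact DFunLike.congr_fun h1 x
  · simp only [b2, AddMonoidHom.comp_apply]
    rw [← inclC_proj, hb, inclC_trans]
  · refine TwHom.ext fun x => ?_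
    rw [TwHom.pre_apply, toQHom_apply, toQHom_apply, ← hc (res L2 g, res L2 h), TwHom.pre_apply]

end Fermat.Agent.CFT.PT
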