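import Fermat.Agent.CFT.PT.Powers
import Fermat.Agent.CFT.PT.Extend
import Fermat.Agent.CFT.PT.LinkC

/-!
# The allowed maps are the ones linked to coboundaries
-/

set_option autoImplicit false
set_option synthInstance.maxHeartbeats 200000
set_option maxHeartbeats 1600000
set_option linter.unusedSectionVars false
set_option linter.style.haveILetI false

noncomputable section

namespace Fermat.Agent.CFT.PT

open ExtCitation Fermat.Agent.Arith IntermediateField Fermat.Agent.CFT.Local Fermat.Agent.CFT.Idele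
open Fermat.Agent.CFT.Duality groupCohomology

local instance factPrimeLinkNull (q : Nat.Primes) : Fact (q : ℕ).Prime := ⟨q.2⟩

/-! Shortcuts for the algebraic structures on the ideles and idele classes, used inside proofs
only. -/

namespace LinkNullShortcuts

scoped instance (priority := 5000) moduleRatLinkNull (L : IntermediateField ℚ QBar) : Module ℚ L :=
  inferInstance
scoped instance (priority := 5000) idlCommGroupLinkNull (L : IntermediateField ℚ QBar)
    [FiniteDimensional ℚ L] [Normal ℚ L] : CommGroup (idl L) := inferInstance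
scoped instance (priority := 5000) jlAddCommGroupLinkNull (L : IntermediateField ℚ QBar)
    [FiniteDimensional ℚ L] [Normal ℚ L] : AddCommGroup (J L) := inferInstance
scoped instance (priority := 5000) jlAddCommMonoidLinkNull (L : IntermediateField ℚ QBar)
    [FiniteDimensional ℚ L] [Normal ℚ L] : AddCommMonoid (J L) := inferInstance
scoped instance (priority := 5000) jlAddMonoidLinkNull (L : IntermediateField ℚ QBar)
    [FiniteDimensional ℚ L] [Normal ℚ L] : AddMonoid (J L) := inferInstance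
scoped instance (priority := 5000) jlAddZeroClassLinkNull (L : IntermediateField ℚ QBar)
    [FiniteDimensional ℚ L] [Normal ℚ L] : AddZeroClass (J L) := inferInstance
scoped instance (priority := 5000) jlAddZeroLinkNull (L : IntermediateField ℚ QBar)
    [FiniteDimensional ℚ L] [Normal ℚ L] : AddZero (J L) := inferInstance
scoped instance (priority := 5000) jlSubMonoidLinkNull (L : IntermediateField ℚ QBar)
    [FiniteDimensional ℚ L] [Normal ℚ L] : SubtractionMonoid (J L) := inferInstance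
scoped instance (priority := 5000) jlDistribSMulLinkNull (L : IntermediateField ℚ QBar)
    [FiniteDimensional ℚ L] [Normal ℚ L] : DistribSMul (L ≃ₐ[ℚ] L) (J L) := inferInstance
scoped instance (priority := 5000) jlSMulLinkNull (L : IntermediateField ℚ QBar)
    [FiniteDimensional ℚ L] [Normal ℚ L] : SMul (L ≃ₐ[ℚ] L) (J L) := inferInstance
scoped instance (priority := 5000) jlNDistribSMulLinkNull (L : IntermediateField ℚ QBar)
    [FiniteDimensional ℚ L] [Normal ℚ L] : DistribSMul ℕ (J L) := inferInstance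
scoped instance (priority := 5000) clAddCommGroupLinkNull (L : IntermediateField ℚ QBar)
    [FiniteDimensional ℚ L] [Normal ℚ L] : AddCommGroup (C L) := inferInstance
scoped instance (priority := 5000) clAddCommMonoidLinkNull (L : IntermediateField ℚ QBar)
    [FiniteDimensional ℚ L] [Normal ℚ L] : AddCommMonoid (C L) := inferInstance
scoped instance (priority := 5000) clAddGroupLinkNull (L : IntermediateField ℚ QBar)
    [FiniteDimensional ℚ L] [Normal ℚ L] : AddGroup (C L) := inferInstance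
scoped instance (priority := 5000) clAddMonoidLinkNull (L : IntermediateField ℚ QBar)
    [FiniteDimensional ℚ L] [Normal ℚ L] : AddMonoid (C L) := inferInstance
scoped instance (priority := 5000) clSubMonoidLinkNull (L : IntermediateField ℚ QBar)
    [FiniteDimensional ℚ L] [Normal ℚ L] : SubtractionMonoid (C L) := inferInstance
scoped instance (priority := 5000) clAddZeroClassLinkNull (L : IntermediateField ℚ QBar)
    [FiniteDimensional ℚ L] [Normal ℚ L] : AddZeroClass (C L) := inferInstance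

end LinkNullShortcuts

variable {K : IntermediateField ℚ QBar} [FiniteDimensional ℚ K] [Normal ℚ K]
  {A ι : Type*} [AddCommGroup A] [DistribMulAction (K ≃ₐ[ℚ] K) A] [Fintype ι] {p : ℕ}
  [hp : Fact p.Prime] {ε : Lat (K ≃ₐ[ℚ] K) ι →+ A} (hε : Presentation p ε) {S : Finset Nat.Primes}

theorem res_mul_of_mem_fixingSubgroup {L : IntermediateField ℚ QBar} [Normal ℚ L] (g : GQ) {s : GQ}
    (hs : s ∈ L.fixingSubgroup) : res L (g * s) = res L g := by
  refine AlgEquiv.ext fun x => Subtype.ext ?_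
  rw [res_apply, res_apply, AlgEquiv.mul_apply,
    (IntermediateField.mem_fixingSubgroup_iff _ _).1 hs x x.2]

theorem res_eq_one_of_mem {L : IntermediateField ℚ QBar} [Normal ℚ L] {s : GQ}
    (hs : s ∈ L.fixingSubgroup) : res L s = 1 := by
  simpa using res_mul_of_mem_fixingSubgroup (L := L) 1 hs

/-- Orders at primes outside `S` are integral on a level unramified outside `S`. -/
theorem exists_normAt_eq {L : IntermediateField ℚ QBar} [FiniteDimensional ℚ L] [Normal ℚ L]
    (hL : L.IsUnramifiedOutside S) {q : Nat.Primes} (hq : q ∉ S) (g : GQ) (x : J L) :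
    ∃ n : ℤ, normAt L q g x = (q : ℝ) ^ n := by
  obtain ⟨n, hn⟩ := exists_norm_eq_zpow_of_ur L hL hq (val x.toMul q (res L g))
  exact ⟨n, by rw [← norm_val_eq]; exact hn⟩

theorem nsmul_mem_divOrd {L : IntermediateField ℚ QBar} [FiniteDimensional ℚ L] [Normal ℚ L]
    (hL : L.IsUnramifiedOutside S) (x : J L) : p • x ∈ divOrd L p (S : Set Nat.Primes) := by
  intro q hq g
  obtain ⟨n, hn⟩ := exists_normAt_eq hL (by simpa using hq) g x
  exact ⟨n, by rw [normAt_nsmul, hn, mul_comm, zpow_mul, zpow_natCast]⟩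

/-- The equivariant map with prescribed values on the standard generators. -/
theorem exists_equivariant {G X : Type*} [Group G] [Fintype G] [AddCommGroup X]
    [DistribMulAction G X] {κ : Type*} [Fintype κ] (y : κ → X) :
    ∃ φ : Lat G κ →+ X, (∀ (g : G) z, φ (g • z) = g • φ z) ∧ ∀ i x, φ (Lat.e i x) = x • y i :=
  ⟨Lat.ofBasis fun i x => x • y i,
    fun g z => Lat.map_smul_of_basis _ g (fun i x => by simp [mul_smul]) z, fun i x => by simp⟩

theorem dd_pre {G₀ G X P Q : Type*} [Group G] [Group G₀] {π : G →* G₀} [AddCommGroup P]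
    [AddCommGroup Q] [AddCommGroup X] [DistribMulAction G₀ P] [DistribMulAction G₀ Q]
    [DistribMulAction G X] (f : Q →+ P) (hf : ∀ (g : G₀) x, f (g • x) = g • f x)
    (m : G → TwHom π P X) (g h : G) :
    dd (fun g => TwHom.pre f (m g)) g h = TwHom.pre f (dd m g h) := by
  simp only [dd, map_add, map_sub, TwHom.pre_smul f hf]

theorem dd_toQHom {L : IntermediateField ℚ QBar} [FiniteDimensional ℚ L] [Normal ℚ L] {le : K ≤ L}
    {P : Type*} [AddCommGroup P] [DistribMulAction (K ≃ₐ[ℚ] K) P]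
    (e : (L ≃ₐ[ℚ] L) → TwHom (levelRes le) P (Additive Lˣ)) (g h : GQ) :
    dd (fun g => toQHom (e (res L g))) g h = toQHom (dd e (res L g) (res L h)) := by
  simp only [dd, map_add, map_sub, smul_toQHom, map_mul]

include hε

theorem pre_injective : Function.Injective
    (TwHom.pre ε : TwHom (res K) A (Additive QBarˣ) → TwHom (res K) (Lat (K ≃ₐ[ℚ] K) ι) _) :=
  fun φ ψ h => TwHom.ext fun a => by
    obtain ⟨z, rfl⟩ := hε.surjective a
    exact DFunLike.congr_fun h z

/-- A map linked to a cocycle and allowed makes it a coboundary of a cochain of level `S`. -/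
theorem exists_cochain_of_allow (hpS : pPrime p ∈ S) (_hK : K.IsUnramifiedOutside S)
    {c : GQ × GQ → DualMod K A} {f : equivHom (C := C K) hε.isStable_ker}
    (hl : Linked hε S c f.1) (hf : f ∈ allow hε S) :
    ∃ m : GQ → DualMod K A, IsLevelConstantS₁ S m ∧ ∀ g h, c (g, h) = dd m g h := by
  open scoped LinkNullShortcuts in
  classical
  obtain ⟨L, hfd, hn, le, hur, b, e, hl⟩ := hl
  letI := hfd; letI := hn
  obtain ⟨Y, w, hY, hw, hfw⟩ := hf
  choose y hy using fun i => proj_surjective K (Y (Lat.e i 1))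
  obtain ⟨Yt, hYt, hYte⟩ := exists_equivariant (G := K ≃ₐ[ℚ] K) y
  have hYproj : ∀ z, proj K (Yt z) = Y z := fun z => by
    have h : (proj K).comp Yt = Y := Lat.hom_ext fun i x => by
      rw [AddMonoidHom.comp_apply, hYte, proj_smul, hy, ← hY, Lat.smul_e, mul_one]
    exact DFunLike.congr_fun h z
  let u : ε.ker →+ J L := b - (inclJ le).comp (Yt.comp ε.ker.subtype + w.1)
  have hu : ∀ s : ε.ker, proj L (u s) = 0 := fun s => by
    simp only [u, AddMonoidHom.sub_apply, AddMonoidHom.comp_apply, AddMonoidHom.add_apply,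
      AddSubgroup.coe_subtype, map_sub, map_add, hl.proj_b, ← inclC_proj, hYproj, hfw, sub_self]
  choose l hl' using fun s => (proj_eq_zero_iff L).1 (hu s)
  let lh : ε.ker →+ Additive Lˣ := AddMonoidHom.mk' (fun s => Additive.ofMul (l s))
    fun s t => diag_injective L (by
      rw [map_add (diag L)]
      exact (congrArg Additive.ofMul (hl' (s + t))).trans ((map_add u s t).trans
        (congrArg₂ (· + ·) (congrArg Additive.ofMul (hl' s)).symm
          (congrArg Additive.ofMul (hl' t)).symm)))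
  have hlh : ∀ s, diag L (lh s) = u s := fun s => congrArg Additive.ofMul (hl' s)
  let v : ε.ker →+ J K := Yt.comp ε.ker.subtype + w.1
  have hv : ∀ γ (s : ε.ker), v (smulS hε.isStable_ker γ s) = γ • v s := fun γ s => by
    show Yt (γ • (s : Lat (K ≃ₐ[ℚ] K) ι)) + w.1 (smulS hε.isStable_ker γ s) =
      γ • (Yt (s : Lat (K ≃ₐ[ℚ] K) ι) + w.1 s)
    rw [hYt, w.2 γ s, smul_add]
  have hel : ∀ g (s : ε.ker),
      e g (s : Lat (K ≃ₐ[ℚ] K) ι) = g • lh (smulS hε.isStable_ker (levelRes le g⁻¹) s) - lh s :=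
    fun g s => diag_injective L (by
      rw [← hl.coboundary, map_sub (diag L), diag_smul, hlh, hlh]
      show g • b _ - b s = g • (b _ - inclJ le (v _)) - (b s - inclJ le (v s))
      rw [smul_sub, (congrArg (g • ·) ((congrArg (inclJ le) (hv (levelRes le g⁻¹) s)).trans
        (smul_inclJ le g⁻¹ _).symm)).trans (smul_inv_smul g _)]
      abel)
  have hdiv : ∀ x, diag L (lh (mulP hε.smul_mem x)) ∈ divOrd L p (S : Set Nat.Primes) := fun x => by
    rw [hlh]
    simp only [u, AddMonoidHom.sub_apply, AddMonoidHom.comp_apply, AddMonoidHom.add_apply,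
      AddSubgroup.coe_subtype, coe_mulP, map_add, map_nsmul]
    exact sub_mem (hl.good x) (add_mem (nsmul_mem_divOrd hur _)
      ((inclJ_mem_divOrd_iff le).2 (unitsOutside_le_divOrd p _ (hw _))))
  obtain ⟨ψ, hψ⟩ := exists_extend_units ε.ker ((unitsToQ L).comp lh)
  obtain ⟨L2, hfd2, hn2, hle2, hur2, hmem⟩ := exists_level_roots hpS hur
    (fun q : ι × (K ≃ₐ[ℚ] K) => lh (mulP hε.smul_mem (Lat.e q.1 q.2))) (fun q => hdiv _)
    (fun q => ψ (Lat.e q.1 q.2)) fun q => by
      rw [← map_nsmul, ← coe_mulP hε.smul_mem]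
      exact hψ _
  letI := hfd2; letI := hn2
  let m' : GQ → TwHom (res K) (Lat (K ≃ₐ[ℚ] K) ι) (Additive QBarˣ) := fun g =>
    toQHom (e (res L g)) - (g • TwHom.of ψ - TwHom.of ψ)
  have hm'0 : ∀ g (s : ε.ker), m' g (s : Lat (K ≃ₐ[ℚ] K) ι) = 0 := fun g s => by
    simp only [m', TwHom.sub_apply, TwHom.smul_apply, TwHom.of_apply, toQHom_apply, hel, map_sub,
      ← smul_unitsToQ]
    rw [show (res K g⁻¹ • (s : Lat (K ≃ₐ[ℚ] K) ι)) =
        ((smulS hε.isStable_ker (res K g⁻¹) s : ε.ker) : Lat (K ≃ₐ[ℚ] K) ι) from rfl, hψ, hψ,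
      ← map_inv (res L), levelRes_res]
    simp
  choose z hz using hε.surjective
  have hzε : ∀ g x, m' g (z (ε x)) = m' g x := fun g x => by
    rw [← sub_eq_zero, ← map_sub]
    exact hm'0 g ⟨z (ε x) - x, by rw [AddMonoidHom.mem_ker, map_sub, hz, sub_self]⟩
  let m : GQ → DualMod K A := fun g => TwHom.of (AddMonoidHom.mk' (fun a => m' g (z a))
    fun a a' => by
      rw [← map_add (m' g), ← sub_eq_zero, ← map_sub]
      exact hm'0 g ⟨z (a + a') - (z a + z a'), by
        rw [AddMonoidHom.mem_ker, map_sub, map_add, hz, hz, hz, sub_self]⟩)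
  have hm : ∀ g, TwHom.pre ε (m g) = m' g := fun g => TwHom.ext fun x => hzε g x
  have hfixψ : ∀ s ∈ L2.fixingSubgroup, ∀ x, s • ψ x = ψ x := fun s hs x => by
    have h : (DistribSMul.toAddMonoidHom (Additive QBarˣ) s).comp ψ = ψ := Lat.hom_ext fun i r =>
      Additive.toMul.injective (Units.ext
        ((IntermediateField.mem_fixingSubgroup_iff _ _).1 hs _ (hmem (i, r))))
    exact DFunLike.congr_fun h x
  refine ⟨m, ⟨L2, hur2, fun g s hs => pre_injective hε ?_⟩, fun g h => pre_injective hε ?_⟩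
  · rw [hm, hm]
    have hL := IntermediateField.fixingSubgroup_antitone hle2 hs
    have hK' := IntermediateField.fixingSubgroup_antitone le hL
    refine TwHom.ext fun x => ?_
    simp only [m', TwHom.sub_apply, TwHom.smul_apply, TwHom.of_apply,
      res_mul_of_mem_fixingSubgroup g hL, map_inv,
      res_eq_one_of_mem hK', inv_one, mul_smul, one_smul, hfixψ s hs]
  · have hpre := dd_pre ε hε.map_smul m g h
    rw [funext hm] at hpre
    rw [hl.spec, ← hpre, ← dd_toQHom]
    simp only [m', dd, smul_sub, mul_smul]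
    abel

/-- A map linked to a coboundary of a cochain of level `S` is allowed. -/
theorem mem_allow_of_cochain (_hK : K.IsUnramifiedOutside S) (hμ : ∀ z : QBar, z ^ p = 1 → z ∈ K)
    {c : GQ × GQ → DualMod K A} {f : equivHom (C := C K) hε.isStable_ker}
    (hl : Linked hε S c f.1) (m : GQ → DualMod K A) (hm : IsLevelConstantS₁ S m)
    (hcm : ∀ g h, c (g, h) = dd m g h) : f ∈ allow hε S := by
  open scoped LinkNullShortcuts in
  classical
  obtain ⟨L, hfd, hn, le, hur, b, e, hl⟩ := hl
  letI := hfd; letI := hn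
  obtain ⟨F, hF, hFm⟩ := hm
  obtain ⟨L', hfd', hn', hur', hle'⟩ := exists_normal_ur_ge (hur.sup hF)
  letI := hfd'; letI := hn'
  have h' : L ≤ L' := le_sup_left.trans hle'
  have le' : K ≤ L' := le.trans h'
  have hmK : ∀ g a, ∃ u : Additive L'ˣ, unitsToQ L' u = m g a := fun g a => by
    have h1 : (((m g a).toMul : QBarˣ) : QBar) ^ p = 1 := by
      rw [← Units.val_pow_eq_pow_val, ← toMul_nsmul, ← map_nsmul, hε.killed, map_zero,
        toMul_zero, Units.val_one]
    have h2 : (((m g a).toMul : QBarˣ) : QBar) ∈ L' := le' (hμ _ h1)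
    exact ⟨Additive.ofMul (Units.mk0 ⟨_, h2⟩ fun h =>
        ((m g a).toMul : QBarˣ).ne_zero (congrArg Subtype.val h)),
      Additive.toMul.injective (Units.ext rfl)⟩
  choose uL huL using hmK
  let mL : GQ → TwHom (levelRes le') (Lat (K ≃ₐ[ℚ] K) ι) (Additive L'ˣ) := fun g =>
    TwHom.of (AddMonoidHom.mk' (fun x => uL g (ε x)) fun x y => unitsToQ_injective L' (by
      rw [map_add (unitsToQ L'), huL, huL, huL, map_add ε, map_add (m g)]))
  have hmLq : ∀ g, toQHom (mL g) = TwHom.pre ε (m g) := fun g => TwHom.ext fun x => huL g (ε x)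
  have hmLres : ∀ g g', res L' g = res L' g' → mL g = mL g' := fun g g' h => by
    refine toQHom_injective ?_
    rw [hmLq, hmLq]
    congr 1
    have hs : g⁻¹ * g' ∈ L'.fixingSubgroup := (IntermediateField.mem_fixingSubgroup_iff _ _).2
      fun x hx => by
        have hx' : ((res L' g⁻¹ * res L' g') ⟨x, hx⟩ : L') = ⟨x, hx⟩ := by
          rw [map_inv, h, inv_mul_cancel, AlgEquiv.one_apply]
        rw [← map_mul] at hx'
        have := congrArg Subtype.val hx'
        rwa [res_apply] at this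
    have := hFm g _ (IntermediateField.fixingSubgroup_antitone (le_sup_right.trans hle') hs)
    rw [mul_inv_cancel_left] at this
    exact this.symm
  let eP : (L' ≃ₐ[ℚ] L') → TwHom (levelRes le') (Lat (K ≃ₐ[ℚ] K) ι) (Additive L'ˣ) :=
    fun σ => TwHom.of ((unitsIncl h').comp (e (levelRes h' σ)).toHom)
  have hlp : LinkAt hε S le' c f.1 ((inclJ h').comp b) eP := hl.push h'
  let e' : (L' ≃ₐ[ℚ] L') → TwHom (levelRes le') (Lat (K ≃ₐ[ℚ] K) ι) (Additive L'ˣ) :=
    fun σ => eP σ - mL (lift L' σ)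
  have he'q : ∀ g, toQHom (e' (res L' g)) = toQHom (eP (res L' g)) - TwHom.pre ε (m g) := fun g => by
    rw [← hmLq, hmLres g (lift L' (res L' g)) (res_lift L' _).symm, ← map_sub]
  have he' : IsCocycle₁ e' := fun σ τ => by
    obtain ⟨g, rfl⟩ := AlgEquiv.restrictNormalHom_surjective (K₁ := L') QBar σ
    obtain ⟨h, rfl⟩ := AlgEquiv.restrictNormalHom_surjective (K₁ := L') QBar τ
    have e0 : dd e' (res L' g) (res L' h) = 0 := toQHom_injective (by
      rw [← dd_toQHom, funext he'q]
      have e1 := hlp.spec g h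
      rw [hcm, ← dd_pre ε hε.map_smul, ← dd_toQHom] at e1
      rw [map_zero]
      simp only [dd, smul_sub] at e1 ⊢
      rw [← sub_eq_zero.2 e1.symm]
      abel)
    simp only [dd] at e0
    rw [eq_comm, ← sub_eq_zero, ← e0]
    abel
  refine (isCoboundary₁_twHom_of_h1Zero e' he' (h1Zero_units _)).elim fun y hy => ?_
  let b1 : ε.ker →+ J L' := (inclJ h').comp b - ((diag L').comp y.toHom).comp ε.ker.subtype
  have hb1 : ∀ σ s, σ • b1 (smulS hε.isStable_ker (levelRes le' σ⁻¹) s) = b1 s := fun σ s => by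
    have e1 := congr_arg (fun φ : TwHom (levelRes le') (Lat (K ≃ₐ[ℚ] K) ι) _ =>
      diag L' (φ (s : Lat (K ≃ₐ[ℚ] K) ι))) (hy σ)
    have e2 := hlp.coboundary σ s
    have e3 : mL (lift L' σ) (s : Lat (K ≃ₐ[ℚ] K) ι) = 0 := unitsToQ_injective L' (by
      rw [show mL (lift L' σ) (s : Lat (K ≃ₐ[ℚ] K) ι) =
        uL (lift L' σ) (ε (s : Lat (K ≃ₐ[ℚ] K) ι)) from rfl, huL, AddMonoidHom.mem_ker.1 s.2,
        map_zero, map_zero])
    simp only [e', TwHom.sub_apply, TwHom.smul_apply, map_sub, diag_smul, e3,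
      sub_zero] at e1
    rw [← e2] at e1
    simp only [b1, AddMonoidHom.sub_apply, AddMonoidHom.comp_apply, AddSubgroup.coe_subtype,
      TwHom.toHom_apply, smul_sub, coe_smulS]
    rw [← sub_eq_zero] at e1 ⊢
    rw [← neg_eq_zero] at e1
    rw [← e1]
    simp only [AddMonoidHom.comp_apply]
    abel
  choose b0' hb0' using fun s => exists_inclJ_eq le' (x := b1 s) fun σ hσ => by
    have e1 := hb1 σ s
    rwa [map_inv, MonoidHom.mem_ker.1 hσ, inv_one,
      show smulS hε.isStable_ker (1 : K ≃ₐ[ℚ] K) s = s from Subtype.ext (one_smul _ _)] at e1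
  let b0 : ε.ker →+ J K := AddMonoidHom.mk' b0' fun s t => inclJ_injective le' (by
    rw [map_add (inclJ le'), hb0', hb0', hb0', map_add b1])
  have hb0 : ∀ s, inclJ le' (b0 s) = b1 s := hb0'
  have hb0eq : b0 ∈ equivHom (C := J K) hε.isStable_ker := fun γ s => inclJ_injective le' (by
    obtain ⟨σ, rfl⟩ := levelRes_surjective le' γ
    rw [hb0, ← smul_inclJ le', hb0, ← hb1 σ (smulS _ _ s), smulS_smulS, map_inv, inv_mul_cancel,
      show smulS hε.isStable_ker (1 : K ≃ₐ[ℚ] K) s = s from Subtype.ext (one_smul _ _)])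
  have hproj : ∀ s, proj K (b0 s) = f.1 s := fun s => Duality.inclC_injective le' (
    (inclC_proj le' (b0 s)).trans <| (congrArg (proj L') (hb0 s)).trans <|
      (map_sub (proj L') (((inclJ h').comp b) s) (diag L' (y.toHom s))).trans <|
      (congrArg₂ (fun z z' : C L' => z - z') (hlp.proj_b s)
        (proj_diag (L := L') (y.toHom s))).trans (sub_zero _))
  have hdiv : ∀ x, b0 (mulP hε.smul_mem x) ∈ divOrd K p (S : Set Nat.Primes) := fun x => by
    rw [← inclJ_mem_divOrd_iff le', hb0]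
    simp only [b1, AddMonoidHom.sub_apply, AddMonoidHom.comp_apply, AddSubgroup.coe_subtype,
      coe_mulP, map_nsmul]
    exact sub_mem ((inclJ_mem_divOrd_iff h').2 (hl.good x)) (nsmul_mem_divOrd hur' _)
  have hn : ∀ (i : ι) (q : Nat.Primes) (σ : K ≃ₐ[ℚ] K), ∃ n : ℤ, q ∈ S ∧ n = 0 ∨ q ∉ S ∧
      ‖((val (b0 (mulP hε.smul_mem (Lat.e i 1))).toMul q σ : (E K q)ˣ) : E K q)‖ =
        (q : ℝ) ^ ((p : ℤ) * n) := fun i q σ => by
    by_cases hq : q ∈ S
    · exact ⟨0, Or.inl ⟨hq, rfl⟩⟩
    · obtain ⟨n, hn⟩ := hdiv (Lat.e i 1) q (by simpa using hq) (lift K σ)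
      rw [← norm_val_eq, res_lift] at hn
      exact ⟨n, Or.inr ⟨hq, hn⟩⟩
  choose n hn using hn
  have hp0 : (p : ℤ) ≠ 0 := Nat.cast_ne_zero.2 hp.out.ne_zero
  have hninv : ∀ i (q : Nat.Primes) (t : E K q ≃ₐ[ℚ_[(q : ℕ)]] E K q) σ,
      n i q (toGlobal (q : ℕ) K t * σ) = n i q σ := fun i q t σ => by
    rcases hn i q σ with ⟨hq, h0⟩ | ⟨hq, h1⟩ <;>
      rcases hn i q (toGlobal (q : ℕ) K t * σ) with ⟨hq', h0'⟩ | ⟨hq', h1'⟩
    · rw [h0, h0']
    · exact absurd hq hq'
    · exact absurd hq' hq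
    · rw [val_toGlobal_mul, norm_smul_unit, h1] at h1'
      exact (mul_left_cancel₀ hp0 (zpow_prime_injective q h1')).symm
  have hnfin : ∀ i, ∃ T : Finset Nat.Primes, ∀ q : Nat.Primes, q ∉ T → ∀ σ, n i q σ = 0 := fun i => by
    obtain ⟨T, hT⟩ := val_mem_unitGroup_cofinite (b0 (mulP hε.smul_mem (Lat.e i 1))).toMul
    refine ⟨T, fun q hqT σ => ?_⟩
    rcases hn i q σ with ⟨_, h0⟩ | ⟨_, h1⟩
    · exact h0
    · rw [(mem_unitGroup _).1 (hT q hqT σ)] at h1
      exact (mul_eq_zero.1 (zpow_prime_injective q (h1.symm.trans (zpow_zero _).symm))).resolve_left hp0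
  refine (exists_equivariant (G := K ≃ₐ[ℚ] K)
    fun i => powJ (n i) (hninv i) (hnfin i)).elim fun Yt hYt' => ?_
  have hYt := hYt'.1
  have hYte := hYt'.2
  let D : Lat (K ≃ₐ[ℚ] K) ι →+ J K := b0.comp (mulP hε.smul_mem) - p • Yt
  have hD1 : ∀ i, D (Lat.e i 1) ∈ unitsOutside K (S : Set Nat.Primes) := fun i q hq g => by
    simp only [D, AddMonoidHom.sub_apply, AddMonoidHom.comp_apply, AddMonoidHom.nsmul_apply, hYte,
      one_smul]
    rw [sub_eq_add_neg, normAt_add, normAt_neg, normAt_nsmul, ← norm_val_eq, ← norm_val_eq, val_powJ, norm_qInv_zpow]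
    rcases hn i q (res K g) with ⟨hq', _⟩ | ⟨_, h1⟩
    · exact absurd (Finset.mem_coe.2 hq') hq
    · rw [h1, mul_comm (p : ℤ), zpow_mul, zpow_natCast, mul_inv_cancel₀]
      exact pow_ne_zero _ (zpow_ne_zero _ (Nat.cast_ne_zero.2 q.2.ne_zero))
  have hDall : ∀ z, D z ∈ unitsOutside K (S : Set Nat.Primes) := fun z => by
    rw [Lat.eq_sum z, map_sum]
    refine sum_mem fun r _ => ?_
    rw [map_zsmul]
    refine zsmul_mem ?_ _
    have e1 : D (Lat.e r.1 r.2) = r.2 • D (Lat.e r.1 1) := by
      conv_lhs => rw [← mul_one r.2, ← Lat.smul_e]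
      simp only [D, AddMonoidHom.sub_apply, AddMonoidHom.comp_apply, AddMonoidHom.nsmul_apply, hYt,
        smul_sub, smul_comm r.2 p, ← smulS_mulP hε.isStable_ker hε.smul_mem,
        hb0eq r.2 (mulP hε.smul_mem (Lat.e r.1 1))]
    rw [e1]
    exact smul_mem_unitsOutside r.2 (hD1 r.1)
  let w : equivHom (C := J K) hε.isStable_ker := ⟨b0 - Yt.comp ε.ker.subtype, fun γ s => by
    simp only [AddMonoidHom.sub_apply, AddMonoidHom.comp_apply, AddSubgroup.coe_subtype, coe_smulS,
      hYt, smul_sub, hb0eq γ s]⟩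
  refine ⟨(proj K).comp Yt, w, fun g x => ?_, fun s q hq g => ?_, fun s => ?_⟩
  · rw [AddMonoidHom.comp_apply, hYt, proj_smul]; rfl
  · have e1 := hDall s q hq g
    have e2 : D (s : Lat (K ≃ₐ[ℚ] K) ι) = p • w.1 s := by
      simp only [D, w, AddMonoidHom.sub_apply, AddMonoidHom.comp_apply, AddMonoidHom.nsmul_apply,
        AddSubgroup.coe_subtype, mulP_coe, map_nsmul, smul_sub]
    rw [e2, normAt_nsmul] at e1
    exact (pow_eq_one_iff_of_nonneg (norm_nonneg _) hp.out.ne_zero).1 e1
  · simp only [w, AddMonoidHom.sub_apply, AddMonoidHom.comp_apply, AddSubgroup.coe_subtype,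
      map_sub, hproj]
    abel

end Fermat.Agent.CFT.PT
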