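import Fermat.Agent.CFT.PT.Sha1
import Fermat.Agent.CFT.PT.Descent
import Fermat.Agent.CFT.Coh.H2

/-!
# The semilocal maps at one prime detect the classes which are nontrivial there
-/

set_option autoImplicit false
set_option synthInstance.maxHeartbeats 200000
set_option maxHeartbeats 1600000
set_option linter.unusedSectionVars false
set_option linter.style.haveILetI false

noncomputable section

namespace Fermat.Agent.CFT.PT

open ExtCitation Fermat.Agent.Arith IntermediateField Fermat.Agent.CFT.Local Fermat.Agent.CFT.Idele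
open Fermat.Agent.CFT.Duality groupCohomology

local instance factPrimeLocalPerfect (q : Nat.Primes) : Fact (q : ℕ).Prime := ⟨q.2⟩

/-! Shortcuts for the algebraic structures on the ideles and idele classes. -/

local instance (priority := 5000) clAddMonoidPerfect (L : IntermediateField ℚ QBar)
    [FiniteDimensional ℚ L] [Normal ℚ L] : AddMonoid (C L) := inferInstance
local instance (priority := 5000) clAddCommMonoidPerfect (L : IntermediateField ℚ QBar)
    [FiniteDimensional ℚ L] [Normal ℚ L] : AddCommMonoid (C L) := inferInstance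
local instance (priority := 5000) clAddGroupPerfect (L : IntermediateField ℚ QBar)
    [FiniteDimensional ℚ L] [Normal ℚ L] : AddGroup (C L) := inferInstance
local instance (priority := 5000) clSubCommMonoidPerfect (L : IntermediateField ℚ QBar)
    [FiniteDimensional ℚ L] [Normal ℚ L] : SubtractionCommMonoid (C L) := inferInstance
local instance (priority := 5000) clAddPerfect (L : IntermediateField ℚ QBar)
    [FiniteDimensional ℚ L] [Normal ℚ L] : Add (C L) := inferInstance
local instance (priority := 5000) clSubPerfect (L : IntermediateField ℚ QBar)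
    [FiniteDimensional ℚ L] [Normal ℚ L] : Sub (C L) := inferInstance
local instance (priority := 5000) clZSMulPerfect (L : IntermediateField ℚ QBar)
    [FiniteDimensional ℚ L] [Normal ℚ L] : SMul ℤ (C L) := inferInstance
local instance (priority := 5000) clSMulPerfect (L : IntermediateField ℚ QBar)
    [FiniteDimensional ℚ L] [Normal ℚ L] : SMul (L ≃ₐ[ℚ] L) (C L) := inferInstance
local instance (priority := 5000) jlAddMonoidPerfect (L : IntermediateField ℚ QBar)
    [FiniteDimensional ℚ L] [Normal ℚ L] : AddMonoid (J L) := inferInstance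
local instance (priority := 5000) jlAddCommMonoidPerfect (L : IntermediateField ℚ QBar)
    [FiniteDimensional ℚ L] [Normal ℚ L] : AddCommMonoid (J L) := inferInstance
local instance (priority := 5000) jlAddGroupPerfect (L : IntermediateField ℚ QBar)
    [FiniteDimensional ℚ L] [Normal ℚ L] : AddGroup (J L) := inferInstance
local instance (priority := 5000) jlSMulPerfect (L : IntermediateField ℚ QBar)
    [FiniteDimensional ℚ L] [Normal ℚ L] : SMul (L ≃ₐ[ℚ] L) (J L) := inferInstance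
local instance (priority := 5000) jlAddZeroPerfect (L : IntermediateField ℚ QBar)
    [FiniteDimensional ℚ L] [Normal ℚ L] : AddZeroClass (J L) := inferInstance
local instance (priority := 5000) clSubMonoidPerfect (L : IntermediateField ℚ QBar)
    [FiniteDimensional ℚ L] [Normal ℚ L] : SubtractionMonoid (C L) := inferInstance
local instance (priority := 5000) clZeroPerfect (L : IntermediateField ℚ QBar)
    [FiniteDimensional ℚ L] [Normal ℚ L] : Zero (C L) := inferInstance
local instance (priority := 5000) jlSubMonoidPerfect (L : IntermediateField ℚ QBar)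
    [FiniteDimensional ℚ L] [Normal ℚ L] : SubtractionMonoid (J L) := inferInstance
local instance (priority := 5000) clDistribSMulPerfect (L : IntermediateField ℚ QBar)
    [FiniteDimensional ℚ L] [Normal ℚ L] : DistribSMul (L ≃ₐ[ℚ] L) (C L) := inferInstance
local instance (priority := 5000) clSMulCommPerfect (L : IntermediateField ℚ QBar)
    [FiniteDimensional ℚ L] [Normal ℚ L] : SMulCommClass (L ≃ₐ[ℚ] L) ℤ (C L) := inferInstance
local instance (priority := 5000) clNegPerfect (L : IntermediateField ℚ QBar)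
    [FiniteDimensional ℚ L] [Normal ℚ L] : Neg (C L) := inferInstance
local instance (priority := 5000) idlCommGroupPerfect (L : IntermediateField ℚ QBar)
    [FiniteDimensional ℚ L] [Normal ℚ L] : CommGroup (idl L) := inferInstance
local instance (priority := 5000) jlDistribSMulPerfect (L : IntermediateField ℚ QBar)
    [FiniteDimensional ℚ L] [Normal ℚ L] : DistribSMul (L ≃ₐ[ℚ] L) (J L) := inferInstance
local instance (priority := 5000) jlZeroPerfect (L : IntermediateField ℚ QBar)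
    [FiniteDimensional ℚ L] [Normal ℚ L] : Zero (J L) := inferInstance

section Transport

variable {G H A : Type*} [Group G] [Fintype G] [Group H] [Fintype H] [AddCommGroup A]
  [DistribMulAction G A] [DistribMulAction H A]

/-- The pull back of a normalised cocycle along a compatible homomorphism. -/
def pullNormCocycle (u : NormCocycle G A) (f : H →* G) (hf : ∀ (h : H) (a : A), f h • a = h • a) :
    NormCocycle H A where
  toFun x := u.toFun (f x.1, f x.2)
  isCocycle a b d := by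
    simp only [map_mul, ← hf]
    exact u.isCocycle (f a) (f b) (f d)
  one_left g := by rw [map_one]; exact u.one_left _

theorem isClassFormation_pull {p : ℕ} {u : NormCocycle G A} (hu : IsClassFormation p u)
    (f : H →* G) (hinj : Function.Injective f) (hf : ∀ (h : H) (a : A), f h • a = h • a) :
    IsClassFormation p (pullNormCocycle u f hf) := by
  refine ⟨fun K hK => ?_, fun K hK c hc => ?_, fun K hK k hk => ?_⟩
  · exact (hu.h1 _ (hK.map f)).of_equiv (K.equivMapOfInjective f hinj) fun h a => hf (h : H) a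
  · set τ := K.equivMapOfInjective f hinj
    obtain ⟨k, x, hx⟩ := hu.generates _ (hK.map f) (fun gh => c (τ.symm gh.1, τ.symm gh.2))
      fun a b d => by
        show c (τ.symm (a * b), _) + _ = _ + c (_, τ.symm (b * d))
        rw [map_mul, map_mul, hc]
        conv_rhs => rw [← τ.apply_symm_apply a]
        simp only [τ.symm_apply_apply]
        rw [show τ (τ.symm a) • c (τ.symm b, τ.symm d) = (τ.symm a) • c (τ.symm b, τ.symm d) from
          hf _ _]
    refine ⟨k, fun h => x (τ h), fun a b => ?_⟩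
    have := hx (τ a) (τ b)
    simp only [τ.symm_apply_apply] at this
    show (a : H) • x (τ b) - x (τ (a * b)) + x (τ a) = _
    rw [map_mul, ← hf]
    exact this
  · set τ := K.equivMapOfInjective f hinj
    obtain ⟨x, hx⟩ := hk
    rw [Nat.card_congr τ.toEquiv]
    refine hu.order _ (hK.map f) k ⟨fun h => x (τ.symm h), fun a b => ?_⟩
    obtain ⟨a, rfl⟩ := τ.surjective a
    obtain ⟨b, rfl⟩ := τ.surjective b
    have := hx a b
    simp only [← map_mul, τ.symm_apply_apply]
    show (f (a : H) : G) • x b - x (a * b) + x a = _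
    rw [hf]
    exact this

end Transport

section LocalUnits

variable (L : IntermediateField ℚ QBar) [FiniteDimensional ℚ L] [Normal ℚ L] (q : Nat.Primes)

/-- The image in the global group of a subgroup of the local group. -/
abbrev globalGrp (Q : Subgroup (E L q ≃ₐ[ℚ_[(q : ℕ)]] E L q)) : Subgroup (L ≃ₐ[ℚ] L) :=
  Q.map (toGlobal (q : ℕ) L)

/-- The subgroup seen in the local group. -/
def localOf (Q : Subgroup (E L q ≃ₐ[ℚ_[(q : ℕ)]] E L q)) :
    globalGrp L q Q →* (E L q ≃ₐ[ℚ_[(q : ℕ)]] E L q) :=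
  Q.subtype.comp (Q.equivMapOfInjective _ (toGlobal_injective (q : ℕ) L)).symm.toMonoidHom

theorem localOf_injective (Q : Subgroup (E L q ≃ₐ[ℚ_[(q : ℕ)]] E L q)) :
    Function.Injective (localOf L q Q) :=
  Q.subtype_injective.comp (MulEquiv.injective _)

theorem toGlobal_localOf (Q : Subgroup (E L q ≃ₐ[ℚ_[(q : ℕ)]] E L q)) (h : globalGrp L q Q) :
    toGlobal (q : ℕ) L (localOf L q Q h) = (h : L ≃ₐ[ℚ] L) :=
  congrArg Subtype.val
    ((Q.equivMapOfInjective _ (toGlobal_injective (q : ℕ) L)).apply_symm_apply h)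

/-- The local units as a module over a subgroup of the decomposition group. -/
@[nolint unusedArguments]
def LocMod (_Q : Subgroup (E L q ≃ₐ[ℚ_[(q : ℕ)]] E L q)) : Type := Additive (E L q)ˣ

instance (Q : Subgroup (E L q ≃ₐ[ℚ_[(q : ℕ)]] E L q)) : AddCommGroup (LocMod L q Q) :=
  inferInstanceAs (AddCommGroup (Additive (E L q)ˣ))

instance (Q : Subgroup (E L q ≃ₐ[ℚ_[(q : ℕ)]] E L q)) :
    DistribMulAction (E L q ≃ₐ[ℚ_[(q : ℕ)]] E L q) (LocMod L q Q) :=
  inferInstanceAs (DistribMulAction (E L q ≃ₐ[ℚ_[(q : ℕ)]] E L q) (Additive (E L q)ˣ))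

instance (Q : Subgroup (E L q ≃ₐ[ℚ_[(q : ℕ)]] E L q)) :
    DistribMulAction (globalGrp L q Q) (LocMod L q Q) :=
  DistribMulAction.compHom _ (localOf L q Q)

theorem locMod_smul (Q : Subgroup (E L q ≃ₐ[ℚ_[(q : ℕ)]] E L q)) (h : globalGrp L q Q)
    (a : LocMod L q Q) : localOf L q Q h • a = h • a := rfl

/-- The local units as ideles supported at `q`. -/
def locJ (Q : Subgroup (E L q ≃ₐ[ℚ_[(q : ℕ)]] E L q)) : LocMod L q Q →+ J L := loc' L q

theorem locJ_smul (Q : Subgroup (E L q ≃ₐ[ℚ_[(q : ℕ)]] E L q)) (h : globalGrp L q Q)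
    (a : LocMod L q Q) : locJ L q Q (h • a) = (h : L ≃ₐ[ℚ] L) • locJ L q Q a := by
  rw [← locMod_smul, ← toGlobal_localOf L q Q h]
  exact loc'_smul L q _ a

theorem locJ_mem (Q : Subgroup (E L q ≃ₐ[ℚ_[(q : ℕ)]] E L q)) (a : LocMod L q Q) :
    locJ L q Q a ∈ supportedIn L {q} := fun q' hq' σ =>
  val_locIdl_of_ne q _ (by simpa using hq') σ

end LocalUnits

/-- Two coboundary relations combine: the multiples of the second term cancel. -/
theorem smul_combine_coboundary {G M : Type*} [Monoid G] [AddCommGroup M] [DistribMulAction G M]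
    (g : G) {a b d x y z P U : M} {N t p c : ℤ} (h1 : g • b - a + d = P - (p * t) • U)
    (h2 : g • y - x + z = c • U) (hc : c = N * p) :
    g • (N • b + t • y) - (N • a + t • x) + (N • d + t • z) = N • P := by
  rw [smul_add, smul_comm g N, smul_comm g t,
    show N • (g • b) + t • (g • y) - (N • a + t • x) + (N • d + t • z) =
      N • (g • b - a + d) + t • (g • y - x + z) by simp only [zsmul_add, zsmul_sub]; abel,
    h1, h2, hc, zsmul_sub, ← mul_zsmul, ← mul_zsmul, show t * (N * p) = N * (p * t) by ring]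
  abel

/-- The multiple of the fundamental class given by a local one is prime to `p`. -/
theorem not_dvd_of_compat {L : IntermediateField ℚ QBar} [FiniteDimensional ℚ L] [Normal ℚ L]
    {p : ℕ} [hp : Fact p.Prime] (q : Nat.Primes) (hA : StepAxioms p (L ≃ₐ[ℚ] L) (C L))
    (u : NormCocycle (L ≃ₐ[ℚ] L) (C L))
    (c : NormCocycle (E L q ≃ₐ[ℚ_[(q : ℕ)]] E L q) (Additive (E L q)ˣ))
    (hcord : ∀ H : Subgroup (E L q ≃ₐ[ℚ_[(q : ℕ)]] E L q), IsPGroup p H → ∀ (k : ℤ) (b : H → C L),
      (∀ g g' : H, toGlobal (q : ℕ) L (g : E L q ≃ₐ[ℚ_[(q : ℕ)]] E L q) • b g' - b (g * g') + b g =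
        k • proj L (loc' L q (c.toFun ((g : E L q ≃ₐ[ℚ_[(q : ℕ)]] E L q),
          (g' : E L q ≃ₐ[ℚ_[(q : ℕ)]] E L q))))) →
      (Nat.card H : ℤ) ∣ k)
    (Q₀ : Subgroup (E L q ≃ₐ[ℚ_[(q : ℕ)]] E L q)) (hQ : IsPGroup p Q₀) {n : ℕ} (hn0 : n ≠ 0)
    (hn : Nat.card Q₀ = p ^ n) (k : ℤ) (b : Q₀ → C L)
    (hb : ∀ d d' : Q₀, toGlobal (q : ℕ) L (d : E L q ≃ₐ[ℚ_[(q : ℕ)]] E L q) • b d' - b (d * d') + b d =
      proj L (loc' L q (c.toFun ((d : E L q ≃ₐ[ℚ_[(q : ℕ)]] E L q),
        (d' : E L q ≃ₐ[ℚ_[(q : ℕ)]] E L q)))) -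
      k • u.toFun (toGlobal (q : ℕ) L d, toGlobal (q : ℕ) L d')) :
    ¬ (p : ℤ) ∣ k := by
  rintro ⟨t, rfl⟩
  set H := Q₀.map (toGlobal (q : ℕ) L)
  let τ := Q₀.equivMapOfInjective _ (toGlobal_injective (q : ℕ) L)
  obtain ⟨x, hx⟩ := hA.card_zsmul_mem H (hQ.map _) (u.restrict H).toFun (u.restrict H).isCocycle
  set N : ℤ := (p : ℤ) ^ (n - 1) with hN
  have hcard : ((Nat.card H : ℕ) : ℤ) = N * p := by
    rw [← Nat.card_congr τ.toEquiv, hn, Nat.cast_pow, hN, ← pow_succ,
      Nat.sub_add_cancel (Nat.pos_of_ne_zero hn0)]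
  have hd : ((Nat.card Q₀ : ℕ) : ℤ) ∣ N :=
    hcord Q₀ hQ N (fun d => N • b d + t • x (τ d)) fun d d' => by
      show toGlobal (q : ℕ) L (d : E L q ≃ₐ[ℚ_[(q : ℕ)]] E L q) • (N • b d' + t • x (τ d')) -
        (N • b (d * d') + t • x (τ (d * d'))) + (N • b d + t • x (τ d)) = _
      rw [τ.map_mul]
      exact smul_combine_coboundary (toGlobal (q : ℕ) L (d : E L q ≃ₐ[ℚ_[(q : ℕ)]] E L q))
        (hb d d') (hx (τ d) (τ d')) hcard
  rw [hn, Nat.cast_pow] at hd
  have h2 : (p : ℤ) ^ n ≤ N := Int.le_of_dvd (pow_pos (Nat.cast_pos.2 hp.out.pos) _) hd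
  have h3 : N < (p : ℤ) ^ n :=
    pow_lt_pow_right₀ (by exact_mod_cast hp.out.one_lt) (Nat.pred_lt hn0)
  omega

section Descend

variable {K : IntermediateField ℚ QBar} [FiniteDimensional ℚ K] [Normal ℚ K]
  {A ι : Type*} [AddCommGroup A] [DistribMulAction (K ≃ₐ[ℚ] K) A] [Fintype ι] {p : ℕ}
  {ε : Lat (K ≃ₐ[ℚ] K) ι →+ A} (hε : Presentation p ε)
  {L : IntermediateField ℚ QBar} [FiniteDimensional ℚ L] [Normal ℚ L] (h : K ≤ L)
  [hp : Fact p.Prime] {u : NormCocycle (L ≃ₐ[ℚ] L) (C L)} (hu : IsClassFormation p u)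
  (hk : IsPGroup p (levelRes h).ker)

theorem upJ_equivariant_aux (w : ε.ker →+ J K) (ψ' : relUp (levelRes h) ε →+ J L)
    (hw : ∀ s, upJ h w s = ψ' s) (g : L ≃ₐ[ℚ] L) (s : relUp (levelRes h) ε)
    (hg : ψ' (smulS hε.isStable_up g s) = g • ψ' s) :
    inclJ h (w (smulS hε.isStable_ker (levelRes h g) (prS (levelRes h) ε s))) =
      inclJ h (levelRes h g • w (prS (levelRes h) ε s)) := by
  rw [← prS_smul hε, ← smul_inclJ h]
  have e1 := hw (smulS hε.isStable_up g s)
  have e2 := hw s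
  simp only [upJ, AddMonoidHom.comp_apply] at e1 e2
  rw [e1, e2, hg]

/-- An equivariant map to the ideles at `q` on the upper relations is, up to a map which pairs to
zero, pulled back from the lower level. -/
theorem exists_supported_descend (q : Nat.Primes) (ψ : relUp (levelRes h) ε →+ J L)
    (hψ : IsEquivariantOn (hε.isStable_up (π := levelRes h)) ψ)
    (hψq : ∀ s, ψ s ∈ supportedIn L {q}) :
    ∃ (w : equivHom (C := J K) hε.isStable_ker) (Φ : Lat (L ≃ₐ[ℚ] L) ι →+ J L),
      (∀ s, w.1 s ∈ supportedIn K {q}) ∧ (∀ (g : L ≃ₐ[ℚ] L) (x : Lat (L ≃ₐ[ℚ] L) ι),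
        Φ (g • x) = g • Φ x) ∧
        ∀ s, upJ h w.1 s = ψ s - Φ (s : Lat (L ≃ₐ[ℚ] L) ι) := by
  classical
  have hπ : Function.Surjective (levelRes h) := levelRes_surjective h
  have hSst : ∀ g : L ≃ₐ[ℚ] L, ∀ x ∈ supportedIn L ({q} : Set Nat.Primes),
      g • x ∈ supportedIn L {q} := fun g x hx => smul_mem_supportedIn g hx
  letI instX : DistribMulAction (⊤ : Subgroup (L ≃ₐ[ℚ] L)) (supportedIn L ({q} : Set Nat.Primes)) :=
    { smul := fun g x => ⟨(g : L ≃ₐ[ℚ] L) • (x : J L), hSst _ _ x.2⟩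
      one_smul := fun x => Subtype.ext (one_smul _ _)
      mul_smul := fun g g' x => Subtype.ext (mul_smul _ _ _)
      smul_zero := fun g => Subtype.ext (smul_zero _)
      smul_add := fun g x y => Subtype.ext (smul_add _ _ _) }
  have h1 : H1Zero ((levelRes h).ker.subgroupOf ⊤) (supportedIn L ({q} : Set Nat.Primes)) := fun c hc => by
    let t : (levelRes h).ker.subgroupOf ⊤ ≃* (levelRes h).ker := Subgroup.subgroupOfEquivOfLe le_top
    obtain ⟨y, hy, hy'⟩ := exists_of_cocycle_supported q (levelRes h).ker (fun n => (c (t.symm n) : J L))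
      (fun m n => by
        show (c (t.symm (m * n)) : J L) = _
        rw [map_mul, hc]
        rfl) fun n => (c _).2
    exact ⟨⟨y, hy⟩, fun n => Subtype.ext (by
      have e := hy' (t n)
      rw [t.symm_apply_apply] at e
      exact e)⟩
  obtain ⟨Φ₀, hΦ₀, hΦψ⟩ := Lat.exists_extend_ker (levelRes h) hπ ⊤ h1
    (AddMonoidHom.codRestrict (ψ.comp (AddSubgroup.inclusion ker_pr_le)) _ fun k => hψq _)
    fun g k => Subtype.ext (hψ (g : L ≃ₐ[ℚ] L) (AddSubgroup.inclusion ker_pr_le k))
  let Φ : Lat (L ≃ₐ[ℚ] L) ι →+ J L := (supportedIn L ({q} : Set Nat.Primes)).subtype.comp Φ₀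
  have hΦ : ∀ g x, Φ (g • x) = g • Φ x := fun g x =>
    congrArg Subtype.val (hΦ₀ ⟨g, Subgroup.mem_top g⟩ x)
  let ψ' : relUp (levelRes h) ε →+ J L := ψ - Φ.comp (relUp (levelRes h) ε).subtype
  have hψ'0 : ∀ k : (Lat.pr (levelRes h) (ι := ι)).ker, ψ' (AddSubgroup.inclusion ker_pr_le k) = 0 := fun k => by
    show ψ (AddSubgroup.inclusion ker_pr_le k) - Φ (k : Lat (L ≃ₐ[ℚ] L) ι) = 0
    rw [show Φ (k : Lat (L ≃ₐ[ℚ] L) ι) = ψ (AddSubgroup.inclusion ker_pr_le k) from
      congrArg Subtype.val (hΦψ k), sub_self]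
  have hψ'g : ∀ g s, ψ' (smulS hε.isStable_up g s) = g • ψ' s := fun g s => by
    show ψ (smulS hε.isStable_up g s) - Φ (g • (s : Lat (L ≃ₐ[ℚ] L) ι)) = g • (ψ s - Φ s)
    rw [hψ g s, hΦ, smul_sub]
  have hψ'q : ∀ s, ψ' s ∈ supportedIn L {q} := fun s => sub_mem (hψq s) (Φ₀ _).2
  have hsec : ∀ s : relUp (levelRes h) ε, ψ' s = ψ' (secS (levelRes h) ε hπ (prS (levelRes h) ε s)) := fun s =>
    apply_eq_of_vanish hπ ψ' hψ'0 s
  choose w hw using fun s : ε.ker => exists_inclJ_eq h (x := ψ' (secS (levelRes h) ε hπ s)) fun n hn => by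
    rw [← hψ'g, hsec (smulS _ n _)]
    congr 2
    refine Subtype.ext ?_
    rw [coe_prS, coe_smulS, Lat.pr_smul, show levelRes h n = 1 from MonoidHom.mem_ker.1 hn,
      one_smul]
    exact congr_arg Subtype.val (prS_secS hπ s)
  let w' : ε.ker →+ J K := AddMonoidHom.mk' w fun s t => inclJ_injective h (by
    rw [map_add (inclJ h), hw, hw, hw, map_add (secS (levelRes h) ε hπ), map_add ψ'])
  have hup : ∀ s, upJ h w' s = ψ' s := fun s => by
    rw [hsec]; exact hw _
  refine ⟨⟨w', fun γ s => inclJ_injective h ?_⟩, Φ, fun s => ?_, hΦ, hup⟩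
  · obtain ⟨g, rfl⟩ := hπ γ
    have e := upJ_equivariant_aux hε h w' ψ' hup g (secS (levelRes h) ε hπ s) (hψ'g g _)
    rwa [prS_secS] at e
  · refine (inclJ_mem_supportedIn_iff h).1 ?_
    show inclJ h (w s) ∈ _
    rw [hw]; exact hψ'q _

/-- A class whose pairing with all maps supported at `q` vanishes is trivial at `q`. -/
theorem trivial_at_of_dual (q : Nat.Primes) (hA : StepAxioms p (L ≃ₐ[ℚ] L) (C L))
    {c : NormCocycle (E L q ≃ₐ[ℚ_[(q : ℕ)]] E L q) (Additive (E L q)ˣ)}
    (hc : IsClassFormation p c)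
    (hcord : ∀ H : Subgroup (E L q ≃ₐ[ℚ_[(q : ℕ)]] E L q), IsPGroup p H → ∀ (k : ℤ) (b : H → C L),
      (∀ g g' : H, toGlobal (q : ℕ) L (g : E L q ≃ₐ[ℚ_[(q : ℕ)]] E L q) • b g' - b (g * g') + b g =
        k • proj L (loc' L q (c.toFun ((g : E L q ≃ₐ[ℚ_[(q : ℕ)]] E L q), (g' : E L q ≃ₐ[ℚ_[(q : ℕ)]] E L q))))) →
      (Nat.card H : ℤ) ∣ k)
    (a : levelCocycles (levelRes h) A)
    (ha : ∀ w : equivHom (C := J K) hε.isStable_ker, (∀ s, w.1 s ∈ supportedIn K {q}) →
      dual hε h hu hk (projHom hε w) a = 0) :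
    ∃ x : A, ∀ g ∈ decomp L q, (a : (L ≃ₐ[ℚ] L) → A) g = levelRes h g • x - x := by
  classical
  let hL := levelSystem h hu hk
  let hS := hε.isStable_up (π := levelRes h)
  haveI : Finite (E L q ≃ₐ[ℚ_[(q : ℕ)]] E L q) :=
    Finite.of_injective _ (toGlobal_injective (q : ℕ) L)
  obtain ⟨Q⟩ := (inferInstance : Nonempty (Sylow p (E L q ≃ₐ[ℚ_[(q : ℕ)]] E L q)))
  let Q₀ : Subgroup (E L q ≃ₐ[ℚ_[(q : ℕ)]] E L q) := Q.toSubgroup
  let H := globalGrp L q Q₀
  have hHp : IsPGroup p H := Q.isPGroup'.map _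
  let b : cocycleMod (G := (L ≃ₐ[ℚ] L)) (S := relUp (levelRes h) ε) := ⟨_, liftC_mem hL hε a⟩
  suffices key : (resMod H b : H → Lat (L ≃ₐ[ℚ] L) ι) ∈ coboundaryMod (S := relUp (levelRes h) ε) by
    obtain ⟨y, hy⟩ : ((resMod (decomp L q) b : decomp L q → Lat (L ≃ₐ[ℚ] L) ι)) ∈
        coboundaryMod (S := relUp (levelRes h) ε) := by
      refine mem_coboundaryMod_of_resMod (IsStable.restrict hS _)
        (H.subgroupOf (decomp L q)) hε.smul_mem_up ?_ (resMod (decomp L q) b) ?_
      · have e : decomp L q = Subgroup.map (toGlobal (q : ℕ) L) ⊤ := by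
          rw [← MonoidHom.range_eq_map]
        show ¬ p ∣ (Subgroup.map (toGlobal (q : ℕ) L) Q₀).relIndex (decomp L q)
        rw [e, Subgroup.relIndex_map_map_of_injective _ _ (toGlobal_injective (q : ℕ) L),
          Subgroup.relIndex_top_right]
        exact Q.not_dvd_index
      · obtain ⟨y, hy⟩ := key
        have hle : H ≤ decomp L q := Subgroup.map_le_range _ _
        exact ⟨y, fun d => hy ⟨((d : decomp L q) : L ≃ₐ[ℚ] L), d.2⟩⟩
    refine ⟨ε (Lat.pr (levelRes h) y), fun g hg => ?_⟩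
    have e := hy ⟨g, hg⟩
    rw [mem_relUp] at e
    simp only [resMod_apply, b, map_sub, eps_liftC hL hε, Lat.pr_smul, hε.map_smul,
      Subgroup.smul_def] at e
    exact sub_eq_zero.1 e
  by_contra hnot
  let X := cocycleMod (G := H) (S := relUp (levelRes h) ε)
  let N : AddSubgroup X := (coboundaryMod (S := relUp (levelRes h) ε)).comap X.subtype
  have hkill : ∀ x : X ⧸ N, p • x = 0 := fun x => by
    obtain ⟨x, rfl⟩ := QuotientAddGroup.mk_surjective x
    rw [← QuotientAddGroup.mk_nsmul, QuotientAddGroup.eq_zero_iff]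
    refine ⟨0, fun d => ?_⟩
    simp only [smul_zero, sub_zero]
    exact hε.smul_mem_up _
  obtain ⟨μ₀, hμ₀, -⟩ := exists_functional_ne_zero hkill ⊥
    (a := ((resMod H b : X) : X ⧸ N)) fun h0 => hnot (by
      rw [AddSubgroup.mem_bot, QuotientAddGroup.eq_zero_iff] at h0
      exact h0)
  let μ : X →+ ZMod p := μ₀.comp (QuotientAddGroup.mk' N)
  have hcl : IsClassFormation p c := hc
  let cv : NormCocycle (E L q ≃ₐ[ℚ_[(q : ℕ)]] E L q) (LocMod L q Q₀) :=
    ⟨c.toFun, c.isCocycle, c.one_left⟩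
  have hcv : IsClassFormation p cv := ⟨hcl.h1, hcl.generates, hcl.order⟩
  haveI : Fintype (E L q ≃ₐ[ℚ_[(q : ℕ)]] E L q) := Fintype.ofFinite _
  let uv : NormCocycle H (LocMod L q Q₀) := pullNormCocycle cv (localOf L q Q₀) (locMod_smul L q Q₀)
  have huv : IsClassFormation p uv :=
    isClassFormation_pull hcv _ (localOf_injective L q Q₀) (locMod_smul L q Q₀)
  let jv : LocMod L q Q₀ →+ C L := (proj L).comp (locJ L q Q₀)
  have hjv : ∀ (d : H) (x : LocMod L q Q₀), jv (d • x) = (d : L ≃ₐ[ℚ] L) • jv x := fun d x => by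
    show proj L (locJ L q Q₀ (d • x)) = _
    rw [locJ_smul, proj_smul]
    rfl
  have hjc : IsCocycle₂ fun x : H × H => jv (uv.toFun x) := fun d e f => by
    show jv _ + jv _ = (d : L ≃ₐ[ℚ] L) • jv _ + jv _
    rw [← map_add, uv.isCocycle d e f, map_add, hjv]
  obtain ⟨k, bC, hbC⟩ := hu.generates H hHp _ hjc
  obtain ⟨n, hn⟩ := IsPGroup.iff_card.1 hHp
  have hn0 : n ≠ 0 := fun h0 => hnot ⟨0, fun d => by
    rw [h0, pow_zero] at hn
    haveI := (Nat.card_eq_one_iff_unique.1 hn).1
    obtain rfl := Subsingleton.elim d 1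
    simp only [smul_zero, sub_zero]
    exact one_mem_of_cocycleMod (resMod H b).2⟩
  have hks : ¬ (p : ℤ) ∣ k := by
    let τ := Q₀.equivMapOfInjective _ (toGlobal_injective (q : ℕ) L)
    refine not_dvd_of_compat q hA u c hcord Q₀ Q.isPGroup' hn0
      ((Nat.card_congr τ.toEquiv).trans hn) k (fun d => bC (τ d)) fun d d' => ?_
    have e1 := hbC (τ d) (τ d')
    have e3 : localOf L q Q₀ (τ d) = (d : E L q ≃ₐ[ℚ_[(q : ℕ)]] E L q) :=
      congrArg Subtype.val (τ.symm_apply_apply d)
    have e4 : localOf L q Q₀ (τ d') = (d' : E L q ≃ₐ[ℚ_[(q : ℕ)]] E L q) :=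
      congrArg Subtype.val (τ.symm_apply_apply d')
    rw [τ.map_mul]
    refine e1.trans ?_
    exact congrArg (· - _) (congrArg₂ (fun a b => jv (c.toFun (a, b))) e3 e4)
  let σ : SplitHom H uv u :=
    { j := jv, s := k, b := bC, map_smul := hjv
      spec := fun d d' => by
        have e := hbC d d'
        change (d : L ≃ₐ[ℚ] L) • bC d' - bC (d * d') + bC d = _ at e
        rw [e, add_sub_cancel] }
  obtain ⟨g, hg⟩ := exists_pair_eq (IsStable.restrict hS H) hε.smul_mem_up huv
    (Lat.isInduced.subgroup H) μ fun x hx => by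
      show μ₀ (QuotientAddGroup.mk x) = 0
      rw [(QuotientAddGroup.eq_zero_iff x).2 hx, map_zero]
  haveI : Fintype ((L ≃ₐ[ℚ] L) ⧸ H) := Fintype.ofFinite _
  let ψ : relUp (levelRes h) ε →+ J L := trHom hS H ((locJ L q Q₀).comp g.1)
  have hψ : IsEquivariantOn hS ψ := isEquivariantOn_trHom hS H _ fun d s => by
    show locJ L q Q₀ (g.1 (smulS (IsStable.restrict hS H) d s)) = d • locJ L q Q₀ (g.1 s)
    rw [g.2 d s, locJ_smul]
    rfl
  have hψq : ∀ s, ψ s ∈ supportedIn L {q} := fun s => by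
    show trHom hS H _ s ∈ _
    rw [trHom_apply, AddMonoidHom.finsetSum_apply]
    exact sum_mem fun r _ => smul_mem_supportedIn _ (locJ_mem L q Q₀ _)
  obtain ⟨w, Φ, hw, hΦ, hwψ⟩ := exists_supported_descend hε h q ψ hψ hψq
  have h0 := ha w hw
  obtain ⟨T, hT⟩ := (Lat.isInduced : IsInduced (L ≃ₐ[ℚ] L) (Lat (L ≃ₐ[ℚ] L) ι))
  let φ : relUp (levelRes h) ε →+ C L :=
    (((proj L).comp Φ).comp T).comp (relUp (levelRes h) ε).subtype
  have hφ : normOn hS φ = ((proj L).comp Φ).comp (relUp (levelRes h) ε).subtype :=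
    normOn_comp_of_equivariant hS hT _ fun g x => by
      rw [AddMonoidHom.comp_apply, hΦ, proj_smul]; rfl
  have hsplit : trEquiv hS σ g =
      pullEquiv hL hε (projHom hε w) + ⟨normOn hS φ, isEquivariantOn_normOn hS φ⟩ := by
    refine Subtype.ext (AddMonoidHom.ext fun s => ?_)
    show trHom hS H (jv.comp g.1) s = pullHom (levelRes h) ε (inclC h) (projHom hε w).1 s + _
    rw [projHom_coe, pullHom_proj]
    show _ = ((proj L).comp (upJ h w.1)) s + normOn hS φ s
    rw [hφ]
    simp only [AddMonoidHom.comp_apply, AddSubgroup.coe_subtype, hwψ, map_sub, sub_add_cancel]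
    simp only [ψ, trHom_apply, AddMonoidHom.finsetSum_apply, map_sum, conjOn_apply,
      AddMonoidHom.comp_apply, proj_smul]
    rfl
  have hp1 := pair_trEquiv hS hε.smul_mem_up hL.classFormation Lat.isInduced huv σ g b
  have h0' : pair hS hε.smul_mem_up hL.classFormation Lat.isInduced
      (pullEquiv hL hε (projHom hε w)) b = 0 := h0
  have h1' : pair hS hε.smul_mem_up hL.classFormation Lat.isInduced (trEquiv hS σ g) b = 0 :=
    (congrArg (fun z => pair hS hε.smul_mem_up hL.classFormation Lat.isInduced z b) hsplit).trans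
      ((DFunLike.congr_fun (AddMonoidHom.map_add
        (pair hS hε.smul_mem_up hL.classFormation Lat.isInduced) _ _) b).trans
        ((congrArg₂ (· + ·) h0'
          (pair_normOn hS hε.smul_mem_up hL.classFormation Lat.isInduced φ b)).trans (add_zero 0)))
  have h2' : (k : ZMod p) * μ (resMod H b) = 0 :=
    ((congrArg (fun z : X →+ ZMod p => (k : ZMod p) * z (resMod H b)) hg).symm.trans hp1.symm).trans h1'
  rcases mul_eq_zero.1 h2' with hk0 | hk0
  · exact hks ((ZMod.intCast_zmod_eq_zero_iff_dvd k p).1 hk0)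
  · exact hμ₀ hk0

end Descend

end Fermat.Agent.CFT.PT
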