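import Fermat.Agent.CFT.PT.Glue
import Fermat.Agent.CFT.PT.Arith.Basic

/-!
# Ideles made of powers of the primes, and the allowed maps into classes
-/

set_option autoImplicit false
set_option synthInstance.maxHeartbeats 200000
set_option maxHeartbeats 800000
set_option linter.unusedSectionVars false
set_option linter.style.haveILetI false

noncomputable section

namespace Fermat.Agent.CFT.PT

open ExtCitation Fermat.Agent.Arith IntermediateField Fermat.Agent.CFT.Local Fermat.Agent.CFT.Idele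
open Fermat.Agent.CFT.Duality

local instance factPrimePowers (q : Nat.Primes) : Fact (q : ℕ).Prime := ⟨q.2⟩

variable {L : IntermediateField ℚ QBar} [FiniteDimensional ℚ L] [Normal ℚ L]

variable (L) in
/-- The inverse of the rational prime, as a local unit of the completion. -/
def qInv (q : Nat.Primes) : (E L q)ˣ :=
  (Units.mk0 ((q : ℕ) : E L q) (Nat.cast_ne_zero.mpr q.2.ne_zero))⁻¹

theorem norm_qInv (q : Nat.Primes) : ‖((qInv L q : (E L q)ˣ) : E L q)‖ = (q : ℝ) := by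
  have h : ‖((q : ℕ) : E L q)‖ = ((q : ℕ) : ℝ)⁻¹ := by
    rw [← map_natCast (algebraMap ℚ_[(q : ℕ)] (E L q)) (q : ℕ), norm_algebraMap', Padic.norm_p]
  rw [qInv, Units.val_inv_eq_inv_val, norm_inv, Units.val_mk0, h, inv_inv]

theorem norm_qInv_zpow (q : Nat.Primes) (n : ℤ) :
    ‖(((qInv L q) ^ n : (E L q)ˣ) : E L q)‖ = (q : ℝ) ^ n := by
  rw [Units.val_zpow_eq_zpow_val, norm_zpow, norm_qInv]

theorem smul_qInv (q : Nat.Primes) (t : E L q ≃ₐ[ℚ_[(q : ℕ)]] E L q) : t • qInv L q = qInv L q := by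
  rw [qInv, smul_inv']
  congr 1
  exact Units.ext (map_natCast t _)

/-- The idele `∏ q ^ n`, for exponents invariant under decomposition groups. -/
def powJ (n : Nat.Primes → (L ≃ₐ[ℚ] L) → ℤ)
    (hn : ∀ (q : Nat.Primes) (t : E L q ≃ₐ[ℚ_[(q : ℕ)]] E L q) σ, n q (toGlobal (q : ℕ) L t * σ) = n q σ)
    (hfin : ∃ T : Finset Nat.Primes, ∀ q : Nat.Primes, q ∉ T → ∀ σ, n q σ = 0) : J L :=
  Additive.ofMul (Family.toIdl (L := L)
    { toFun := fun q σ => qInv L q ^ n q σ
      equi := fun q t σ => by rw [hn, smul_zpow', smul_qInv]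
      cofinite := by
        obtain ⟨T, hT⟩ := hfin
        exact ⟨T, fun q hq σ => by rw [hT q hq, zpow_zero]; exact one_mem _⟩ })

theorem val_powJ (n : Nat.Primes → (L ≃ₐ[ℚ] L) → ℤ)
    (hn : ∀ (q : Nat.Primes) (t : E L q ≃ₐ[ℚ_[(q : ℕ)]] E L q) σ, n q (toGlobal (q : ℕ) L t * σ) = n q σ)
    (hfin : ∃ T : Finset Nat.Primes, ∀ q : Nat.Primes, q ∉ T → ∀ σ, n q σ = 0) (q : Nat.Primes) (σ : L ≃ₐ[ℚ] L) :
    val (powJ n hn hfin).toMul q σ = qInv L q ^ n q σ := Family.val_toIdl _ q σ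

theorem zpow_prime_injective (q : Nat.Primes) {a b : ℤ} (h : (q : ℝ) ^ a = (q : ℝ) ^ b) : a = b :=
  zpow_right_injective₀ (Nat.cast_pos.mpr q.2.pos) (by exact_mod_cast q.2.one_lt.ne') h

section Allow

variable {K : IntermediateField ℚ QBar} [FiniteDimensional ℚ K] [Normal ℚ K]
  {A ι : Type*} [AddCommGroup A] [DistribMulAction (K ≃ₐ[ℚ] K) A] [Fintype ι] {p : ℕ}
  {ε : Lat (K ≃ₐ[ℚ] K) ι →+ A} (hε : Presentation p ε) (S : Finset Nat.Primes)

/-- Restrictions of equivariant maps plus maps into the ideles which are units outside `S`. -/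
def allow : AddSubgroup (equivHom (C := C K) hε.isStable_ker) where
  carrier := {f | ∃ (Y : Lat (K ≃ₐ[ℚ] K) ι →+ C K) (w : equivHom (C := J K) hε.isStable_ker),
    (∀ (g : K ≃ₐ[ℚ] K) x, Y (g • x) = g • Y x) ∧
      (∀ s, w.1 s ∈ unitsOutside K (S : Set Nat.Primes)) ∧
      ∀ s, f.1 s = Y (s : Lat (K ≃ₐ[ℚ] K) ι) + proj K (w.1 s)}
  zero_mem' := ⟨0, 0, fun g x => by simp, fun s => zero_mem _, fun s => by simp⟩
  add_mem' {f f'} := by
    rintro ⟨Y, w, hY, hw, hf⟩ ⟨Y', w', hY', hw', hf'⟩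
    refine ⟨Y + Y', w + w', fun g x => ?_, fun s => add_mem (hw s) (hw' s), fun s => ?_⟩
    · simp [hY, hY', smul_add]
    · simp only [AddSubgroup.coe_add, AddMonoidHom.add_apply, map_add, hf, hf']
      abel
  neg_mem' {f} := by
    rintro ⟨Y, w, hY, hw, hf⟩
    refine ⟨-Y, -w, fun g x => ?_, fun s => neg_mem (hw s), fun s => ?_⟩
    · simp [hY]
    · simp only [NegMemClass.coe_neg, AddMonoidHom.neg_apply, map_neg, hf]
      abel

end Allow

end Fermat.Agent.CFT.PT
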