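import Fermat.Agent.CFT.PT.Link
import Fermat.Agent.CFT.Coh.Level
import Fermat.Agent.Arith.RootsOfUnity
import Fermat.Prelude.Def_GroupCohomology_PoitouTate

/-!
# The twisted dual of a finite Galois module as a module of a level, and the Cartier dual
-/

set_option autoImplicit false
set_option synthInstance.maxHeartbeats 200000
set_option maxHeartbeats 800000
set_option linter.unusedSectionVars false
set_option linter.style.haveILetI false

noncomputable section

namespace Fermat.Agent.CFT.PT

open ExtCitation Fermat.Agent.Arith IntermediateField Fermat.Agent.CFT.Idele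
open Module groupCohomology

variable {p : ℕ} [hp : Fact p.Prime]

/-- The cyclotomic character gives the action on roots of unity. -/
theorem apply_root_eq_pow_cycloChar (g : GQ) {z : QBar} (hz : z ^ p = 1) :
    g z = z ^ ((cycloChar p g : (ZMod p)ˣ) : ZMod p).val := by
  haveI : NeZero p := ⟨hp.out.ne_zero⟩
  have h0 : z ≠ 0 := fun h => by simp [h, hp.out.ne_zero] at hz
  exact modularCyclotomicCharacter.spec QBar (card_rootsOfUnity_eq_self p) g.toRingEquiv
    (t := Units.mk0 z h0) (Units.ext (by simpa using hz))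

/-- The character is trivial on the Galois group over a field with a primitive root. -/
theorem cycloChar_eq_one {K : IntermediateField ℚ QBar} {ζ : QBar} (hζ : IsPrimitiveRoot ζ p)
    (hζK : ζ ∈ K) {g : GQ} (hg : g ∈ K.fixingSubgroup) : cycloChar p g = 1 := by
  haveI : NeZero p := ⟨hp.out.ne_zero⟩
  have h := apply_root_eq_pow_cycloChar g hζ.pow_eq_one
  rw [(IntermediateField.mem_fixingSubgroup_iff _ _).1 hg ζ hζK] at h
  have h1 := hζ.pow_inj hp.out.one_lt (ZMod.val_lt _) ((pow_one ζ).trans h)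
  refine Units.ext (ZMod.val_injective p ?_)
  rw [← h1, Units.val_one, ZMod.val_one]

variable (p) in
/-- `z ↦ ζ ^ z`. -/
def rootHom {ζ : QBar} (hζ : IsPrimitiveRoot ζ p) : ZMod p →+ Additive QBarˣ :=
  ZMod.lift p ⟨zmultiplesHom _ (Additive.ofMul (Units.mk0 ζ (hζ.ne_zero hp.out.ne_zero))), by
    show (p : ℤ) • Additive.ofMul (Units.mk0 ζ (hζ.ne_zero hp.out.ne_zero)) = 0
    rw [natCast_zsmul, ← ofMul_pow, show Units.mk0 ζ (hζ.ne_zero hp.out.ne_zero) ^ p = 1 from
      Units.ext (by simpa using hζ.pow_eq_one), ofMul_one]⟩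

theorem rootHom_natCast {ζ : QBar} (hζ : IsPrimitiveRoot ζ p) (n : ℕ) :
    ((((rootHom p hζ (n : ZMod p)).toMul : QBarˣ)) : QBar) = ζ ^ n := by
  rw [rootHom, ← Int.cast_natCast (R := ZMod p) n, ZMod.lift_coe]
  simp

theorem rootHom_val {ζ : QBar} (hζ : IsPrimitiveRoot ζ p) (z : ZMod p) :
    ((((rootHom p hζ z).toMul : QBarˣ)) : QBar) = ζ ^ z.val := by
  haveI : NeZero p := ⟨hp.out.ne_zero⟩
  conv_lhs => rw [← ZMod.natCast_zmod_val z]
  exact rootHom_natCast hζ _

theorem rootHom_injective {ζ : QBar} (hζ : IsPrimitiveRoot ζ p) :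
    Function.Injective (rootHom p hζ) := fun a b h => by
  haveI : NeZero p := ⟨hp.out.ne_zero⟩
  have h1 := congrArg (fun x : Additive QBarˣ => ((x.toMul : QBarˣ) : QBar)) h
  simp only [rootHom_val] at h1
  exact ZMod.val_injective p (hζ.pow_inj (ZMod.val_lt _) (ZMod.val_lt _) h1)

theorem smul_rootHom {ζ : QBar} (hζ : IsPrimitiveRoot ζ p) (g : GQ) (z : ZMod p) :
    g • rootHom p hζ z = rootHom p hζ (((cycloChar p g : (ZMod p)ˣ) : ZMod p) * z) := by
  haveI : NeZero p := ⟨hp.out.ne_zero⟩
  refine Additive.toMul.injective (Units.ext ?_)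
  have e : ((cycloChar p g : (ZMod p)ˣ) : ZMod p) * z =
      ((((cycloChar p g : (ZMod p)ˣ) : ZMod p).val * z.val : ℕ) : ZMod p) := by
    rw [Nat.cast_mul, ZMod.natCast_zmod_val, ZMod.natCast_zmod_val]
  rw [e, rootHom_natCast, pow_mul, ← apply_root_eq_pow_cycloChar g hζ.pow_eq_one, ← map_pow,
    ← rootHom_val hζ]
  rfl

theorem exists_rootHom_eq {ζ : QBar} (hζ : IsPrimitiveRoot ζ p) {x : Additive QBarˣ}
    (hx : p • x = 0) : ∃ z, rootHom p hζ z = x := by
  haveI : NeZero p := ⟨hp.out.ne_zero⟩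
  have h1 : ((x.toMul : QBarˣ) : QBar) ^ p = 1 := by
    rw [← Units.val_pow_eq_pow_val, ← toMul_nsmul, hx, toMul_zero, Units.val_one]
  obtain ⟨i, -, hi⟩ := hζ.eq_pow_of_pow_eq_one h1
  exact ⟨(i : ZMod p), Additive.toMul.injective (Units.ext ((rootHom_natCast hζ i).trans hi))⟩

variable (M : Rep (ZMod p) GQ) (K : IntermediateField ℚ QBar) [FiniteDimensional ℚ K] [Normal ℚ K]
  {ζ : QBar}

/-- A level over which a module and the roots of unity are trivial. -/
class TrivialOver : Prop where
  act : ∀ g ∈ K.fixingSubgroup, M.ρ g = 1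
  root : ∃ z ∈ K, IsPrimitiveRoot z p

/-- The twisted dual, as a module of the level. -/
@[nolint unusedArguments]
def DualA (_K : IntermediateField ℚ QBar) : Type := Module.Dual (ZMod p) M

instance : AddCommGroup (DualA M K) := inferInstanceAs (AddCommGroup (Module.Dual (ZMod p) M))

instance : Module (ZMod p) (DualA M K) :=
  inferInstanceAs (Module (ZMod p) (Module.Dual (ZMod p) M))

/-- A functional as an element of the twisted dual. -/
def DualA.of : (M.dualTwist (cycloChar p)) ≃+ DualA M K := AddEquiv.refl _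

/-- Evaluation. -/
def DualA.eval (m : M) : DualA M K →+ ZMod p :=
  AddMonoidHom.mk' (fun a => (show Module.Dual (ZMod p) M from a) m) fun _ _ => rfl

theorem dualA_ext {a b : DualA M K} (h : ∀ m, DualA.eval M K m a = DualA.eval M K m b) : a = b :=
  LinearMap.ext h

theorem eval_of_smul (g : GQ) (f : M.dualTwist (cycloChar p)) (m : M) :
    DualA.eval M K m (DualA.of M K ((M.dualTwist (cycloChar p)).ρ g f)) =
      ((cycloChar p g : (ZMod p)ˣ) : ZMod p) *
        DualA.eval M K (M.ρ g⁻¹ m) (DualA.of M K f) := rfl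

variable [TrivialOver M K]

theorem rho_eq_of_res_eq {g g' : GQ} (h : res K g = res K g') (a : M.dualTwist (cycloChar p)) :
    (M.dualTwist (cycloChar p)).ρ g a = (M.dualTwist (cycloChar p)).ρ g' a := by
  obtain ⟨z, hzK, hz⟩ := (TrivialOver.root (M := M) (K := K))
  have hs := (res_eq_iff K).1 h
  have hs' : g⁻¹ * g' ∈ K.fixingSubgroup := hs
  have e : g' = g * (g⁻¹ * g') := (mul_inv_cancel_left g g').symm
  have h1 : (M.dualTwist (cycloChar p)).ρ (g⁻¹ * g') a = a := by
    refine LinearMap.ext fun m => ?_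
    show ((cycloChar p (g⁻¹ * g') : (ZMod p)ˣ) : ZMod p) *
      (show Module.Dual (ZMod p) M from a) (M.ρ (g⁻¹ * g')⁻¹ m) = _
    rw [cycloChar_eq_one hz hzK hs', TrivialOver.act _ (inv_mem hs'), Units.val_one, one_mul]
    rfl
  conv_rhs => rw [e, map_mul]
  show _ = (M.dualTwist (cycloChar p)).ρ g ((M.dualTwist (cycloChar p)).ρ (g⁻¹ * g') a)
  rw [h1]

/-- The action of the level on the twisted dual. -/
instance : SMul (K ≃ₐ[ℚ] K) (DualA M K) :=
  ⟨fun σ a => DualA.of M K ((M.dualTwist (cycloChar p)).ρ (lift K σ) ((DualA.of M K).symm a))⟩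

theorem res_smul_of (g : GQ) (f : M.dualTwist (cycloChar p)) :
    res K g • DualA.of M K f = DualA.of M K ((M.dualTwist (cycloChar p)).ρ g f) :=
  congrArg (DualA.of M K) (rho_eq_of_res_eq M K (res_lift K (res K g)) f)

instance : DistribMulAction (K ≃ₐ[ℚ] K) (DualA M K) where
  one_smul a := by
    have e := res_smul_of M K 1 ((DualA.of M K).symm a)
    rw [map_one, map_one] at e
    exact e
  mul_smul σ τ a := by
    obtain ⟨g, rfl⟩ := AlgEquiv.restrictNormalHom_surjective (K₁ := K) QBar σ
    obtain ⟨g', rfl⟩ := AlgEquiv.restrictNormalHom_surjective (K₁ := K) QBar τ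
    obtain ⟨f, rfl⟩ := (DualA.of M K).surjective a
    show (res K g * res K g') • DualA.of M K f = res K g • res K g' • DualA.of M K f
    rw [← map_mul (res K), res_smul_of, res_smul_of, res_smul_of, map_mul]
    rfl
  smul_zero σ := by
    show DualA.of M K ((M.dualTwist (cycloChar p)).ρ (lift K σ) _) = _
    rw [map_zero, map_zero, map_zero]
  smul_add σ a b := by
    show DualA.of M K ((M.dualTwist (cycloChar p)).ρ (lift K σ) _) = _
    rw [map_add, map_add, map_add]
    rfl

theorem nsmul_dualA (a : DualA M K) : p • a = 0 := by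
  rw [← Nat.cast_smul_eq_nsmul (ZMod p), ZMod.natCast_self, zero_smul]

/-- The standard presentation. -/
def presA [Fintype (DualA M K)] : Lat (K ≃ₐ[ℚ] K) (DualA M K) →+ DualA M K :=
  Lat.ofBasis fun a x => x • a

theorem presentation_presA [Fintype (DualA M K)] : Presentation p (presA M K) where
  surjective a := ⟨Lat.e a 1, by rw [presA, Lat.ofBasis_e, one_smul]⟩
  map_smul g x := Lat.map_smul_of_basis _ g (fun i x => by simp [presA, mul_smul]) x
  killed := nsmul_dualA M K

/-- The Cartier dual pairing. -/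
def etaHom (hζ : IsPrimitiveRoot ζ p) : M →+ DualMod K (DualA M K) :=
  AddMonoidHom.mk' (fun m => TwHom.of ((rootHom p hζ).comp (DualA.eval M K m))) fun m m' =>
    TwHom.ext fun a => by
      show rootHom p hζ ((show Module.Dual (ZMod p) M from a) (m + m')) = _
      rw [map_add, map_add]
      rfl

theorem etaHom_apply (hζ : IsPrimitiveRoot ζ p) (m : M) (a : DualA M K) :
    etaHom M K hζ m a = rootHom p hζ (DualA.eval M K m a) := rfl

theorem etaHom_rho (hζ : IsPrimitiveRoot ζ p) (g : GQ) (m : M) :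
    etaHom M K hζ (M.ρ g m) = g • etaHom M K hζ m := by
  refine TwHom.ext fun a => ?_
  obtain ⟨f, rfl⟩ := (DualA.of M K).surjective a
  rw [TwHom.smul_apply, res_smul_of, etaHom_apply, etaHom_apply, smul_rootHom,
    eval_of_smul, inv_inv, ← mul_assoc, map_inv, ← Units.val_mul, mul_inv_cancel, Units.val_one,
    one_mul]

theorem etaHom_bijective [FiniteDimensional (ZMod p) M] (hζ : IsPrimitiveRoot ζ p) :
    Function.Bijective (etaHom M K hζ) := by
  refine ⟨(injective_iff_map_eq_zero _).2 fun m hm => ?_, fun φ => ?_⟩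
  · refine (Module.forall_dual_apply_eq_zero_iff (ZMod p) m).1 fun a => rootHom_injective hζ ?_
    rw [map_zero]
    exact DFunLike.congr_fun hm (DualA.of M K a)
  · choose ψ hψ using fun a : DualA M K => exists_rootHom_eq hζ (x := φ a)
      (by rw [← map_nsmul, nsmul_dualA, map_zero])
    have hψadd : ∀ a b : DualA M K, ψ (a + b) = ψ a + ψ b := fun a b => rootHom_injective hζ (by
      rw [map_add (rootHom p hζ), hψ, hψ, hψ, map_add φ])
    let ψ' : Module.Dual (ZMod p) (Module.Dual (ZMod p) M) :=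
      (AddMonoidHom.mk' (fun a : Module.Dual (ZMod p) M => ψ a) hψadd).toZModLinearMap p
    obtain ⟨m, hm⟩ := (Module.evalEquiv (ZMod p) M).surjective ψ'
    refine ⟨m, TwHom.ext fun a => ?_⟩
    rw [etaHom_apply, ← hψ a]
    exact congrArg (rootHom p hζ) (LinearMap.congr_fun hm a)

/-- The Cartier duality identification. -/
def eta [FiniteDimensional (ZMod p) M] (hζ : IsPrimitiveRoot ζ p) :
    M ≃+ DualMod K (DualA M K) :=
  AddEquiv.ofBijective (etaHom M K hζ) (etaHom_bijective M K hζ)

theorem eta_rho [FiniteDimensional (ZMod p) M] (hζ : IsPrimitiveRoot ζ p) (g : GQ) (m : M) :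
    eta M K hζ (M.ρ g m) = g • eta M K hζ m := etaHom_rho M K hζ g m

theorem eta_symm_smul [FiniteDimensional (ZMod p) M] (hζ : IsPrimitiveRoot ζ p) (g : GQ)
    (φ : DualMod K (DualA M K)) :
    (eta M K hζ).symm (g • φ) = M.ρ g ((eta M K hζ).symm φ) :=
  (eta M K hζ).injective (by rw [eta_rho, AddEquiv.apply_symm_apply, AddEquiv.apply_symm_apply])

theorem finite_dualA [FiniteDimensional (ZMod p) M] : Finite (DualA M K) := by
  haveI : NeZero p := ⟨hp.out.ne_zero⟩
  exact Module.finite_of_finite (ZMod p) (M := Module.Dual (ZMod p) M)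

end Fermat.Agent.CFT.PT
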