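import Fermat.Agent.CFT.PT.Powers

/-!
# The duality map on locally trivial classes
-/

set_option autoImplicit false
set_option synthInstance.maxHeartbeats 200000
set_option maxHeartbeats 800000
set_option linter.unusedSectionVars false
set_option linter.style.haveILetI false

noncomputable section

namespace Fermat.Agent.CFT.PT

open ExtCitation Fermat.Agent.Arith IntermediateField Fermat.Agent.CFT.Local Fermat.Agent.CFT.Idele
open Fermat.Agent.CFT.Duality

local instance factPrimeSha1 (q : Nat.Primes) : Fact (q : ℕ).Prime := ⟨q.2⟩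

section Functionals

variable {p : ℕ} [hp : Fact p.Prime] {X : Type*} [AddCommGroup X]

theorem exists_functional_aux [Module (ZMod p) X] (N : AddSubgroup X) {a : X}
    (ha : a ∉ N) : ∃ μ : X →+ ZMod p, μ a ≠ 0 ∧ ∀ x ∈ N, μ x = 0 := by
  let N' : Submodule (ZMod p) X :=
    { N with
      smul_mem' := fun c v hv => by
        rw [← ZMod.natCast_zmod_val c, Nat.cast_smul_eq_nsmul]
        exact N.nsmul_mem hv _ }
  have hN : a ∉ N' := ha
  obtain ⟨f, hfa, hf⟩ := Submodule.exists_dual_map_eq_bot_of_notMem hN inferInstance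
  refine ⟨f.toAddMonoidHom, hfa, ?_⟩
  intro x hx
  have h2 : f x ∈ N'.map f :=
    Submodule.mem_map_of_mem (show x ∈ N' from hx)
  rw [hf] at h2
  simpa using h2
theorem mem_of_kills_aux [Finite X] [Module (ZMod p) X]
    (V : AddSubgroup (X →+ ZMod p)) (μ : X →+ ZMod p)
    (hμ : ∀ a, (∀ v ∈ V, v a = 0) → μ a = 0) : μ ∈ V := by
  haveI : Finite (X →+ ZMod p) := Finite.of_injective _ DFunLike.coe_injective
  have lin : ∀ v : X →+ ZMod p, ∀ (c : ZMod p) (x : X), v (c • x) = c • v x := fun v c x => by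
    rw [← ZMod.natCast_zmod_val c, Nat.cast_smul_eq_nsmul, map_nsmul, nsmul_eq_mul, smul_eq_mul]
  let toL : (X →+ ZMod p) → (X →ₗ[ZMod p] ZMod p) := fun v =>
    { toFun := v, map_add' := map_add v, map_smul' := lin v }
  let F : V → (X →ₗ[ZMod p] ZMod p) := fun v => toL v.1
  have h0 : (⨅ v, LinearMap.ker (F v)) ≤ LinearMap.ker (toL μ) := by
    intro a ha
    rw [LinearMap.mem_ker]
    rw [Submodule.mem_iInf] at ha
    refine hμ a fun v hv => ?_
    exact LinearMap.mem_ker.1 (ha ⟨v, hv⟩)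
  have h1 := mem_span_of_iInf_ker_le_ker h0
  have h2 : ∀ g ∈ Submodule.span (ZMod p) (Set.range F), g.toAddMonoidHom ∈ V := fun g hg => by
    induction hg using Submodule.span_induction with
    | mem g hg => obtain ⟨v, rfl⟩ := hg; exact v.2
    | zero => exact V.zero_mem
    | add f g _ _ hf hg => exact V.add_mem hf hg
    | smul c f _ hf =>
      have e : (c • f).toAddMonoidHom = c.val • f.toAddMonoidHom := AddMonoidHom.ext fun x => by
        show (c • f) x = (c.val • f.toAddMonoidHom) x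
        rw [AddMonoidHom.nsmul_apply, LinearMap.smul_apply, nsmul_eq_mul, smul_eq_mul,
          ZMod.natCast_zmod_val]
        rfl
      rw [e]
      exact V.nsmul_mem hf _
  exact h2 _ h1

theorem exists_functional_ne_zero (hX : ∀ x : X, p • x = 0) (N : AddSubgroup X) {a : X}
    (ha : a ∉ N) : ∃ μ : X →+ ZMod p, μ a ≠ 0 ∧ ∀ x ∈ N, μ x = 0 :=
  @exists_functional_aux p hp X _ (AddCommGroup.zmodModule hX) N a ha

theorem mem_of_kills_common_kernel [Finite X] (hX : ∀ x : X, p • x = 0)
    (V : AddSubgroup (X →+ ZMod p)) (μ : X →+ ZMod p)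
    (hμ : ∀ a, (∀ v ∈ V, v a = 0) → μ a = 0) : μ ∈ V :=
  @mem_of_kills_aux p hp X _ _ (AddCommGroup.zmodModule hX) V μ hμ

end Functionals

variable {K : IntermediateField ℚ QBar} [FiniteDimensional ℚ K] [Normal ℚ K]
  {A ι : Type*} [AddCommGroup A] [DistribMulAction (K ≃ₐ[ℚ] K) A] [Fintype ι] {p : ℕ}
  {ε : Lat (K ≃ₐ[ℚ] K) ι →+ A} (hε : Presentation p ε)
  {L : IntermediateField ℚ QBar} [FiniteDimensional ℚ L] [Normal ℚ L] (h : K ≤ L)
  [hp : Fact p.Prime] {u : NormCocycle (L ≃ₐ[ℚ] L) (C L)} (hu : IsClassFormation p u)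
  (hk : IsPGroup p (levelRes h).ker) (S : Finset Nat.Primes)

variable (A) in
/-- Cocycles trivial on the decomposition groups at `S`. -/
def locTrivialCocycles : AddSubgroup (levelCocycles (levelRes h) A) where
  carrier := {a | ∀ q ∈ S, ∃ x : A,
    ∀ g ∈ decomp L q, (a : (L ≃ₐ[ℚ] L) → A) g = levelRes h g • x - x}
  zero_mem' q _ := ⟨0, fun g _ => by simp⟩
  add_mem' {a b} ha hb q hq := by
    obtain ⟨x, hx⟩ := ha q hq
    obtain ⟨y, hy⟩ := hb q hq
    refine ⟨x + y, fun g hg => ?_⟩
    rw [AddSubgroup.coe_add, Pi.add_apply, hx g hg, hy g hg, smul_add]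
    abel
  neg_mem' {a} ha q hq := by
    obtain ⟨x, hx⟩ := ha q hq
    exact ⟨-x, fun g hg => by rw [NegMemClass.coe_neg, Pi.neg_apply, hx g hg, smul_neg]; abel⟩

theorem unitsOff_le_unitsOutside {T : Set Nat.Primes} {x : J K} (hx : x ∈ unitsOff K T) :
    x ∈ unitsOutside K T := fun q _ g => by
  rw [← norm_val_eq]
  exact (mem_unitGroup _).1 (hx q _).1

theorem supportedIn_le_unitsOutside {T : Set Nat.Primes} {x : J K} (hx : x ∈ supportedIn K T) :
    x ∈ unitsOutside K T := fun _ hq g => normAt_of_supported hx hq g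

/-- An allowed map pairs to zero with locally trivial cocycles. -/
theorem dual_allow (hT : ∀ q ∉ S, inertia (E L q) = ⊥)
    {f : equivHom (C := C K) hε.isStable_ker} (hf : f ∈ allow hε S)
    {a : levelCocycles (levelRes h) A} (ha : a ∈ locTrivialCocycles A h S) :
    dual hε h hu hk f a = 0 := by
  classical
  obtain ⟨Y, w, hY, hw, hfw⟩ := hf
  let fY : equivHom (C := C K) hε.isStable_ker :=
    ⟨Y.comp ε.ker.subtype, fun g s => hY g s⟩
  let wS := partHom hε (S : Set Nat.Primes) w
  have hfe : f = fY + (projHom hε wS + projHom hε (w - wS)) := by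
    rw [← map_add, add_sub_cancel]
    exact Subtype.ext (AddMonoidHom.ext fun s => hfw s)
  have h1 : dual hε h hu hk fY = 0 :=
    theta_eq_zero_of_ext (levelSystem h hu hk) hε fY Y hY fun s => rfl
  have h2 : dual hε h hu hk (projHom hε (w - wS)) = 0 := by
    refine dual_unitsOff hε h hu hk (T := (S : Set Nat.Primes)) hT _ fun s => ?_
    have hs : (w - wS).1 s = w.1 s - partAt (S : Set Nat.Primes) (w.1 s) := rfl
    rw [hs]
    refine mem_unitsOff_of_mem (fun q hq σ => ?_)
      (sub_mem (hw s) (supportedIn_le_unitsOutside (partAt_mem_supportedIn _ _)))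
    rw [sub_eq_add_neg, val_add_J, val_neg_J, val_partAt, if_pos (not_not.1 hq), mul_inv_cancel]
  have h3 := dual_local hε h hu hk S wS (fun s => partAt_mem_supportedIn _ _) a ha
  rw [hfe, AddMonoidHom.map_add]
  rw [AddMonoidHom.map_add]
  rw [AddMonoidHom.add_apply, AddMonoidHom.add_apply]
  exact (congrArg₂ (· + ·) (DFunLike.congr_fun h1 a) ((congrArg₂ (· + ·) h3
    (DFunLike.congr_fun h2 a)).trans (add_zero 0))).trans (add_zero 0)

/-- A map pairing to zero with all locally trivial cocycles is allowed. -/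
theorem mem_allow_of_dual [Finite A] [Fintype (levelRes h).ker]
    (hN : ∀ x : C L, ∃ c : C K, ∃ w ∈ unitsOff K (S : Set Nat.Primes),
      normSum (levelRes h).ker (C L) x = inclC h (p • c + proj K w))
    (hperf : ∀ q ∈ S, ∀ a : levelCocycles (levelRes h) A,
      (∀ w : equivHom (C := J K) hε.isStable_ker, (∀ s, w.1 s ∈ supportedIn K {q}) →
        dual hε h hu hk (projHom hε w) a = 0) →
      ∃ x : A, ∀ g ∈ decomp L q, (a : (L ≃ₐ[ℚ] L) → A) g = levelRes h g • x - x)
    (f : equivHom (C := C K) hε.isStable_ker)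
    (hf : ∀ a ∈ locTrivialCocycles A h S, dual hε h hu hk f a = 0) : f ∈ allow hε S := by
  let Wsupp : AddSubgroup (equivHom (C := J K) hε.isStable_ker) :=
    { carrier := {w | ∀ s, w.1 s ∈ supportedIn K (S : Set Nat.Primes)}
      zero_mem' := fun s => zero_mem _
      add_mem' := fun ha hb s => add_mem (ha s) (hb s)
      neg_mem' := fun ha s => neg_mem (ha s) }
  let V := Wsupp.map ((dual hε h hu hk).comp (projHom hε))
  have hkill : ∀ x : levelCocycles (levelRes h) A, p • x = 0 := fun x =>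
    Subtype.ext (funext fun g => hε.killed _)
  obtain ⟨w, hw, hwf⟩ : dual hε h hu hk f ∈ V :=
    mem_of_kills_common_kernel hkill V _ fun a ha => hf a fun q hq => hperf q hq a fun w hw =>
      ha _ ⟨w, fun s q' hq' => hw s q' fun h' => hq' (Set.mem_singleton_iff.1 h' ▸ hq), rfl⟩
  have h0 : dual hε h hu hk (f - projHom hε w) = 0 := by
    rw [map_sub, ← hwf, AddMonoidHom.comp_apply, sub_self]
  obtain ⟨Y, w', hY, hw', he⟩ := exists_of_dual_eq_zero hε h hu hk hN _ h0
  refine ⟨Y, w' + w, hY, fun s => add_mem (unitsOff_le_unitsOutside (hw' s))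
    (supportedIn_le_unitsOutside (hw s)), fun s => ?_⟩
  have e := DFunLike.congr_fun he s
  simp only [AddSubgroupClass.coe_sub, AddMonoidHom.sub_apply, projHom_coe, AddMonoidHom.add_apply,
    AddMonoidHom.comp_apply, AddSubgroup.coe_subtype, sub_eq_iff_eq_add] at e
  rw [e, AddSubgroup.coe_add, AddMonoidHom.add_apply, map_add, add_assoc]

/-- A cocycle which is no coboundary pairs nontrivially. -/
theorem exists_dual_ne_zero (a : levelCocycles (levelRes h) A)
    (ha : ¬ ∃ x : A, ∀ g, (a : (L ≃ₐ[ℚ] L) → A) g = levelRes h g • x - x) :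
    ∃ f, dual hε h hu hk f a ≠ 0 := by
  let B : AddSubgroup (levelCocycles (levelRes h) A) :=
    { carrier := {b | ∃ x : A, ∀ g, (b : (L ≃ₐ[ℚ] L) → A) g = levelRes h g • x - x}
      zero_mem' := ⟨0, fun g => by simp⟩
      add_mem' := by
        rintro b c ⟨x, hx⟩ ⟨y, hy⟩
        exact ⟨x + y, fun g => by
          rw [AddSubgroup.coe_add, Pi.add_apply, hx g, hy g, smul_add]; abel⟩
      neg_mem' := by
        rintro b ⟨x, hx⟩
        exact ⟨-x, fun g => by rw [NegMemClass.coe_neg, Pi.neg_apply, hx g, smul_neg]; abel⟩ }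
  obtain ⟨μ, hμa, hμ⟩ := exists_functional_ne_zero
    (fun x : levelCocycles (levelRes h) A => Subtype.ext (funext fun g => hε.killed _)) B ha
  obtain ⟨f, hf⟩ := exists_dual_eq hε h hu hk μ fun b x hx => hμ b ⟨x, hx⟩
  exact ⟨f, by rwa [hf]⟩

end Fermat.Agent.CFT.PT
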