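import Fermat.Agent.CFT.PT.LinkF
import Fermat.Agent.CFT.PT.Local.Link
import Fermat.Agent.CFT.PT.Local.AtPlace
import Fermat.Agent.CFT.PT.Local.Unramified
import Fermat.Agent.CFT.PT.Local.Archimedean
import Fermat.Agent.CFT.Idele.SecondIneq

/-!
# Locally trivial `2`-cocycles and equivariant maps into idele classes
-/

set_option autoImplicit false
set_option synthInstance.maxHeartbeats 200000
set_option maxHeartbeats 800000
set_option linter.unusedSectionVars false
set_option linter.style.haveILetI false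

noncomputable section

namespace Fermat.Agent.CFT.PT

open ExtCitation Fermat.Agent.Arith IntermediateField Fermat.Agent.CFT.Local
open Fermat.Agent.CFT.Idele hiding inclC inclC_injective exists_inclC_eq
open Fermat.Agent.CFT.Duality groupCohomology

local instance factPrimeSha2 (q : Nat.Primes) : Fact (q : ℕ).Prime := ⟨q.2⟩

variable {K : IntermediateField ℚ QBar} [FiniteDimensional ℚ K] [Normal ℚ K]
  {A ι : Type*} [AddCommGroup A] [DistribMulAction (K ≃ₐ[ℚ] K) A] [Fintype ι] {p : ℕ}
  [hp : Fact p.Prime] {ε : Lat (K ≃ₐ[ℚ] K) ι →+ A} (hε : Presentation p ε)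
  (S : Finset Nat.Primes)

variable (K A) in
/-- The cochains of level `S` and locally trivial at the distinguished places. -/
def IsShaCocycle (c : GQ × GQ → DualMod K A) : Prop :=
  IsCocycle₂ c ∧ IsLevelConstantS₂ S c ∧
    (∀ q ∈ S, ∃ m : primeLocalGaloisGroup q → DualMod K A,
      IsLevelConstant₁ (primeLocalToGlobal q) m ∧ ∀ s t,
        c (primeLocalToGlobal q s, primeLocalToGlobal q t) =
          primeLocalToGlobal q s • m t - m (s * t) + m s) ∧
    ∃ m : archimedeanDecomposition → DualMod K A, IsLevelConstant₁ archimedeanLoc m ∧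
      ∀ s t, c (archimedeanLoc s, archimedeanLoc t) = archimedeanLoc s • m t - m (s * t) + m s

variable {S}

include hε

/-- Every cocycle locally trivial at `S` is linked to an equivariant map. -/
theorem exists_linked_of_isSha (hp2 : p ≠ 2) {ζ : QBar} (hζ : IsPrimitiveRoot ζ p) (hζK : ζ ∈ K)
    (hK : K.IsUnramifiedOutside S) {c : GQ × GQ → DualMod K A} (hc : IsShaCocycle K A S c) :
    ∃ f : equivHom (C := C K) hε.isStable_ker, Linked hε S c f.1 := by
  classical
  obtain ⟨hcc, ⟨F, hF, hFc⟩, hloc, -⟩ := hc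
  obtain ⟨L, hfd, hn, hur, hle⟩ := exists_normal_ur_ge (hK.sup hF)
  letI := hfd; letI := hn
  have le : K ≤ L := le_sup_left.trans hle
  have hA : ∀ a : A, p • a = 0 := hε.killed
  have hlift : ∀ φ : DualMod K A, ∃ ψ : TwHom (levelRes le) A (Additive Lˣ), toQHom ψ = φ :=
    fun φ => exists_toQHom_eq hA ⟨ζ, hζK, hζ⟩ φ
  choose low hlow using hlift
  let cL : (L ≃ₐ[ℚ] L) × (L ≃ₐ[ℚ] L) → TwHom (levelRes le) A (Additive Lˣ) := fun x =>
    low (c (lift L x.1, lift L x.2))
  have hmem : ∀ g : GQ, g⁻¹ * lift L (res L g) ∈ F.fixingSubgroup := fun g =>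
    IntermediateField.fixingSubgroup_antitone (le_sup_right.trans hle)
      ((IntermediateField.mem_fixingSubgroup_iff _ _).2 fun x hx => by
        have h : ((res L (g⁻¹ * lift L (res L g)) ⟨x, hx⟩ : L) : QBar) = x := by
          rw [map_mul, res_lift, map_inv, inv_mul_cancel, AlgEquiv.one_apply]
        rwa [res_apply] at h)
  have hcL : ∀ g h, toQHom (cL (res L g, res L h)) = c (g, h) := fun g h => by
    rw [hlow, ← hFc g h _ _ (hmem g) (hmem h), mul_inv_cancel_left, mul_inv_cancel_left]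
  have hcLc : IsCocycle₂ cL := fun σ τ υ => by
    obtain ⟨g, rfl⟩ := AlgEquiv.restrictNormalHom_surjective (K₁ := L) QBar σ
    obtain ⟨h, rfl⟩ := AlgEquiv.restrictNormalHom_surjective (K₁ := L) QBar τ
    obtain ⟨j, rfl⟩ := AlgEquiv.restrictNormalHom_surjective (K₁ := L) QBar υ
    refine toQHom_injective ?_
    show toQHom (cL (res L g * res L h, res L j) + cL (res L g, res L h)) =
      toQHom (res L g • cL (res L h, res L j) + cL (res L g, res L h * res L j))
    rw [map_add, map_add, ← map_mul, ← map_mul, ← smul_toQHom, hcL, hcL, hcL, hcL]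
    exact hcc g h j
  have hζL : IsPrimitiveRoot (⟨ζ, le hζK⟩ : L) p :=
    IsPrimitiveRoot.coe_submonoidClass_iff.1 hζ
  have hH1 : ∀ P : Subgroup (L ≃ₐ[ℚ] L), IsPGroup p P → H1Zero P (C L) :=
    (stepAxioms L hp2 hζL).h1Zero
  have hlt : ∀ q, LocTriv S cL q := fun q => by
    by_cases hq : q ∈ S
    · obtain ⟨m, hm, hmd⟩ := hloc q hq
      exact locTriv_of_local hA ⟨ζ, hζK, hζ⟩ hq cL hcLc m hm fun s t => by rw [hcL]; exact hmd s t
    · exact locTriv_unramified hA hur hq cL hcLc
  obtain ⟨f, b, e, hl⟩ := exists_linked hε hH1 cL hcLc hlt c fun g h => (hcL g h).symm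
  exact ⟨f, L, hfd, hn, le, hur, b, e, hl⟩

/-- Every equivariant map is linked to a cocycle locally trivial at `S`. -/
theorem exists_isSha_of_equiv (hp2 : p ≠ 2) (hpS : pPrime p ∈ S) (hK : K.IsUnramifiedOutside S)
    (f : equivHom (C := C K) hε.isStable_ker) :
    ∃ c, IsShaCocycle K A S c ∧ Linked hε S c f.1 := by
  obtain ⟨L, hfd, hn, le, cL, b, e, hur, hcL, hl⟩ := exists_linked_cocycle hε hpS hK f
  letI := hfd; letI := hn
  have hc : IsCocycle₂ fun x : GQ × GQ => toQHom (cL (res L x.1, res L x.2)) := fun g h j => by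
    simp only [map_mul, smul_toQHom, ← map_add]
    exact congrArg toQHom (hcL _ _ _)
  refine ⟨_, ⟨hc, ⟨L, hur, fun g h s t hs ht => ?_⟩, fun q _ => ?_,
    exists_archimedean_cochain hp2 hε.killed _ hc⟩, L, hfd, hn, le, hur, b, e, hl⟩
  · simp only [res_mul_of_mem_fixingSubgroup g hs, res_mul_of_mem_fixingSubgroup h ht]
  · exact exists_local_cochain_of_linkAt hp2 hl q

/-- Linked pairs differing by a coboundary of level `S` differ by an allowed map. -/
theorem sub_mem_allow (hK : K.IsUnramifiedOutside S) {ζ : QBar} (hζ : IsPrimitiveRoot ζ p)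
    (hζK : ζ ∈ K) {c c' : GQ × GQ → DualMod K A} {f f' : equivHom (C := C K) hε.isStable_ker}
    (hl : Linked hε S c f.1) (hl' : Linked hε S c' f'.1) (m : GQ → DualMod K A)
    (hm : IsLevelConstantS₁ S m) (hd : ∀ g h, c (g, h) - c' (g, h) = dd m g h) :
    f - f' ∈ allow hε S := by
  haveI : NeZero p := ⟨hp.out.ne_zero⟩
  refine mem_allow_of_cochain hε hK (fun z hz => ?_) (c := c + -c') ?_ m hm fun g h => ?_
  · obtain ⟨i, -, rfl⟩ := hζ.eq_pow_of_pow_eq_one hz
    exact pow_mem hζK i
  · rw [sub_eq_add_neg, AddSubgroup.coe_add, NegMemClass.coe_neg]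
    exact hl.add hl'.neg
  · rw [Pi.add_apply, Pi.neg_apply, ← sub_eq_add_neg, hd]

end Fermat.Agent.CFT.PT
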