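import Fermat.Agent.CFT.PT.Setting
import Fermat.Agent.CFT.PT.Sha2
import Fermat.Agent.CFT.Idele.KummerHom

/-!
# Classes in `Ш¹` and `Ш²` as explicit cocycles
-/

set_option autoImplicit false
set_option synthInstance.maxHeartbeats 200000
set_option maxHeartbeats 800000
set_option linter.unusedSectionVars false
set_option linter.style.haveILetI false

noncomputable section

namespace Fermat.Agent.CFT.PT

open ExtCitation Fermat.Agent.Arith IntermediateField Fermat.Agent.CFT.Local
open Fermat.Agent.CFT.Idele hiding inclC inclC_injective exists_inclC_eq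
open Fermat.Agent.CFT.Duality groupCohomology Module

local instance factPrimeShaClasses (q : Nat.Primes) : Fact (q : ℕ).Prime := ⟨q.2⟩

variable {p : ℕ} [hp : Fact p.Prime] (M : Rep (ZMod p) GQ) [FiniteDimensional (ZMod p) M]
  (K : IntermediateField ℚ QBar) [FiniteDimensional ℚ K] [Normal ℚ K] [TrivialOver M K]
  {ζ : QBar} (hζ : IsPrimitiveRoot ζ p) (S : Finset Nat.Primes)

/-- Cochains through the duality. -/
theorem eta_isCocycle₂ (c : GQ × GQ → M) (hc : c ∈ cocycles₂ M) :
    IsCocycle₂ fun x => eta M K hζ (c x) := fun g h j => by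
  rw [← map_add, (mem_cocycles₂_iff c).1 hc g h j, map_add, eta_rho]

/-- The cocycle attached to a class in `Ш²`. -/
theorem exists_isSha (x : sha₂ S M) : ∃ c : levelCocyclesS₂ S M,
    continuousH2Sπ S M c = (x : continuousH2S S M) ∧
      IsShaCocycle K (DualA M K) S fun g => eta M K hζ ((c : GQ × GQ → M) g) := by
  obtain ⟨c, hc⟩ := Submodule.Quotient.mk_surjective _ (x : continuousH2S S M)
  have hx : locTotal₂S S M (x : continuousH2S S M) = 0 := LinearMap.mem_ker.1 x.2
  have hloc : ∀ v : extArithIndex S, ∃ m : extArithLocalGroups S v → M,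
      IsLevelConstant₁ (extArithLoc S v) m ∧ ∀ s t,
        (c : GQ × GQ → M) (extArithLoc S v s, extArithLoc S v t) =
          M.ρ (extArithLoc S v s) (m t) - m (s * t) + m s := fun v => by
    have h1 := congrFun hx v
    rw [locTotal₂S_apply, ← hc] at h1
    obtain ⟨m, hm, hmd⟩ := (mem_levelCoboundaries₂_iff _ _ _).1
      ((continuousH2π_eq_zero_iff _ _ _).1 h1)
    refine ⟨m, hm, fun s t => ?_⟩
    have e := congrFun hmd (s, t)
    rw [d₁₂_hom_apply] at e
    exact e.symm
  have hη : ∀ v : extArithIndex S, ∃ m : extArithLocalGroups S v → DualMod K (DualA M K),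
      IsLevelConstant₁ (extArithLoc S v) m ∧ ∀ s t,
        eta M K hζ ((c : GQ × GQ → M) (extArithLoc S v s, extArithLoc S v t)) =
          extArithLoc S v s • m t - m (s * t) + m s := fun v => by
    obtain ⟨m, hm, hmd⟩ := hloc v
    refine ⟨fun s => eta M K hζ (m s), IsLevelConstant₁.comp hm _, fun s t => ?_⟩
    rw [hmd s t, map_add, map_sub, eta_rho]
  exact ⟨c, hc, eta_isCocycle₂ M K hζ _ c.2.1, IsLevelConstantS₂.comp c.2.2 _,
    fun q hq => hη (Sum.inr ⟨q, hq⟩), hη (Sum.inl ())⟩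

/-- Every locally trivial cocycle gives a class in `Ш²`. -/
theorem exists_class_of_isSha (c : GQ × GQ → DualMod K (DualA M K))
    (hc : IsShaCocycle K (DualA M K) S c) :
    ∃ c' : levelCocyclesS₂ S M, continuousH2Sπ S M c' ∈ sha₂ S M ∧
      ∀ g, eta M K hζ ((c' : GQ × GQ → M) g) = c g := by
  obtain ⟨hcc, hcS, hloc, harch⟩ := hc
  let c' : GQ × GQ → M := fun x => (eta M K hζ).symm (c x)
  have hc' : c' ∈ levelCocyclesS₂ S M := ⟨(mem_cocycles₂_iff _).2 fun g h j => by
    show (eta M K hζ).symm _ + (eta M K hζ).symm _ =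
      M.ρ g ((eta M K hζ).symm (c (h, j))) + (eta M K hζ).symm _
    rw [← eta_symm_smul, ← map_add, hcc g h j, map_add], IsLevelConstantS₂.comp hcS _⟩
  refine ⟨⟨c', hc'⟩, ?_, fun g => AddEquiv.apply_symm_apply _ _⟩
  rw [sha₂, LinearMap.mem_ker]
  have hv : ∀ v : extArithIndex S, ∃ m : extArithLocalGroups S v → DualMod K (DualA M K),
      IsLevelConstant₁ (extArithLoc S v) m ∧ ∀ s t,
        c (extArithLoc S v s, extArithLoc S v t) =
          extArithLoc S v s • m t - m (s * t) + m s := fun v => by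
    rcases v with ⟨⟩ | ⟨q, hq⟩
    · exact harch
    · exact hloc q hq
  funext v
  refine (continuousH2π_eq_zero_iff _ _ _).2 ((mem_levelCoboundaries₂_iff _ _ _).2 ?_)
  obtain ⟨m, hm, hmd⟩ := hv v
  refine ⟨fun s => (eta M K hζ).symm (m s), IsLevelConstant₁.comp hm _, funext fun st => ?_⟩
  rw [d₁₂_hom_apply]
  refine Eq.symm ((congrArg (eta M K hζ).symm (hmd st.1 st.2)).trans ?_)
  rw [map_add, map_sub, eta_symm_smul]
  rfl

/-- A difference which is a coboundary in the dual is one in the module. -/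
theorem exists_dd_of_mem_coboundaries {c : GQ × GQ → M} (hc : c ∈ levelCoboundariesS₂ S M) :
    ∃ m, IsLevelConstantS₁ S m ∧ ∀ g h, eta M K hζ (c (g, h)) = dd m g h := by
  obtain ⟨m, hm, hmd⟩ := (mem_levelCoboundariesS₂_iff _ _ _).1 hc
  refine ⟨fun g => eta M K hζ (m g), IsLevelConstantS₁.comp hm _, fun g h => ?_⟩
  rw [← hmd, d₁₂_hom_apply, map_add, map_sub, eta_rho]
  rfl

theorem mem_coboundaries_of_dd {c : GQ × GQ → M} (m : GQ → DualMod K (DualA M K))
    (hm : IsLevelConstantS₁ S m) (hd : ∀ g h, eta M K hζ (c (g, h)) = dd m g h) :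
    c ∈ levelCoboundariesS₂ S M := by
  refine (mem_levelCoboundariesS₂_iff _ _ _).2
    ⟨fun g => (eta M K hζ).symm (m g), IsLevelConstantS₁.comp hm _, funext fun st => ?_⟩
  rw [d₁₂_hom_apply]
  refine (eta M K hζ).injective ?_
  rw [map_add, map_sub, eta_rho, AddEquiv.apply_symm_apply, AddEquiv.apply_symm_apply,
    AddEquiv.apply_symm_apply, hd]
  rfl

variable {L : IntermediateField ℚ QBar} [FiniteDimensional ℚ L] [Normal ℚ L] (h : K ≤ L)

theorem exists_loc_of_mem_decomp {q : Nat.Primes} {d : L ≃ₐ[ℚ] L} (hd : d ∈ decomp L q) :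
    ∃ s : primeLocalGaloisGroup q, res L (primeLocalToGlobal q s) = d := by
  obtain ⟨t, rfl⟩ := hd
  obtain ⟨τ, rfl⟩ := AlgEquiv.restrictNormalHom_surjective (K₁ := E L q) (Ω q) t
  exact ⟨τ, (toGlobal_restrict (q : ℕ) L τ).symm⟩

theorem res_loc_mem_decomp (q : Nat.Primes) (s : primeLocalGaloisGroup q) :
    res L (primeLocalToGlobal q s) ∈ decomp L q :=
  ⟨_, toGlobal_restrict (q : ℕ) L s⟩

theorem res_loc_eq (g : GQ) (f : M.dualTwist (cycloChar p)) :
    levelRes h (res L g) • DualA.of M K f =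
      DualA.of M K ((M.dualTwist (cycloChar p)).ρ g f) := by
  rw [levelRes_res]; exact res_smul_of M K g f

omit [FiniteDimensional (ZMod p) M] in
/-- A cocycle of the complex conjugation group with values in a module killed by an odd number is
a coboundary. -/
theorem exists_arch_eq (hp2 : p ≠ 2) (c : cocycles₁ (M.dualTwist (cycloChar p))) :
    ∃ x : M.dualTwist (cycloChar p), ∀ s : archimedeanDecomposition,
      (M.dualTwist (cycloChar p)).ρ (archimedeanLoc s) x - x =
        (c : GQ → M.dualTwist (cycloChar p)) (archimedeanLoc s) := by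
  have h2 : (2 : ZMod p) ≠ 0 := fun h => by
    have h' : ((2 : ℕ) : ZMod p) = 0 := by exact_mod_cast h
    exact hp2 ((Nat.prime_dvd_prime_iff_eq hp.out Nat.prime_two).1
      ((ZMod.natCast_eq_zero_iff 2 p).1 h'))
  have hc := (mem_cocycles₁_iff (c : GQ → (M.dualTwist (cycloChar p)))).1 c.2
  have hc1 : (c : GQ → (M.dualTwist (cycloChar p))) 1 = 0 := by simp
  set γ := complexConjugation
  have hγ : γ * γ = 1 := complexConjugation_mul_self
  have e : (M.dualTwist (cycloChar p)).ρ γ ((c : GQ → (M.dualTwist (cycloChar p))) γ) = -(c : GQ → (M.dualTwist (cycloChar p))) γ := by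
    have h := hc γ γ
    rw [hγ, hc1] at h
    exact eq_neg_of_add_eq_zero_left h.symm
  refine ⟨-((2 : ZMod p)⁻¹ • (c : GQ → (M.dualTwist (cycloChar p))) γ), ?_⟩
  rintro ⟨s, hs⟩
  show (M.dualTwist (cycloChar p)).ρ s _ - _ = (c : GQ → (M.dualTwist (cycloChar p))) s
  obtain ⟨n, rfl⟩ := Subgroup.mem_zpowers_iff.1 hs
  rcases Int.even_or_odd n with ⟨t, rfl⟩ | ⟨t, rfl⟩
  · rw [zpow_add, ← (Commute.refl γ).mul_zpow, hγ, one_zpow, hc1, map_one]
    exact sub_self _
  · rw [zpow_add_one, zpow_mul, zpow_two, hγ, one_zpow, one_mul, map_neg, map_smul, e, smul_neg,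
      neg_neg, sub_neg_eq_add, ← add_smul, show (2 : ZMod p)⁻¹ + (2 : ZMod p)⁻¹ = 1 by field_simp; norm_num,
      one_smul]

/-- The cocycle of the level attached to a class in `Ш¹`. -/
theorem exists_levelCocycle_of_sha₁ (_hur : L.IsUnramifiedOutside S) (_hζK : ζ ∈ K)
    (hmax : ∀ (φ : K.fixingSubgroup →* Multiplicative (ZMod p)) (F : IntermediateField ℚ QBar)
        [FiniteDimensional ℚ F],
        (∀ s : K.fixingSubgroup, (s : GQ) ∈ F.fixingSubgroup → φ s = 1) →
        (∀ q ∉ S, ∀ A : ValuationSubring QBar, A.LiesOverPrime (q : ℕ) →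
          ∀ s : K.fixingSubgroup, (s : GQ) ∈ A.inertiaSubgroupIn ℚ → φ s = 1) →
        ∀ s : K.fixingSubgroup, (s : GQ) ∈ L.fixingSubgroup → φ s = 1)
    (y : sha₁ S (M.dualTwist (cycloChar p))) :
    ∃ a : levelCocycles (levelRes h) (DualA M K),
      (∀ q ∈ S, ∃ x : DualA M K, ∀ g ∈ decomp L q,
        (a : (L ≃ₐ[ℚ] L) → DualA M K) g = levelRes h g • x - x) ∧
      ∃ c : cocycles₁ (M.dualTwist (cycloChar p)),
        (H1π (M.dualTwist (cycloChar p))).hom c = (y : H1 (M.dualTwist (cycloChar p))) ∧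
        ∀ g, (a : (L ≃ₐ[ℚ] L) → DualA M K) (res L g) =
          DualA.of M K ((c : GQ → M.dualTwist (cycloChar p)) g) := by
  obtain ⟨hy, hloc⟩ := Submodule.mem_inf.1 y.2
  obtain ⟨c, ⟨F, hF, hFc⟩, hcy⟩ := (mem_continuousH1S_iff _ _ _).1 hy
  haveI := hF.1
  have hc := (mem_cocycles₁_iff (c : GQ → (M.dualTwist (cycloChar p)))).1 c.2
  have hc1 : (c : GQ → (M.dualTwist (cycloChar p))) 1 = 0 := by simp
  have hρK : ∀ s ∈ K.fixingSubgroup, ∀ f : (M.dualTwist (cycloChar p)), (M.dualTwist (cycloChar p)).ρ s f = f := fun s hs f => by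
    have e := rho_eq_of_res_eq M K (g := s) (g' := 1)
      ((res_eq_iff K).2 (by simpa using inv_mem hs)) f
    rwa [map_one] at e
  have hFs : ∀ s ∈ F.fixingSubgroup, (c : GQ → (M.dualTwist (cycloChar p))) s = 0 := fun s hs => by
    have e := hFc 1 s hs
    rw [one_mul] at e
    exact e.trans hc1
  have hLc : ∀ s ∈ L.fixingSubgroup, (c : GQ → (M.dualTwist (cycloChar p))) s = 0 := fun s hs => by
    have hsK := IntermediateField.fixingSubgroup_antitone h hs
    refine (DualA.of M K).injective (dualA_ext M K fun m => ?_)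
    rw [map_zero, map_zero]
    let φ : K.fixingSubgroup →* Multiplicative (ZMod p) := MonoidHom.mk'
      (fun t => Multiplicative.ofAdd (DualA.eval M K m (DualA.of M K ((c : GQ → (M.dualTwist (cycloChar p))) t))))
      fun a b => by
        rw [Subgroup.coe_mul, hc, hρK _ a.2, map_add, map_add, ofAdd_add, mul_comm]
    have h1 := hmax φ F (fun t ht => by
      show Multiplicative.ofAdd _ = 1
      rw [hFs _ ht, map_zero, map_zero, ofAdd_zero]) (fun q hq B hB t ht => by
      show Multiplicative.ofAdd _ = 1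
      rw [hFs _ (hF.2 q hq B hB ht), map_zero, map_zero, ofAdd_zero]) ⟨s, hsK⟩ hs
    exact Multiplicative.ofAdd.injective h1
  have hcL : ∀ g g' : GQ, res L g = res L g' → (c : GQ → (M.dualTwist (cycloChar p))) g = (c : GQ → (M.dualTwist (cycloChar p))) g' := fun g g' hgg => by
    have e := hc g (g⁻¹ * g')
    rw [mul_inv_cancel_left, hLc _ ((res_eq_iff L).1 hgg), map_zero, zero_add] at e
    exact e.symm
  let a : (L ≃ₐ[ℚ] L) → DualA M K := fun σ => DualA.of M K ((c : GQ → (M.dualTwist (cycloChar p))) (lift L σ))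
  have ha : ∀ g, a (res L g) = DualA.of M K ((c : GQ → (M.dualTwist (cycloChar p))) g) := fun g =>
    congrArg (DualA.of M K) (hcL _ _ (res_lift L _))
  refine ⟨⟨a, fun σ τ => ?_⟩, fun q hq => ?_, c, hcy, ha⟩
  · obtain ⟨g, rfl⟩ := AlgEquiv.restrictNormalHom_surjective (K₁ := L) QBar σ
    obtain ⟨g', rfl⟩ := AlgEquiv.restrictNormalHom_surjective (K₁ := L) QBar τ
    show a (res L g * res L g') = levelRes h (res L g) • a (res L g') + a (res L g)
    rw [← map_mul, ha, ha, ha, hc, map_add, res_loc_eq]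
  · have hall : ∀ v : extArithIndex S, ∃ x : M.dualTwist (cycloChar p), ∀ t,
        (M.dualTwist (cycloChar p)).ρ (extArithLoc S v t) x - x =
          (c : GQ → M.dualTwist (cycloChar p)) (extArithLoc S v t) := fun v => by
      have h1 : (locRes (extArithLoc S) (M.dualTwist (cycloChar p)) v).hom
          ((H1π (M.dualTwist (cycloChar p))).hom c) = 0 := by
        rw [hcy]; exact congrFun (LinearMap.mem_ker.1 hloc) v
      rw [H1π_comp_map_apply, H1π_eq_zero_iff] at h1
      obtain ⟨x, hx⟩ := h1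
      exact ⟨x, fun t => congrFun hx t⟩
    obtain ⟨x, hx⟩ := hall (Sum.inr ⟨q, hq⟩)
    refine ⟨DualA.of M K x, fun g hg => ?_⟩
    obtain ⟨s, rfl⟩ := exists_loc_of_mem_decomp hg
    show a _ = _
    rw [ha, res_loc_eq, ← map_sub]
    exact congrArg (DualA.of M K) (hx s).symm

/-- A level cocycle trivial at `S` inflates to a class in `Ш¹`. -/
theorem exists_sha₁_of_levelCocycle (hp2 : p ≠ 2) (hur : L.IsUnramifiedOutside S)
    (a : levelCocycles (levelRes h) (DualA M K))
    (ha : ∀ q ∈ S, ∃ x : DualA M K, ∀ g ∈ decomp L q,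
      (a : (L ≃ₐ[ℚ] L) → DualA M K) g = levelRes h g • x - x) :
    ∃ c : cocycles₁ (M.dualTwist (cycloChar p)),
      (H1π (M.dualTwist (cycloChar p))).hom c ∈ sha₁ S (M.dualTwist (cycloChar p)) ∧
        ∀ g, DualA.of M K ((c : GQ → M.dualTwist (cycloChar p)) g) =
          (a : (L ≃ₐ[ℚ] L) → DualA M K) (res L g) := by
  let c₀ : GQ → (M.dualTwist (cycloChar p)) := fun g => (DualA.of M K).symm ((a : (L ≃ₐ[ℚ] L) → DualA M K) (res L g))
  have hc₀ : c₀ ∈ cocycles₁ (M.dualTwist (cycloChar p)) := (mem_cocycles₁_iff _).2 fun g g' => (DualA.of M K).injective (by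
    simp only [c₀, map_add, AddEquiv.apply_symm_apply, map_mul, a.2 (res L g) (res L g')]
    rw [← res_loc_eq M K h, AddEquiv.apply_symm_apply])
  let c : cocycles₁ (M.dualTwist (cycloChar p)) := ⟨c₀, hc₀⟩
  refine ⟨c, Submodule.mem_inf.2 ⟨(mem_continuousH1S_iff _ _ _).2
    ⟨c, ⟨L, hur, fun g s hs => ?_⟩, rfl⟩, LinearMap.mem_ker.2 (funext fun v => ?_)⟩,
    fun g => AddEquiv.apply_symm_apply _ _⟩
  · show c₀ (g * s) = c₀ g
    simp only [c₀, res_mul_of_mem_fixingSubgroup g hs]
  · have hall : ∀ v : extArithIndex S, ∃ x : M.dualTwist (cycloChar p), ∀ t,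
        (M.dualTwist (cycloChar p)).ρ (extArithLoc S v t) x - x =
          (c : GQ → M.dualTwist (cycloChar p)) (extArithLoc S v t) := fun v => by
      rcases v with ⟨⟩ | ⟨q, hq⟩
      · exact exists_arch_eq M hp2 c
      · obtain ⟨x, hx⟩ := ha q hq
        refine ⟨(DualA.of M K).symm x, fun s => (DualA.of M K).injective ?_⟩
        show DualA.of M K ((M.dualTwist (cycloChar p)).ρ (primeLocalToGlobal q s) _ - _) =
          DualA.of M K (c₀ (primeLocalToGlobal q s))
        simp only [c₀, map_sub, AddEquiv.apply_symm_apply, hx _ (res_loc_mem_decomp q s)]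
        rw [← res_loc_eq M K h, AddEquiv.apply_symm_apply]
    obtain ⟨x, hx⟩ := hall v
    rw [locTotal_apply, H1π_comp_map_apply, Pi.zero_apply, H1π_eq_zero_iff]
    exact ⟨x, funext hx⟩

end Fermat.Agent.CFT.PT
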