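import Fermat.Agent.CFT.PT.ShaClasses
import Fermat.Agent.CFT.PT.LocalPerfect
import Fermat.Agent.CFT.PT.Arith.Level
import Fermat.Agent.CFT.Idele.Fundamental

/-!
# The pairing between `Ш¹` of the twisted dual and `Ш²`
-/

set_option autoImplicit false
set_option synthInstance.maxHeartbeats 200000
set_option maxHeartbeats 1600000
set_option linter.unusedSectionVars false
set_option linter.style.haveILetI false

noncomputable section

namespace Fermat.Agent.CFT.PT

open ExtCitation Fermat.Agent.Arith IntermediateField Fermat.Agent.CFT.Local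
open Fermat.Agent.CFT.Idele hiding inclC inclC_injective exists_inclC_eq
open Fermat.Agent.CFT.Duality groupCohomology Module

local instance factPrimeShaPairing (q : Nat.Primes) : Fact (q : ℕ).Prime := ⟨q.2⟩

variable {p : ℕ} [hp : Fact p.Prime]

variable (p) in
/-- A local fundamental class compatible with the global class formation at every prime. -/
def HasLocalClasses (L : IntermediateField ℚ QBar) [FiniteDimensional ℚ L] [Normal ℚ L] : Prop :=
  ∀ q : Nat.Primes, ∃ c : NormCocycle (E L q ≃ₐ[ℚ_[(q : ℕ)]] E L q) (Additive (E L q)ˣ),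
    IsClassFormation p c ∧
    ∀ H : Subgroup (E L q ≃ₐ[ℚ_[(q : ℕ)]] E L q), IsPGroup p H → ∀ (k : ℤ) (b : H → C L),
      (∀ g g' : H, toGlobal (q : ℕ) L (g : E L q ≃ₐ[ℚ_[(q : ℕ)]] E L q) • b g' - b (g * g') + b g =
        k • proj L (loc' L q (c.toFun ((g : E L q ≃ₐ[ℚ_[(q : ℕ)]] E L q),
          (g' : E L q ≃ₐ[ℚ_[(q : ℕ)]] E L q))))) →
      (Nat.card H : ℤ) ∣ k

variable (M : Rep (ZMod p) GQ) [FiniteDimensional (ZMod p) M]

/-- The pairing at a level, given a maximal elementary abelian level above it. -/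
theorem exists_pairing_at (hp2 : p ≠ 2) (S : Finset Nat.Primes) (hpS : pPrime p ∈ S)
    (K : IntermediateField ℚ QBar) [FiniteDimensional ℚ K] [Normal ℚ K]
    (hK : K.IsUnramifiedOutside S) {ζ : QBar} (hζ : IsPrimitiveRoot ζ p) (hζK : ζ ∈ K)
    [TrivialOver M K]
    (hlocal : ∀ (L : IntermediateField ℚ QBar) [FiniteDimensional ℚ L] [Normal ℚ L],
      ζ ∈ L → HasLocalClasses p L) :
    ∃ B : sha₁ S (M.dualTwist (cycloChar p)) →ₗ[ZMod p] sha₂ S M →ₗ[ZMod p] ZMod p,
      (∀ y, (∀ x, B y x = 0) → y = 0) ∧ (∀ x, (∀ y, B y x = 0) → x = 0) := by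
  classical
  haveI : Finite (DualA M K) := finite_dualA M K
  letI : Fintype (DualA M K) := Fintype.ofFinite _
  have hε : Presentation p (presA M K) := presentation_presA M K
  have hinert := (isUnramifiedOutside_iff K S).1 hK
  obtain ⟨L, hfd, hn, h, hur, hTL, hk, -, hN, hmax⟩ :=
    exists_kummerExtension (T := S) hp2 hζ hζK hpS hinert
  letI := hfd; letI := hn
  haveI : Fintype (levelRes h).ker := Fintype.ofFinite _
  have hζL : IsPrimitiveRoot (⟨ζ, h hζK⟩ : L) p := IsPrimitiveRoot.coe_submonoidClass_iff.1 hζ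
  obtain ⟨u, hu₀⟩ := exists_fundamental L hp2 hζL
  have hA : CFT.StepAxioms p (L ≃ₐ[ℚ] L) (C L) := stepAxioms L hp2 hζL
  have hu : IsClassFormation p u := hA.isClassFormation u hu₀
  have hperf : ∀ q ∈ S, ∀ a : levelCocycles (levelRes h) (DualA M K),
      (∀ w : equivHom (C := J K) hε.isStable_ker, (∀ s, w.1 s ∈ supportedIn K {q}) →
        dual hε h hu hk (projHom hε w) a = 0) →
      ∃ x : DualA M K, ∀ g ∈ decomp L q,
        (a : (L ≃ₐ[ℚ] L) → DualA M K) g = levelRes h g • x - x := fun q _ a ha => by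
    obtain ⟨c, hc, hcord⟩ := hlocal L (h hζK) q
    exact trivial_at_of_dual hε h hu hk q hA hc hcord a ha
  have hN' : ∀ x : C L, ∃ c : C K, ∃ w ∈ unitsOff K (S : Set Nat.Primes),
      normSum (levelRes h).ker (C L) x = inclC h (p • c + proj K w) := hN
  choose a ha ca hcay haca using fun y => exists_levelCocycle_of_sha₁ M K S h hur hζK hmax y
  choose c hcx hc using exists_isSha M K hζ S
  choose f hf using fun x => exists_linked_of_isSha hε hp2 hζ hζK hK (hc x)
  let D := dual hε h hu hk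
  have hkillA : ∀ {g : equivHom (C := C K) hε.isStable_ker}, g ∈ allow hε S →
      ∀ y, D g (a y) = 0 := fun hg y => dual_allow hε h hu hk S hTL hg (ha y)
  have haddx : ∀ x x', f (x + x') - (f x + f x') ∈ allow hε S := fun x x' => by
    have hmem : (c (x + x') - (c x + c x') : levelCocyclesS₂ S M).1 ∈ levelCoboundariesS₂ S M := by
      rw [← continuousH2Sπ_eq_zero_iff, map_sub, map_add, hcx, hcx, hcx, Submodule.coe_add, sub_self]
    obtain ⟨m, hm, hmd⟩ := exists_dd_of_mem_coboundaries M K hζ S hmem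
    have hl' : Linked hε S ((fun g => eta M K hζ ((c x : GQ × GQ → M) g)) +
        fun g => eta M K hζ ((c x' : GQ × GQ → M) g)) (f x + f x').1 := (hf x).add (hf x')
    refine sub_mem_allow hε hK hζ hζK (hf (x + x')) hl' m hm fun g g' => ?_
    rw [← hmd]
    simp only [Submodule.coe_sub, Submodule.coe_add, Pi.sub_apply, Pi.add_apply, map_sub, map_add]
  have haddy : ∀ (g : equivHom (C := C K) hε.isStable_ker) y y',
      D g (a (y + y')) = D g (a y) + D g (a y') := fun g y y' => by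
    have hz : (H1π (M.dualTwist (cycloChar p))).hom (ca (y + y') - (ca y + ca y')) = 0 := by
      rw [(H1π _).hom.map_sub, (H1π _).hom.map_add, hcay, hcay, hcay, Submodule.coe_add, sub_self]
    obtain ⟨x, hx⟩ := (H1π_eq_zero_iff _).1 hz
    rw [← map_add, ← sub_eq_zero, ← map_sub]
    refine theta_coboundary (levelSystem h hu hk) hε g _ (DualA.of M K x) fun σ => ?_
    obtain ⟨s, rfl⟩ := AlgEquiv.restrictNormalHom_surjective (K₁ := L) QBar σ
    rw [res_loc_eq, ← map_sub]
    simp only [AddSubgroup.coe_sub, AddSubgroup.coe_add, Pi.sub_apply, Pi.add_apply, haca]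
    simp only [← map_add, ← map_sub]
    exact congrArg (DualA.of M K) (congrFun hx s).symm
  have haddB : ∀ x x' y, D (f (x + x')) (a y) = D (f x) (a y) + D (f x') (a y) := fun x x' y => by
    have e := hkillA (haddx x x') y
    have e1 : D (f (x + x') - (f x + f x')) = D (f (x + x')) - (D (f x) + D (f x')) :=
      (D.map_sub _ _).trans (congrArg (D (f (x + x')) - ·) (D.map_add _ _))
    rw [e1, AddMonoidHom.sub_apply, AddMonoidHom.add_apply] at e
    exact sub_eq_zero.1 e
  let row : sha₁ S (M.dualTwist (cycloChar p)) → (sha₂ S M →ₗ[ZMod p] ZMod p) := fun y =>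
    (AddMonoidHom.mk' (fun x => D (f x) (a y)) fun x x' => haddB x x' y).toZModLinearMap p
  let B : sha₁ S (M.dualTwist (cycloChar p)) →ₗ[ZMod p] sha₂ S M →ₗ[ZMod p] ZMod p :=
    (AddMonoidHom.mk' row fun y y' => LinearMap.ext fun x => haddy (f x) y y').toZModLinearMap p
  have hB : ∀ y x, B y x = D (f x) (a y) := fun y x => rfl
  refine ⟨B, fun y hy => ?_, fun x hx => ?_⟩
  · have hall : ∀ g, D g (a y) = 0 := fun g => by
      obtain ⟨c₁, hc₁, hl₁⟩ := exists_isSha_of_equiv hε hp2 hpS hK g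
      obtain ⟨c', hc'mem, hc'eq⟩ := exists_class_of_isSha M K hζ S c₁ hc₁
      have hd : g - f ⟨_, hc'mem⟩ ∈ allow hε S := by
        have hmem : (c' - c ⟨_, hc'mem⟩ : levelCocyclesS₂ S M).1 ∈ levelCoboundariesS₂ S M := by
          rw [← continuousH2Sπ_eq_zero_iff, map_sub, hcx, sub_self]
        obtain ⟨m, hm, hmd⟩ := exists_dd_of_mem_coboundaries M K hζ S hmem
        refine sub_mem_allow hε hK hζ hζK hl₁ (hf _) m hm fun s t => ?_
        rw [← hmd, ← hc'eq]
        simp only [Submodule.coe_sub, Pi.sub_apply, map_sub]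
      have e := hkillA hd y
      rw [D.map_sub, AddMonoidHom.sub_apply, ← hB, hy, sub_zero] at e
      exact e
    have hex : ∃ x : DualA M K, ∀ σ, (a y : (L ≃ₐ[ℚ] L) → DualA M K) σ = levelRes h σ • x - x := by
      by_contra hne
      obtain ⟨g, hg⟩ := exists_dual_ne_zero hε h hu hk (a y) hne
      exact hg (hall g)
    obtain ⟨x, hx⟩ := hex
    refine Subtype.ext ?_
    rw [Submodule.coe_zero, ← hcay y, H1π_eq_zero_iff]
    refine ⟨(DualA.of M K).symm x, funext fun s => (DualA.of M K).injective ?_⟩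
    rw [← haca, hx]
    show DualA.of M K ((M.dualTwist (cycloChar p)).ρ s _ - _) = _
    rw [map_sub, ← res_loc_eq M K h, AddEquiv.apply_symm_apply]
  · have hkill : ∀ b ∈ locTrivialCocycles (DualA M K) h S, D (f x) b = 0 := fun b hb => by
      obtain ⟨cb, hcb, hcbb⟩ := exists_sha₁_of_levelCocycle M K S h hp2 hur b hb
      have hz : (H1π (M.dualTwist (cycloChar p))).hom (ca ⟨_, hcb⟩ - cb) = 0 := by
        rw [(H1π _).hom.map_sub, hcay, sub_self]
      obtain ⟨z, hz'⟩ := (H1π_eq_zero_iff _).1 hz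
      have e : D (f x) (a ⟨_, hcb⟩) = D (f x) b := by
        rw [← sub_eq_zero, ← map_sub]
        refine theta_coboundary (levelSystem h hu hk) hε (f x) _ (DualA.of M K z) fun σ => ?_
        obtain ⟨s, rfl⟩ := AlgEquiv.restrictNormalHom_surjective (K₁ := L) QBar σ
        rw [res_loc_eq, ← map_sub, AddSubgroup.coe_sub, Pi.sub_apply, haca, ← hcbb, ← map_sub]
        exact congrArg (DualA.of M K) (congrFun hz' s).symm
      rw [← e, ← hB, hx]
    have hallow := mem_allow_of_dual hε h hu hk S hN' hperf (f x) hkill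
    obtain ⟨m, hm, hmd⟩ := exists_cochain_of_allow hε hpS hK (hf x) hallow
    refine Subtype.ext ?_
    rw [Submodule.coe_zero, ← hcx x, continuousH2Sπ_eq_zero_iff]
    exact mem_coboundaries_of_dd M K hζ S m hm hmd

/-- The pairing, given the local classes. -/
theorem exists_pairing (hp2 : p ≠ 2) (S : Finset Nat.Primes) (hpS : pPrime p ∈ S)
    (hsm : ∀ m : M, ∃ F : IntermediateField ℚ QBar, FiniteDimensional ℚ F ∧
      ∀ s ∈ F.fixingSubgroup, M.ρ s m = m)
    (hMur : ∀ q : Nat.Primes, q ∉ S → ∀ A : ValuationSubring QBar,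
      A.LiesOverPrime (q : ℕ) → ∀ g ∈ A.inertiaSubgroupIn ℚ, M.ρ g = 1)
    (hlocal : ∀ (ζ : QBar), IsPrimitiveRoot ζ p →
      ∀ (L : IntermediateField ℚ QBar) [FiniteDimensional ℚ L] [Normal ℚ L],
        ζ ∈ L → HasLocalClasses p L) :
    ∃ B : sha₁ S (M.dualTwist (cycloChar p)) →ₗ[ZMod p] sha₂ S M →ₗ[ZMod p] ZMod p,
      (∀ y, (∀ x, B y x = 0) → y = 0) ∧ (∀ x, (∀ y, B y x = 0) → x = 0) := by
  obtain ⟨K, hfd, hn, hK, ⟨ζ, hζK, hζ⟩, hKM⟩ := exists_level S hpS M hsm hMur
  letI := hfd; letI := hn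
  haveI : TrivialOver M K := ⟨hKM, ζ, hζK, hζ⟩
  exact exists_pairing_at M hp2 S hpS K hK hζ hζK (hlocal ζ hζ)

end Fermat.Agent.CFT.PT
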