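import Fermat.Agent.CFT.Coh.Lattice

/-!
# Homomorphisms with the conjugation action

`TwHom` is the module of homomorphisms with `g` acting by conjugation through a quotient map.
`isCoboundary₁_twHom_of_h1Zero`: its cocycles out of a free lattice are coboundaries when the
kernel has trivial `H¹` on the values.
-/

set_option autoImplicit false
set_option linter.unusedSectionVars false
set_option linter.style.haveILetI false

noncomputable section

namespace Fermat.Agent.CFT.PT

open groupCohomology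

variable {G G₀ : Type*} [Group G] [Group G₀] (π : G →* G₀)

/-- Homomorphisms, with `g` acting by `φ ↦ g • φ (π g⁻¹ • ·)`. -/
@[nolint unusedArguments]
def TwHom {G G₀ : Type*} [Group G] [Group G₀] (_π : G →* G₀) (P X : Type*) [AddCommGroup P]
    [AddCommGroup X] : Type _ := P →+ X

variable {π} {P X : Type*} [AddCommGroup P] [AddCommGroup X]

namespace TwHom

instance : AddCommGroup (TwHom π P X) := inferInstanceAs (AddCommGroup (P →+ X))

/-- A homomorphism as a twisted homomorphism. -/
def of (φ : P →+ X) : TwHom π P X := φ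

/-- The underlying homomorphism. -/
def toHom (φ : TwHom π P X) : P →+ X := φ

instance : FunLike (TwHom π P X) P X where
  coe φ := φ.toHom
  coe_injective φ ψ h := @DFunLike.coe_injective (P →+ X) P _ _ φ.toHom ψ.toHom h

instance : AddMonoidHomClass (TwHom π P X) P X where
  map_add φ := map_add φ.toHom
  map_zero φ := map_zero φ.toHom

@[simp] theorem of_apply (φ : P →+ X) (x : P) : (of φ : TwHom π P X) x = φ x := rfl
@[simp] theorem toHom_apply (φ : TwHom π P X) (x : P) : φ.toHom x = φ x := rfl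

@[ext] theorem ext {φ ψ : TwHom π P X} (h : ∀ x, φ x = ψ x) : φ = ψ := DFunLike.ext _ _ h

@[simp] theorem add_apply (φ ψ : TwHom π P X) (x : P) : (φ + ψ) x = φ x + ψ x := rfl
@[simp] theorem sub_apply (φ ψ : TwHom π P X) (x : P) : (φ - ψ) x = φ x - ψ x := rfl
@[simp] theorem neg_apply (φ : TwHom π P X) (x : P) : (-φ) x = -φ x := rfl
@[simp] theorem zero_apply (x : P) : (0 : TwHom π P X) x = 0 := rfl

@[simp] theorem nsmul_apply (n : ℕ) (φ : TwHom π P X) (x : P) : (n • φ) x = n • φ x :=
  map_nsmul (AddMonoidHom.mk' (fun ψ : TwHom π P X => ψ x) fun _ _ => rfl) n φ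

@[simp] theorem zsmul_apply (n : ℤ) (φ : TwHom π P X) (x : P) : (n • φ) x = n • φ x :=
  map_zsmul (AddMonoidHom.mk' (fun ψ : TwHom π P X => ψ x) fun _ _ => rfl) n φ

variable [DistribMulAction G₀ P] [DistribMulAction G X]

instance : SMul G (TwHom π P X) :=
  ⟨fun g φ => of ((DistribSMul.toAddMonoidHom X g).comp
    (φ.toHom.comp (DistribSMul.toAddMonoidHom P (π g⁻¹))))⟩

@[simp] theorem smul_apply (g : G) (φ : TwHom π P X) (x : P) :
    (g • φ) x = g • φ (π g⁻¹ • x) := rfl

instance : DistribMulAction G (TwHom π P X) where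
  one_smul φ := ext fun x => by simp
  mul_smul g h φ := ext fun x => by simp [mul_smul]
  smul_zero g := ext fun x => by simp
  smul_add g φ ψ := ext fun x => by simp

variable {Y : Type*} [AddCommGroup Y]

/-- Composition with a homomorphism on the values. -/
def map (f : X →+ Y) : TwHom π P X →+ TwHom π P Y :=
  AddMonoidHom.mk' (fun φ => of (f.comp φ.toHom)) fun φ ψ => ext fun x => map_add f (φ x) (ψ x)

@[simp] theorem map_apply (f : X →+ Y) (φ : TwHom π P X) (x : P) : map f φ x = f (φ x) := rfl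

theorem map_smul [DistribMulAction G Y] (f : X →+ Y) (hf : ∀ (g : G) x, f (g • x) = g • f x)
    (g : G) (φ : TwHom π P X) : map f (g • φ) = g • map f φ := ext fun _ => hf g _

variable {Q : Type*} [AddCommGroup Q]

/-- Precomposition. -/
def pre (f : Q →+ P) : TwHom π P X →+ TwHom π Q X :=
  AddMonoidHom.mk' (fun φ => of (φ.toHom.comp f)) fun _ _ => rfl

@[simp] theorem pre_apply (f : Q →+ P) (φ : TwHom π P X) (x : Q) : pre f φ x = φ (f x) := rfl

theorem pre_smul [DistribMulAction G₀ Q] (f : Q →+ P) (hf : ∀ (g : G₀) x, f (g • x) = g • f x)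
    (g : G) (φ : TwHom π P X) : pre f (g • φ) = g • pre f φ := ext fun x => by simp [hf]

end TwHom

variable [DistribMulAction G X] {ι : Type*} [Fintype ι] [Fintype G₀]

/-- A cocycle with values in homomorphisms from the lattice is a coboundary, if its components on
the kernel are. -/
theorem exists_twHom_of_cocycle (V : AddSubgroup X) (hVs : ∀ (g : G), ∀ v ∈ V, g • v ∈ V)
    (t : G → TwHom π (Lat G₀ ι) X) (ht : IsCocycle₁ t) (htV : ∀ g x, t g x ∈ V)
    (h : ∀ (i : ι) (r : G₀), ∃ y ∈ V, ∀ n : π.ker, (n : G) • y - y = t (n : G) (Lat.e i r)) :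
    ∃ y : TwHom π (Lat G₀ ι) X, (∀ x, y x ∈ V) ∧ ∀ g, g • y - y = t g := by
  classical
  let rep : G₀ → G₀ := fun x => (Quotient.mk (QuotientGroup.rightRel π.range) x).out
  have hrep : ∀ x, ∃ h : G, π h * rep x = x := fun x => by
    have h1 := QuotientGroup.rightRel_apply.mp
      (Quotient.mk_out (s := QuotientGroup.rightRel π.range) x)
    obtain ⟨g, hg⟩ := MonoidHom.mem_range.mp h1
    exact ⟨g, by rw [hg, inv_mul_cancel_right]⟩
  have hrep_mul : ∀ (g : G) x, rep (π g * x) = rep x := fun g x =>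
    congr_arg Quotient.out (Quotient.sound (QuotientGroup.rightRel_apply.mpr
      (MonoidHom.mem_range.mpr ⟨g⁻¹, by simp⟩)))
  choose hx hhx using hrep
  choose y hyV hy using fun i r => h i r
  let v : ι → G₀ → X := fun i x => hx x • y i (rep x) - t (hx x) (Lat.e i x)
  have hind : ∀ i x (k : G), π k * rep x = x → v i x = k • y i (rep x) - t k (Lat.e i x) := by
    intro i x k hk
    set k₀ := hx x
    have hn : k⁻¹ * k₀ ∈ π.ker := by
      rw [MonoidHom.mem_ker, map_mul, map_inv, inv_mul_eq_one]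
      exact mul_right_cancel (hk.trans (hhx x).symm)
    have e : (k⁻¹ * k₀) • y i (rep x) - y i (rep x) = t (k⁻¹ * k₀) (Lat.e i (rep x)) :=
      hy i (rep x) ⟨_, hn⟩
    have e2 := congr_arg (fun φ : TwHom π (Lat G₀ ι) X => φ (Lat.e i x)) (ht k (k⁻¹ * k₀))
    simp only [mul_inv_cancel_left, TwHom.add_apply, TwHom.smul_apply, Lat.smul_e] at e2
    have hx' : π k⁻¹ * x = rep x := by
      conv_lhs => rw [← hk, map_inv, inv_mul_cancel_left]
    rw [hx', ← e, smul_sub, smul_smul, mul_inv_cancel_left] at e2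
    show k₀ • y i (rep x) - t k₀ (Lat.e i x) = _
    rw [e2]
    abel
  refine ⟨TwHom.of (Lat.ofBasis v), fun z => ?_, fun g => ?_⟩
  · rw [TwHom.of_apply, Lat.eq_sum z, map_sum]
    refine sum_mem fun q _ => ?_
    rw [map_zsmul, Lat.ofBasis_e]
    exact zsmul_mem (sub_mem (hVs _ _ (hyV _ _)) (htV _ _)) _
  show (g • TwHom.of (Lat.ofBasis v) - TwHom.of (Lat.ofBasis v) : TwHom π (Lat G₀ ι) X) = t g
  have he : (g • TwHom.of (Lat.ofBasis v) - TwHom.of (Lat.ofBasis v) :
      TwHom π (Lat G₀ ι) X).toHom = (t g).toHom := Lat.hom_ext fun i x => by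
    simp only [TwHom.toHom_apply, TwHom.sub_apply, TwHom.smul_apply, TwHom.of_apply, Lat.smul_e,
      Lat.ofBasis_e]
    have hk : π (g⁻¹ * hx x) * rep (π g⁻¹ * x) = π g⁻¹ * x := by
      rw [hrep_mul, map_mul, mul_assoc, hhx]
    rw [hind i _ _ hk, hrep_mul, smul_sub, smul_smul, mul_inv_cancel_left]
    have e := congr_arg (fun φ : TwHom π (Lat G₀ ι) X => φ (Lat.e i x)) (ht g (g⁻¹ * hx x))
    simp only [mul_inv_cancel_left, TwHom.add_apply, TwHom.smul_apply, Lat.smul_e] at e
    show _ - (hx x • y i (rep x) - t (hx x) (Lat.e i x)) = _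
    rw [e]
    abel
  exact TwHom.ext fun z => DFunLike.congr_fun he z

/-- A cocycle with values in homomorphisms from the lattice is a coboundary, if its components on
the kernel are. -/
theorem isCoboundary₁_twHom (t : G → TwHom π (Lat G₀ ι) X) (ht : IsCocycle₁ t)
    (h : ∀ (i : ι) (r : G₀), IsCoboundary₁ fun n : π.ker => t (n : G) (Lat.e i r)) :
    IsCoboundary₁ t := by
  obtain ⟨y, -, hy⟩ := exists_twHom_of_cocycle ⊤ (fun _ _ _ => AddSubgroup.mem_top _) t ht
    (fun _ _ => AddSubgroup.mem_top _) fun i r => by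
      obtain ⟨y, hy⟩ := h i r
      exact ⟨y, AddSubgroup.mem_top _, hy⟩
  exact ⟨y, hy⟩

/-- A cocycle with values in homomorphisms from the lattice is a coboundary, if the kernel has
trivial first cohomology on the values. -/
theorem isCoboundary₁_twHom_of_h1Zero (t : G → TwHom π (Lat G₀ ι) X) (ht : IsCocycle₁ t)
    (h : H1Zero π.ker X) : IsCoboundary₁ t :=
  isCoboundary₁_twHom t ht fun i r => h _ fun m n => by
    have e := congr_arg (fun φ : TwHom π (Lat G₀ ι) X => φ (Lat.e i r)) (ht (m : G) n)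
    simp only [TwHom.add_apply, TwHom.smul_apply, map_inv, MonoidHom.mem_ker.mp m.2, inv_one,
      one_smul] at e
    exact e

end Fermat.Agent.CFT.PT
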